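import Fermat.Agent.Common.PlaceBridge

/-!
# The mod `p` cyclotomic character of `G_ℚ` in the language of the Prelude (project GAL)
-/

set_option autoImplicit false
open Polynomial
open Fermat.Agent.S54 Fermat.Agent.Bridge

namespace Fermat.Agent.GAL

local notation "Qbar" => AlgebraicClosure ℚ
local notation "GQ" => (AlgebraicClosure ℚ ≃ₐ[ℚ] AlgebraicClosure ℚ)
local notation "Zbar" => integralClosure ℤ (AlgebraicClosure ℚ)

theorem card_rootsOfUnity_Qbar (p : ℕ) [NeZero p] : Nat.card (rootsOfUnity p Qbar) = p :=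
  HasEnoughRootsOfUnity.natCard_rootsOfUnity Qbar p

/-- The mod `p` cyclotomic character. -/
noncomputable def cycloChar (p : ℕ) [NeZero p] : GQ →* (ZMod p)ˣ where
  toFun σ := modularCyclotomicCharacter Qbar (card_rootsOfUnity_Qbar p) (σ : Qbar ≃+* Qbar)
  map_one' := map_one _
  map_mul' σ τ := map_mul (modularCyclotomicCharacter Qbar (card_rootsOfUnity_Qbar p))
    (σ : Qbar ≃+* Qbar) (τ : Qbar ≃+* Qbar)

theorem cycloChar_spec (p : ℕ) [NeZero p] (σ : GQ) {ζ : Qbar} (hζ : ζ ^ p = 1) :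
    σ ζ = ζ ^ ((cycloChar p σ : ZMod p)).val := by
  have hu : IsUnit ζ := IsUnit.of_pow_eq_one hζ (NeZero.ne p)
  obtain ⟨u, rfl⟩ := hu
  have hmem : u ∈ rootsOfUnity p Qbar := by
    rw [mem_rootsOfUnity]
    exact Units.ext (by simpa using hζ)
  exact modularCyclotomicCharacter.spec Qbar (card_rootsOfUnity_Qbar p) (σ : Qbar ≃+* Qbar) hmem

theorem cycloChar_eq_of_primitiveRoot (p : ℕ) [NeZero p] (σ : GQ) {ζ : Qbar}
    (hζ : IsPrimitiveRoot ζ p) {c : ℕ} (hc : σ ζ = ζ ^ c) : (cycloChar p σ : ZMod p) = c := by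
  have h1 := cycloChar_spec p σ hζ.pow_eq_one
  rw [hc] at h1
  have hfin : IsOfFinOrder ζ :=
    isOfFinOrder_iff_pow_eq_one.mpr ⟨p, Nat.pos_of_ne_zero (NeZero.ne p), hζ.pow_eq_one⟩
  have h2 := hfin.pow_eq_pow_iff_modEq.mp h1
  rw [← hζ.eq_orderOf] at h2
  rw [← ZMod.natCast_zmod_val (cycloChar p σ : ZMod p)]
  exact ((ZMod.natCast_eq_natCast_iff _ _ _).mpr h2).symm

theorem exists_primitiveRoot_Zbar (p : ℕ) [NeZero p] :
    ∃ ζ : Zbar, IsPrimitiveRoot (ζ : Qbar) p := by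
  obtain ⟨ζ, hζ⟩ := HasEnoughRootsOfUnity.exists_primitiveRoot Qbar p
  exact ⟨⟨ζ, hζ.isIntegral (Nat.pos_of_ne_zero (NeZero.ne p))⟩, hζ⟩

/-- The cyclotomic character factors through a finite level. -/
theorem cycloChar_finiteLevel (p : ℕ) [NeZero p] :
    ∃ L : IntermediateField ℚ Qbar, FiniteDimensional ℚ L ∧
      ∀ σ : GQ, (∀ x ∈ L, σ x = x) → cycloChar p σ = 1 := by
  obtain ⟨ζ, hζ⟩ := exists_primitiveRoot_Zbar p
  refine ⟨IntermediateField.adjoin ℚ {(ζ : Qbar)},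
    IntermediateField.adjoin.finiteDimensional (Algebra.IsIntegral.isIntegral _), fun σ hσ => ?_⟩
  have h1 : σ (ζ : Qbar) = (ζ : Qbar) ^ 1 := by
    rw [pow_one]
    exact hσ _ (IntermediateField.mem_adjoin_simple_self ℚ _)
  have h2 := cycloChar_eq_of_primitiveRoot p σ hζ h1
  exact Units.ext (by simpa using h2)

section Places

variable {p : ℕ} [Fact p.Prime] {ℓ : ℕ} {A : ValuationSubring Qbar} {σ : GQ}

/-- A primitive `p`-th root of unity has order `p` modulo a place not above `p`. -/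
theorem orderOf_mk_primitiveRoot (hℓ : ℓ.Prime) (hℓp : ℓ ≠ p) (hA : A.LiesOverPrime ℓ)
    {ζ : Zbar} (hζ : IsPrimitiveRoot (ζ : Qbar) p) :
    orderOf (Ideal.Quotient.mk (centre A) ζ) = p := by
  have hp : p.Prime := Fact.out
  have hζ' : IsPrimitiveRoot ζ p :=
    IsPrimitiveRoot.of_map_of_injective (f := (integralClosure ℤ Qbar).val) hζ
      Subtype.val_injective
  refine orderOf_eq_prime ?_ ?_
  · rw [← map_pow, hζ'.pow_eq_one, map_one]
  · intro h1
    have hroot : (cyclotomic p Zbar).IsRoot ζ := hζ'.isRoot_cyclotomic hp.pos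
    have h2 : eval (Ideal.Quotient.mk (centre A) ζ) (cyclotomic p (Zbar ⧸ centre A)) = 0 := by
      rw [← map_cyclotomic p (Ideal.Quotient.mk (centre A)), eval_map_apply, hroot.eq_zero,
        map_zero]
    rw [h1, eval_one_cyclotomic_prime] at h2
    have h3 : (p : Zbar) ∈ centre A := by
      rw [← Ideal.Quotient.eq_zero_iff_mem, map_natCast]
      exact h2
    have h4 : (ℓ : Zbar) ∈ centre A := natCast_mem_centre hA
    have hcop : Nat.Coprime p ℓ := (Nat.coprime_primes hp hℓ).mpr (Ne.symm hℓp)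
    have h5 : (1 : Zbar) ∈ centre A := by
      have h6 := Nat.isCoprime_iff_coprime.mpr hcop
      obtain ⟨a, b, hab⟩ := h6
      have h7 : (1 : Zbar) = (a : Zbar) * (p : Zbar) + (b : Zbar) * (ℓ : Zbar) := by
        have := congrArg (Int.cast : ℤ → Zbar) hab
        push_cast at this
        exact this.symm
      rw [h7]
      exact add_mem (Ideal.mul_mem_left _ _ h3) (Ideal.mul_mem_left _ _ h4)
    exact (centre_isPrime A).ne_top ((Ideal.eq_top_iff_one _).mpr h5)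

theorem cycloChar_eq_of_sub_mem (hℓ : ℓ.Prime) (hℓp : ℓ ≠ p) (hA : A.LiesOverPrime ℓ) {c : ℕ}
    (h : ∀ b : Zbar, σ • b - b ^ c ∈ centre A) : (cycloChar p σ : ZMod p) = c := by
  obtain ⟨ζ, hζ⟩ := exists_primitiveRoot_Zbar p
  have h1 := cycloChar_spec p σ hζ.pow_eq_one
  have h2 : σ • ζ = ζ ^ ((cycloChar p σ : ZMod p)).val := Subtype.ext h1
  have h3 := h ζ
  have hord := orderOf_mk_primitiveRoot hℓ hℓp hA hζ
  have hfin : IsOfFinOrder (Ideal.Quotient.mk (centre A) ζ) := by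
    rw [← orderOf_pos_iff, hord]
    exact (Fact.out : p.Prime).pos
  rw [h2, ← Ideal.Quotient.eq_zero_iff_mem, map_sub, map_pow, map_pow, sub_eq_zero,
    hfin.pow_eq_pow_iff_modEq, hord] at h3
  rw [← ZMod.natCast_zmod_val (cycloChar p σ : ZMod p)]
  exact (ZMod.natCast_eq_natCast_iff _ _ _).mpr h3

/-- `χ_p(Frob_ℓ) = ℓ`. -/
theorem cycloChar_of_isFrobeniusAt (hℓ : ℓ.Prime) (hℓp : ℓ ≠ p) (hA : A.LiesOverPrime ℓ)
    (hσ : A.IsFrobeniusAt σ ℓ) : (cycloChar p σ : ZMod p) = ℓ :=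
  cycloChar_eq_of_sub_mem hℓ hℓp hA (sub_pow_mem_centre_of_isFrobeniusAt hσ)

/-- `χ_p` is unramified outside `p`. -/
theorem cycloChar_of_mem_inertia (hℓ : ℓ.Prime) (hℓp : ℓ ≠ p) (hA : A.LiesOverPrime ℓ)
    (hσ : σ ∈ A.inertiaSubgroupIn ℚ) : cycloChar p σ = 1 := by
  have := cycloChar_eq_of_sub_mem (p := p) (c := 1) hℓ hℓp hA (fun b => by
    rw [pow_one]; exact sub_mem_centre_of_mem_inertia hσ b)
  exact Units.ext (by simpa using this)

end Places

end Fermat.Agent.GAL
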