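import Fermat.Agent.GAL.FFExt
import Fermat.Agent.S24.CharpolyAlt
import Fermat.Prelude.Def_ModularCurve_HeckeOperatorTotal

/-!
# The Hecke correspondences on `J₀(N)` are the genuine ones

`ModularCurve.heckeOperatorAlong` is defined by a `dite` on `HeckeInputsAlong`.  We prove that
these inputs hold over `ℚ̄` for all `N`, `ℓ`.
-/

set_option autoImplicit false
set_option linter.style.haveILetI false

open AlgebraicCurve ModularCurve

namespace Fermat.Agent.GAL.HeckeInputs

open Fermat.Agent.S24 Fermat.Agent.GAL.FFExt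

/-- `j` is a finite parameter of the function field of `X₀(N)` over `ℚ̄`. -/
theorem isFiniteParam_jF (N : ℕ) [NeZero N] : IsFiniteParam Kb (jF N) :=
  isFiniteParam_jF_of N (CPAlt.charpolyCoeff N)

instance hasPrincipalDivisors_FN (N : ℕ) [NeZero N] :
    HasPrincipalDivisors (AlgebraicClosure ℚ) (modularFunctionFieldBar N) :=
  (isFiniteParam_jF N).hasPrincipalDivisors

variable (N l : ℕ) [NeZero N] [NeZero l]

theorem finiteAlong_alpha : FiniteAlong (AlgebraicClosure ℚ) (heckeAlphaBar (AlgebraicClosure ℚ) N l) :=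
  finiteAlong _ (isFiniteParam_jF N) (isFiniteParam_jF (N * l))

theorem finiteAlong_beta : FiniteAlong (AlgebraicClosure ℚ) (heckeBetaBar (AlgebraicClosure ℚ) N l) :=
  finiteAlong _ (isFiniteParam_jF N) (isFiniteParam_jF (N * l))

theorem heckeAlphaBarIntegral : HeckeAlphaBarIntegral (AlgebraicClosure ℚ) N l :=
  isIntegralAlong _ (finiteAlong_alpha N l)

theorem heckeBetaBarIntegral : HeckeBetaBarIntegral (AlgebraicClosure ℚ) N l :=
  isIntegralAlong _ (finiteAlong_beta N l)

theorem fundamentalIdentityAlong_beta :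
    FundamentalIdentityAlong (AlgebraicClosure ℚ) (heckeBetaBar (AlgebraicClosure ℚ) N l)
      (heckeBetaBarIntegral N l) :=
  fundamentalIdentityAlong _ _ (finiteAlong_beta N l) (isFiniteParam_jF N)

theorem fundamentalIdentityAlong_alpha :
    FundamentalIdentityAlong (AlgebraicClosure ℚ) (heckeAlphaBar (AlgebraicClosure ℚ) N l)
      (heckeAlphaBarIntegral N l) :=
  fundamentalIdentityAlong _ _ (finiteAlong_alpha N l) (isFiniteParam_jF N)

theorem normFormulaAlong_alpha :
    NormFormulaAlong (AlgebraicClosure ℚ) (heckeAlphaBar (AlgebraicClosure ℚ) N l)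
      (finiteAlong_alpha N l) :=
  normFormulaAlong _ _ (isFiniteParam_jF N)

theorem normFormulaAlong_beta :
    NormFormulaAlong (AlgebraicClosure ℚ) (heckeBetaBar (AlgebraicClosure ℚ) N l)
      (finiteAlong_beta N l) :=
  normFormulaAlong _ _ (isFiniteParam_jF N)

/-- **All inputs of the Hecke correspondence hold over `ℚ̄`.** -/
theorem heckeInputsAlong : HeckeInputsAlong (AlgebraicClosure ℚ) N l :=
  heckeInputsAlong_intro (heckeAlphaBarIntegral N l) (heckeBetaBarIntegral N l)
    (fundamentalIdentityAlong_beta N l) (finiteAlong_alpha N l) (normFormulaAlong_alpha N l)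

/-- the total Hecke operator is the genuine correspondence `α_* ∘ β^*`. -/
theorem heckeOperatorAlong_eq' :
    heckeOperatorAlong (AlgebraicClosure ℚ) N l =
      heckePic0Bar (heckeAlphaBarIntegral N l) (heckeBetaBarIntegral N l)
        (fundamentalIdentityAlong_beta N l) (finiteAlong_alpha N l) (normFormulaAlong_alpha N l) :=
  heckeOperatorAlong_eq _ _ _ _ _

end Fermat.Agent.GAL.HeckeInputs
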