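import Fermat.Agent.GAL.Assemble
import Fermat.Agent.Cheb.Final

/-!
# `GenCheb` from the interface of project Cheb
-/

set_option autoImplicit false

namespace Fermat.Agent.GAL

theorem genCheb_of_preludeSpec (h : Fermat.Agent.Cheb.PreludeSpec) : GenCheb := by
  intro L hL σ T
  obtain ⟨ℓ, A, τ, a, _, hℓ, hT, hA, hτ, -, h1, -⟩ := h L hL σ T
  exact ⟨ℓ, A, τ, a, hℓ, hT, hA, hτ, fun x hx => (h1 x hx).symm⟩

/-- `GenCheb`, unconditionally. -/
theorem genCheb : GenCheb := genCheb_of_preludeSpec Fermat.Agent.Cheb.preludeSpec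

end Fermat.Agent.GAL
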