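import Fermat.Agent.GAL.Assemble2

/-!
# Abstract assembly of S29, level 3: from `SpecializationExists` (project GAL)
-/

set_option autoImplicit false
open ModularCurve

namespace Fermat.Agent.GAL

local notation "Qbar" => AlgebraicClosure ℚ
local notation "GQ" => (AlgebraicClosure ℚ ≃ₐ[ℚ] AlgebraicClosure ℚ)

section Spec

variable {K L : Type*} [Field K] [Field L] [Algebra K L]
variable {N p : ℕ} {J : Type*} [AddCommGroup J] [Module HeckeAlg J]
  [DistribMulAction (L ≃ₐ[K] L) J] [SMulCommClass (L ≃ₐ[K] L) HeckeAlg J]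

theorem unramifiedOutside_of_specializationExists
    (h : SpecializationExists (K := K) (L := L) N p J) :
    UnramifiedOutside (K := K) (L := L) N p J := by
  intro ℓ hℓ hℓNp A hA σ hσ x ⟨n, hn⟩
  obtain ⟨J', _, _, sp, F, hsp, -⟩ := h ℓ hℓ hℓNp A hA
  have h1 : σ • x - x = 0 := by
    apply hsp.injective_torsion
    · refine ⟨n, ?_⟩
      rw [smul_sub, ← smul_comm σ (p ^ n) x, hn, smul_zero, sub_zero]
    · rw [map_sub, hsp.inertia_comm σ hσ, sub_self]
  exact sub_eq_zero.mp h1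

theorem frobeniusQuadratic_of_specializationExists
    (h : SpecializationExists (K := K) (L := L) N p J) :
    FrobeniusQuadratic (K := K) (L := L) N p J := by
  intro ℓ hℓ hℓNp A hA σ hσ x ⟨n, hn⟩
  obtain ⟨J', _, _, sp, F, hsp, hF⟩ := h ℓ hℓ hℓNp A hA
  apply hsp.injective_torsion
  · refine ⟨n, ?_⟩
    have h1 : p ^ n • (σ • x) = 0 := by rw [← smul_comm σ (p ^ n) x, hn, smul_zero]
    have h2 : p ^ n • (σ • σ • x) = 0 := by rw [← smul_comm σ (p ^ n) (σ • x), h1, smul_zero]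
    rw [smul_add, smul_sub, h2, smul_comm (p ^ n) (heckeGen ⟨ℓ, hℓ⟩) (σ • x), h1, smul_zero,
      smul_comm (p ^ n) ℓ x, hn, smul_zero]
    simp
  · rw [map_add, map_sub, hsp.frobenius_comm σ hσ, hsp.frobenius_comm σ hσ, hsp.hecke_comm,
      hsp.frobenius_comm σ hσ, map_nsmul]
    exact hF (sp x)

end Spec

section Main

variable {N : ℕ} [NeZero N] {g : CuspForm (CongruenceSubgroup.Gamma0 N) 2}
  {p : ℕ} {k : Type} [Field k] [CharP k p]

/-- **Abstract S29, level 3.** -/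
theorem exists_residualGaloisRep_of_specialization (hp : p.Prime)
    (φ : integralClosure ℤ ℂ →+* k) (hCheb : GenCheb)
    {J : Type*} [AddCommGroup J] [Module HeckeAlg J] [DistribMulAction GQ J]
    [SMulCommClass GQ HeckeAlg J]
    (hspec : SpecializationExists (K := ℚ) (L := Qbar) N p J)
    (a : Nat.Primes → integralClosure ℤ ℂ)
    (ha : ∀ ℓ : Nat.Primes, ¬ (ℓ : ℕ) ∣ N * p → (a ℓ : ℂ) = ModularFormClass.qCoeff g ℓ)
    (x : J) (hx : x ≠ 0) (hxm : x ∈ heckeTorsion J (eigenIdeal fun ℓ => φ (a ℓ)))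
    (hstab : ∃ L : IntermediateField ℚ Qbar, FiniteDimensional ℚ L ∧
      ∀ σ : GQ, (∀ y ∈ L, σ y = y) → σ • x = x) :
    ∃ ρ : ResidualGaloisRep k, ρ.IsAttachedTo g φ ∧
      ∀ ℓ : ℕ, ℓ.Prime → ¬ ℓ ∣ N * p → ρ.IsUnramifiedAt ℓ :=
  exists_residualGaloisRep_of_heckeModule hp φ hCheb
    (unramifiedOutside_of_specializationExists hspec)
    (frobeniusQuadratic_of_specializationExists hspec) a ha x hx hxm hstab

end Main

end Fermat.Agent.GAL
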