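import Fermat.Agent.GAL.S29Core
import Fermat.Agent.GAL.Assemble3

/-!
# The two ways to get `ESUnram` / `ESQuad` (project GAL, interface with project RED)

* `GoodSpec N` : the module-free core of Eichler-Shimura (no Hecke-module structure on `J₀(N)`, so
  no commutativity of Hecke operators is needed);
* from the statement of S37 + `HeckeOperatorsCommuteBar N` + `SMulCommClass`.
-/

set_option autoImplicit false

namespace Fermat.Agent.GAL

open ModularCurve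

local notation "Qbar" => AlgebraicClosure ℚ
local notation "GQ" => (AlgebraicClosure ℚ ≃ₐ[ℚ] AlgebraicClosure ℚ)

/-- Module-free core of Eichler-Shimura at all primes `ℓ ∤ N`. -/
def GoodSpec (N : ℕ) [NeZero N] : Prop :=
  ∀ ℓ : ℕ, (hℓ : ℓ.Prime) → ¬ ℓ ∣ N → ∀ A : ValuationSubring Qbar, A.LiesOverPrime ℓ →
    ∃ (Jb : Type) (_ : AddCommGroup Jb) (red : JZero N →+ Jb) (Fr V : Jb →+ Jb),
      (∀ σ ∈ A.inertiaSubgroupIn ℚ, ∀ x : JZero N, red (σ • x) = red x) ∧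
      (∀ σ : GQ, A.IsFrobeniusAt σ ℓ → ∀ x : JZero N, red (σ • x) = Fr (red x)) ∧
      (∀ x : JZero N, red (heckeOperatorBar N ⟨ℓ, hℓ⟩ x) = Fr (red x) + V (red x)) ∧
      (∀ y : Jb, V (Fr y) = ℓ • y) ∧
      (∀ m : ℕ, ¬ ℓ ∣ m → ∀ x : JZero N, m • x = 0 → red x = 0 → x = 0)

section Aux

variable {G J Jb : Type*} [Group G] [AddCommGroup J] [DistribMulAction G J] [AddCommGroup Jb]

theorem unram_aux (red : J →+ Jb) (σ : G) (x : J) (m : ℕ) (hm : m • x = 0)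
    (h1 : red (σ • x) = red x) (h5 : ∀ x : J, m • x = 0 → red x = 0 → x = 0) : σ • x = x := by
  have h6 : σ • x - x = 0 := by
    apply h5
    · rw [smul_sub, ← smul_comm σ m x, hm, smul_zero, sub_zero]
    · rw [map_sub, h1, sub_self]
  exact sub_eq_zero.mp h6

theorem quad_aux (red : J →+ Jb) (Fr V : Jb →+ Jb) (T : J →+ J) (σ : G) (x : J) (ℓ m : ℕ)
    (hm : m • x = 0) (h2 : ∀ x : J, red (σ • x) = Fr (red x))
    (h3 : ∀ x : J, red (T x) = Fr (red x) + V (red x)) (h4 : ∀ y : Jb, V (Fr y) = ℓ • y)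
    (h5 : ∀ x : J, m • x = 0 → red x = 0 → x = 0) :
    σ • σ • x - T (σ • x) + ℓ • x = 0 := by
  apply h5
  · have e1 : m • (σ • x) = 0 := by rw [← smul_comm σ m x, hm, smul_zero]
    have e2 : m • (σ • σ • x) = 0 := by rw [← smul_comm σ m (σ • x), e1, smul_zero]
    rw [smul_add, smul_sub, e2, ← map_nsmul, e1, map_zero, smul_comm m ℓ x, hm, smul_zero]
    simp
  · rw [map_add, map_sub, h2, h2, h3, h2, h4, map_nsmul]
    abel

end Aux

section

variable {N : ℕ} [NeZero N]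

private theorem not_dvd_pow {ℓ p : ℕ} (hℓ : ℓ.Prime) (h : ¬ ℓ ∣ N * p) (n : ℕ) : ¬ ℓ ∣ p ^ n :=
  fun h' => h ((hℓ.dvd_of_dvd_pow h').mul_left N)

theorem esUnram_of_goodSpec (h : GoodSpec N) (p : ℕ) : ESUnram N p := by
  intro ℓ hℓ hℓNp A hA σ hσ x ⟨n, hn⟩
  obtain ⟨Jb, _, red, Fr, V, h1, -, -, -, h5⟩ := h ℓ hℓ (fun h' => hℓNp (h'.mul_right p)) A hA
  exact unram_aux red σ x (p ^ n) hn (h1 σ hσ x) (h5 (p ^ n) (not_dvd_pow hℓ hℓNp n))

theorem esQuad_of_goodSpec (h : GoodSpec N) (p : ℕ) : ESQuad N p := by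
  intro ℓ hℓ hℓNp A hA σ hσ x ⟨n, hn⟩
  obtain ⟨Jb, _, red, Fr, V, -, h2, h3, h4, h5⟩ :=
    h ℓ hℓ (fun h' => hℓNp (h'.mul_right p)) A hA
  exact quad_aux red Fr V (heckeOperatorBar N ⟨ℓ, hℓ⟩).toAddMonoidHom σ x ℓ (p ^ n) hn (h2 σ hσ)
    h3 h4 (h5 (p ^ n) (not_dvd_pow hℓ hℓNp n))

/-- `ESUnram` and `ESQuad` from the conclusion of S37. -/
theorem es_of_specializationExists (p : ℕ) (hcomm : HeckeOperatorsCommuteBar N)
    (H : letI := heckeModuleBar N
      ∃ _ : SMulCommClass GQ HeckeAlg (JZero N),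
        SpecializationExists (K := ℚ) (L := Qbar) N p (JZero N)) :
    ESUnram N p ∧ ESQuad N p := by
  let _ := heckeModuleBar N
  obtain ⟨_, h⟩ := H
  refine ⟨unramifiedOutside_of_specializationExists h, ?_⟩
  intro ℓ hℓ hℓNp A hA σ hσ x hx
  have h1 := frobeniusQuadratic_of_specializationExists h ℓ hℓ hℓNp A hA σ hσ x hx
  rwa [heckeModuleBar_heckeGen_smul hcomm] at h1

end

end Fermat.Agent.GAL
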