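import Fermat.Agent.GAL.HeckeGalois
import Fermat.Agent.GAL.ESCore

/-!
# Wiring of (H3), (H4) into the interfaces of project GAL
-/

set_option autoImplicit false

namespace Fermat.Agent.GAL

open ModularCurve

local notation "Qbar" => AlgebraicClosure ℚ
local notation "GQ" => (AlgebraicClosure ℚ ≃ₐ[ℚ] AlgebraicClosure ℚ)

/-- the interface `GalHecke N` holds. -/
theorem galHecke (N : ℕ) [NeZero N] : GalHecke N := fun ℓ σ x =>
  (HeckeGalois.heckeOperatorBar_smul N σ ℓ x).symm

/-- `ESUnram` and `ESQuad` from the bare statement of S37 (both hypotheses of S37 discharged). -/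
theorem es_of_S37 (N p : ℕ) [NeZero N]
    (S37 : ∀ (_ : HeckeOperatorsCommuteBar N), letI := heckeModuleBar N
      ∀ (_ : SMulCommClass GQ HeckeAlg (JZero N)),
        SpecializationExists (K := ℚ) (L := Qbar) N p (JZero N)) :
    ESUnram N p ∧ ESQuad N p :=
  es_of_specializationExists p (HeckeComm.heckeOperatorsCommuteBar N)
    ⟨HeckeGalois.smulCommClass_heckeModuleBar N,
      S37 (HeckeComm.heckeOperatorsCommuteBar N) (HeckeGalois.smulCommClass_heckeModuleBar N)⟩

end Fermat.Agent.GAL
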