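import Fermat.Agent.GAL.EigenChar.Main
import Fermat.Agent.GAL.EigenChar.Chi
import Fermat.Agent.GAL.EigenChar.Bridge

/-!
# Project GAL: eigen-characters (import hub)

See `EigenChar/Main.lean` (`PerChar`, transfer formulas, `exists_perChar_mem_heckeTorsion`),
`EigenChar/Chi.lean` (the `μ_m(ℂ)`-valued shape `chi`) and `EigenChar/Bridge.lean` (bridge to
`Sup/Defs.lean`: `IsSmall`, `GoodHom`, `IsTransfer`, `exists_eigenChar`).
-/
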