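import Fermat.Prelude.Def_ModularCurve_ArithmeticGalois

/-!
# Open stabilisers of torsion points of `J₀(N)(ℚ̄)`

Every element of `laurentBaseChange ℚ̄ F₀` is fixed by an open subgroup of `G_ℚ`; hence so is every
torsion class of `Pic⁰` (if `m • D = div f` and `σ f = f` then `m • σ D = m • D`, so `σ D = D`).
-/

set_option autoImplicit false

namespace Fermat.Agent.GAL

open ModularCurve AlgebraicCurve

local notation "Qbar" => AlgebraicClosure ℚ
local notation "GQ" => (AlgebraicClosure ℚ ≃ₐ[ℚ] AlgebraicClosure ℚ)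

variable (F₀ : IntermediateField ℚ (LaurentSeries ℚ))

theorem exists_finiteLevel_coeffMap {x : LaurentSeries Qbar}
    (hx : x ∈ laurentBaseChange Qbar F₀) :
    ∃ L : IntermediateField ℚ Qbar, FiniteDimensional ℚ L ∧
      ∀ σ : GQ, (∀ y ∈ L, σ y = y) → coeffMap (σ : Qbar →+* Qbar) x = x := by
  rw [mem_laurentBaseChange_iff] at hx
  induction hx using Subfield.closure_induction with
  | mem y hy =>
      rcases hy with ⟨a, rfl⟩ | ⟨z, hz, rfl⟩
      · refine ⟨IntermediateField.adjoin ℚ {a}, ?_, ?_⟩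
        · exact IntermediateField.adjoin.finiteDimensional
            ((AlgebraicClosure.isAlgebraic ℚ).isAlgebraic a).isIntegral
        · intro σ hσ
          rw [coeffMap_algebraMap]
          congr 1
          exact hσ a (IntermediateField.mem_adjoin_simple_self ℚ a)
      · exact ⟨⊥, inferInstance, fun σ _ => coeffMap_coeffEmb σ z⟩
  | one => exact ⟨⊥, inferInstance, fun σ _ => map_one _⟩
  | add x y _ _ hx hy =>
      obtain ⟨L₁, h₁, hx⟩ := hx
      obtain ⟨L₂, h₂, hy⟩ := hy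
      refine ⟨L₁ ⊔ L₂, IntermediateField.finiteDimensional_sup L₁ L₂, fun σ hσ => ?_⟩
      rw [map_add, hx σ fun y hy => hσ y ((le_sup_left : L₁ ≤ L₁ ⊔ L₂) hy),
        hy σ fun y hy => hσ y ((le_sup_right : L₂ ≤ L₁ ⊔ L₂) hy)]
  | neg x _ hx =>
      obtain ⟨L₁, h₁, hx⟩ := hx
      exact ⟨L₁, h₁, fun σ hσ => by rw [map_neg, hx σ hσ]⟩
  | inv x _ hx =>
      obtain ⟨L₁, h₁, hx⟩ := hx
      exact ⟨L₁, h₁, fun σ hσ => by rw [map_inv₀, hx σ hσ]⟩
  | mul x y _ _ hx hy =>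
      obtain ⟨L₁, h₁, hx⟩ := hx
      obtain ⟨L₂, h₂, hy⟩ := hy
      refine ⟨L₁ ⊔ L₂, IntermediateField.finiteDimensional_sup L₁ L₂, fun σ hσ => ?_⟩
      rw [map_mul, hx σ fun y hy => hσ y ((le_sup_left : L₁ ≤ L₁ ⊔ L₂) hy),
        hy σ fun y hy => hσ y ((le_sup_right : L₂ ≤ L₁ ⊔ L₂) hy)]

/-- Every function is fixed by an open subgroup of `G_ℚ`. -/
theorem exists_finiteLevel_function (f : laurentBaseChange Qbar F₀) :
    ∃ L : IntermediateField ℚ Qbar, FiniteDimensional ℚ L ∧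
      ∀ σ : GQ, (∀ y ∈ L, σ y = y) → arithmeticGalois F₀ σ • f = f := by
  obtain ⟨L, hL, h⟩ := exists_finiteLevel_coeffMap F₀ f.2
  exact ⟨L, hL, fun σ hσ => Subtype.ext (h σ hσ)⟩

/-- A semilinear automorphism fixing `f` fixes every divisor `D` with `m • D = div f`. -/
theorem smul_divisor_eq_of_smul_eq {K F : Type*} [Field K] [Field F] [Algebra K F]
    (g : SemilinearAut K F) {f : F} (hg : g • f = f) {m : ℤ} (hm : m ≠ 0) {D : Divisor K F}
    (hD : ∀ v : Place K F, m * D v = v.ord f) : g • D = D := by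
  ext w
  rw [SemilinearAut.divisor_smul_apply]
  have h := SemilinearAut.ord_smul g (g⁻¹ • w) f
  rw [smul_inv_smul, hg, ← hD, ← hD] at h
  exact (mul_left_cancel₀ hm h).symm

theorem openStab_of_torsion_pic0 (m : ℕ) (hm : m ≠ 0)
    (x : Pic0 Qbar (laurentBaseChange Qbar F₀)) (hx : m • x = 0) :
    ∃ L : IntermediateField ℚ Qbar, FiniteDimensional ℚ L ∧
      ∀ σ : GQ, (∀ y ∈ L, σ y = y) → σ • x = x := by
  obtain ⟨D, rfl⟩ := Pic0.mk_surjective x
  have h1 : (QuotientAddGroup.mk (m • D) : Pic0 Qbar (laurentBaseChange Qbar F₀)) = 0 := hx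
  rw [QuotientAddGroup.eq_zero_iff, AddSubgroup.mem_addSubgroupOf] at h1
  obtain ⟨f, hf, hD⟩ := h1
  obtain ⟨L, hL, h⟩ := exists_finiteLevel_function F₀ f
  refine ⟨L, hL, fun σ hσ => ?_⟩
  rw [galois_smul_pic0_def, SemilinearAut.pic0_smul_mk]
  congr 1
  apply Subtype.ext
  rw [SemilinearAut.coe_degZeroSMulHom]
  refine smul_divisor_eq_of_smul_eq _ (h σ hσ) (m := (m : ℤ)) (by exact_mod_cast hm) fun v => ?_
  rw [← hD v]
  simp

/-- **Open stabilisers** of the torsion points of `J₀(N)(ℚ̄)`. -/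
theorem openStab_of_torsion (N : ℕ) (m : ℕ) (hm : m ≠ 0) (x : JZero N) (hx : m • x = 0) :
    ∃ L : IntermediateField ℚ Qbar, FiniteDimensional ℚ L ∧
      ∀ σ : GQ, (∀ y ∈ L, σ y = y) → σ • x = x :=
  openStab_of_torsion_pic0 _ m hm x hx

end Fermat.Agent.GAL
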