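import Fermat.Agent.GAL.ESCore
import Fermat.Agent.GAL.OpenStab
import Fermat.Agent.GAL.EigenChar

/-!
# S29 from the three remaining interfaces (project GAL)

`OpenStab` (helper74), `EigenChar` (helper56) and `GenCheb` (project Cheb) are discharged here.
Remaining: `GalHecke N` (helper96), `ESUnram N p ∧ ESQuad N p` (project RED), `SUP N p`
(`Sup/Main.lean`).
-/

set_option autoImplicit false

namespace Fermat.Agent.GAL

open CongruenceSubgroup ModularCurve

theorem openStab (N : ℕ) : OpenStab N := fun m hm x hx => openStab_of_torsion N m hm x hx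

theorem eigenChar {N : ℕ} [NeZero N] {g : CuspForm (Gamma0 N) 2} (hg : g.IsNormalizedEigenform)
    {p : ℕ} (hp : p.Prime) {k : Type} [Field k] [CharP k p] (φ : integralClosure ℤ ℂ →+* k) :
    EigenChar g φ := by
  obtain ⟨c, h1, h2, h3⟩ := EigenChar.exists_eigenChar hg hp φ
  exact ⟨EigenChar.eigenCoeff hg, c, fun ℓ _ => EigenChar.coe_eigenCoeff hg ℓ, h1, h2, h3⟩

/-- The exact statement of S29 from the three remaining interfaces. -/
theorem s29_of_interfaces
    (hGH : ∀ (N : ℕ) [NeZero N], GalHecke N)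
    (hES : ∀ (N : ℕ) [NeZero N] (p : ℕ), p.Prime → ESUnram N p ∧ ESQuad N p)
    (hS : ∀ (N : ℕ) [NeZero N] (p : ℕ), p.Prime → SUP N p)
    {N : ℕ} {g : CuspForm (CongruenceSubgroup.Gamma0 N) 2} (hg : g.IsNormalizedEigenform)
    {p : ℕ} (hp : p.Prime) {k : Type} [Field k] [CharP k p]
    (φ : integralClosure ℤ ℂ →+* k) :
    ∃ ρ : ResidualGaloisRep k, ρ.IsAttachedTo g φ ∧
      ∀ ℓ : ℕ, ℓ.Prime → ¬ ℓ ∣ N * p → ρ.IsUnramifiedAt ℓ := by
  rcases Nat.eq_zero_or_pos N with rfl | hN
  · exact exists_residualGaloisRep_level_zero φ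
  · have : NeZero N := ⟨hN.ne'⟩
    exact exists_residualGaloisRep_of_interfaces hp φ (hGH N) (openStab N) (hES N p hp).1
      (hES N p hp).2 (hS N p hp) (eigenChar hg hp φ)

end Fermat.Agent.GAL
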