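import Fermat.Agent.GAL.FFExt

/-!
# Base change and towers for divisors on function fields of curves

`K` algebraically closed of characteristic `0`.
* `pullback_pushforward` : for a commutative square `X ⊆ Y, Z ⊆ W` with `W = Y·Z` and
  `[W : Z] = [Y : X]`: `b^* a_* = a'_* b'^*` on divisors.
* `pullback_pullback`, `pushforward_pushforward` : functoriality in towers.
* `…Along` versions for `K`-algebra homomorphisms.
-/

set_option autoImplicit false
set_option linter.style.haveILetI false
set_option linter.unusedSectionVars false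

open AlgebraicCurve IsDedekindDomain IntermediateField

namespace Fermat.Agent.GAL.FFBC

open Fermat.Agent.S24 Fermat.Agent.GAL.FFExt

section Avoid

variable {K F : Type*} [Field K] [Field F] [Algebra K F] [CharZero K]

/-- prime avoidance for places in one chart. -/
theorem exists_ord_pos_zero_of_mem {z : F} (hz : IsFiniteParam K z) (v0 : Place K F)
    (S : Finset (Place K F)) (hS : v0 ∉ S) (h0 : z ∈ v0.toValuationSubring)
    (hSz : ∀ v ∈ S, z ∈ v.toValuationSubring) :
    ∃ f : F, f ≠ 0 ∧ 0 < v0.ord f ∧ ∀ v ∈ S, v.ord f = 0 := by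
  classical
  haveI := hz.isDedekindDomain
  haveI := hz.isFractionRing
  haveI := IsFiniteParam.isScalarTower_intRing (K := K) (y := z)
  obtain ⟨w0, rfl⟩ := hz.exists_eq_place v0 h0
  have hch : ∀ v : S, ∃ w, (v : Place K F) = hz.place w := fun v =>
    hz.exists_eq_place v (hSz v v.2)
  choose W hW using hch
  let T : Finset (HeightOneSpectrum (intRing K z)) := Finset.univ.image W
  have hT : w0 ∉ T := by
    intro h
    obtain ⟨v, -, hv⟩ := Finset.mem_image.1 h
    apply hS
    rw [← hv, ← hW v]
    exact v.2
  have h1 : ¬ ((w0.asIdeal : Set (intRing K z)) ⊆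
      ⋃ w ∈ (T : Set (HeightOneSpectrum (intRing K z))), w.asIdeal) := by
    rw [Ideal.subset_union_prime w0 w0 (fun w _ _ _ => w.isPrime)]
    rintro ⟨w, hw, hle⟩
    have : w0.asIdeal = w.asIdeal := w0.isMaximal.eq_of_le w.isPrime.ne_top hle
    exact hT (HeightOneSpectrum.ext this ▸ hw)
  rw [Set.not_subset] at h1
  obtain ⟨b0, hb0, hb0'⟩ := h1
  simp only [Set.mem_iUnion, not_exists] at hb0'
  by_cases hTe : T = ∅
  · -- no condition
    obtain ⟨b, hb, hb0⟩ := Submodule.exists_mem_ne_zero_of_ne_bot w0.ne_bot
    refine ⟨algebraMap _ F b, algebraMap_ne_zero' hb0, (pos_ord_iff_mem (K := K) (F := F) w0 hb0).2 hb, ?_⟩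
    intro v hv
    exfalso
    have : W ⟨v, hv⟩ ∈ T := Finset.mem_image_of_mem _ (Finset.mem_univ _)
    rw [hTe] at this
    simp at this
  · obtain ⟨w1, hw1⟩ := Finset.nonempty_iff_ne_empty.2 hTe
    have hb00 : b0 ≠ 0 := by
      rintro rfl
      exact hb0' w1 hw1 w1.asIdeal.zero_mem
    refine ⟨algebraMap _ F b0, algebraMap_ne_zero' hb00,
      (pos_ord_iff_mem (K := K) (F := F) w0 hb00).2 hb0, ?_⟩
    intro v hv
    have h2 := hW ⟨v, hv⟩
    simp only at h2
    rw [h2]
    exact hz.ord_place_eq_zero _ (hb0' _ (Finset.mem_coe.2 (Finset.mem_image_of_mem _ (Finset.mem_univ _))))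

end Avoid

section Norm

variable {X Y Z W : Type*} [Field X] [Field Y] [Field Z] [Field W]
  [Algebra X Y] [Algebra X Z] [Algebra Y W] [Algebra Z W] [Algebra X W]
  [IsScalarTower X Y W] [IsScalarTower X Z W]

theorem norm_baseChange_of_basis {ι : Type*} [Fintype ι] [DecidableEq ι]
    (bY : Module.Basis ι X Y) (bW : Module.Basis ι Z W)
    (h : ∀ i, bW i = algebraMap Y W (bY i)) (f : Y) :
    Algebra.norm Z (algebraMap Y W f) = algebraMap X Z (Algebra.norm X f) := by
  rw [Algebra.norm_eq_matrix_det bW, Algebra.norm_eq_matrix_det bY, RingHom.map_det]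
  congr 1
  ext i j
  rw [RingHom.mapMatrix_apply, Matrix.map_apply, Algebra.leftMulMatrix_eq_repr_mul,
    Algebra.leftMulMatrix_eq_repr_mul]
  have h1 : f * bY j = ∑ i, bY.repr (f * bY j) i • bY i := (bY.sum_repr _).symm
  have h2 : algebraMap Y W f * bW j = ∑ i, algebraMap X Z (bY.repr (f * bY j) i) • bW i := by
    rw [h j, ← map_mul, h1, map_sum]
    refine Finset.sum_congr rfl fun i _ => ?_
    rw [← h1, Algebra.smul_def, map_mul, h i, Algebra.smul_def,
      ← IsScalarTower.algebraMap_apply X Y W, ← IsScalarTower.algebraMap_apply X Z W]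
  rw [h2, bW.repr_sum_self]

/-- norms commute with base change, when `W = Y ⊗_X Z`. -/
theorem norm_baseChange [FiniteDimensional X Y]
    (hspan : Submodule.span Z (Set.range (algebraMap Y W)) = ⊤)
    (hdeg : Module.finrank Z W = Module.finrank X Y) (f : Y) :
    Algebra.norm Z (algebraMap Y W f) = algebraMap X Z (Algebra.norm X f) := by
  classical
  let bY := Module.finBasis X Y
  let v : Fin (Module.finrank X Y) → W := fun i => algebraMap Y W (bY i)
  have hv : ⊤ ≤ Submodule.span Z (Set.range v) := by
    rw [← hspan, Submodule.span_le]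
    rintro _ ⟨y, rfl⟩
    rw [← bY.sum_repr y, map_sum]
    refine Submodule.sum_mem _ fun i _ => ?_
    rw [Algebra.smul_def, map_mul, ← IsScalarTower.algebraMap_apply X Y W,
      IsScalarTower.algebraMap_apply X Z W, ← Algebra.smul_def]
    exact Submodule.smul_mem _ _ (Submodule.subset_span ⟨i, rfl⟩)
  let bW := basisOfTopLeSpanOfCardEqFinrank v hv (by rw [Fintype.card_fin, hdeg])
  exact norm_baseChange_of_basis bY bW (fun i => by simp [bW, v]) f

end Norm

section Span

variable {Y Z W : Type*} [Field Y] [Field Z] [Field W] [Algebra Y W] [Algebra Z W]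

theorem span_range_eq_top [FiniteDimensional Z W]
    (hgen : ∀ S : Subfield W, (∀ z : Z, algebraMap Z W z ∈ S) → (∀ y : Y, algebraMap Y W y ∈ S) →
      S = ⊤) :
    Submodule.span Z (Set.range (algebraMap Y W)) = ⊤ := by
  have h1 : (IntermediateField.adjoin Z (Set.range (algebraMap Y W))).toSubfield = ⊤ := by
    apply hgen
    · intro z
      exact (IntermediateField.adjoin Z (Set.range (algebraMap Y W))).algebraMap_mem z
    · intro y
      exact IntermediateField.subset_adjoin Z _ ⟨y, rfl⟩
  have h2 : (IntermediateField.adjoin Z (Set.range (algebraMap Y W))).toSubalgebra =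
      Algebra.adjoin Z (Set.range (algebraMap Y W)) :=
    IntermediateField.adjoin_toSubalgebra_of_isAlgebraic
      (fun x _ => Algebra.IsAlgebraic.isAlgebraic x)
  have h3 : Subalgebra.toSubmodule (Algebra.adjoin Z (Set.range (algebraMap Y W))) =
      Submodule.span Z (Set.range (algebraMap Y W)) := by
    rw [Algebra.adjoin_eq_span]
    congr 1
    have : Set.range (algebraMap Y W) = (MonoidHom.mrange (algebraMap Y W : Y →* W) : Set W) := by
      ext x
      simp
    rw [this, Submonoid.closure_eq]
  rw [← h3, ← h2]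
  ext x
  simp only [Subalgebra.mem_toSubmodule, Submodule.mem_top, iff_true]
  have : x ∈ (IntermediateField.adjoin Z (Set.range (algebraMap Y W))).toSubfield := by
    rw [h1]; trivial
  exact this

end Span

section Fiber

variable {K F F' : Type*} [Field K] [Field F] [Field F']
  [Algebra K F] [Algebra K F'] [Algebra F F'] [IsScalarTower K F F']
  [IsAlgClosed K] [CharZero K]

theorem pushforward_apply_eq_sum_fiber [FiniteDimensional F F'] [HasPrincipalDivisors K F']
    {y : F} (hy : IsFiniteParam K y) (D : Divisor K F') (v : Place K F) :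
    Divisor.pushforward F D v = ∑ w ∈ v.fiber F', D w := by
  classical
  rw [Divisor.pushforward_apply, ← Finset.sum_filter]
  have h1 : ∀ w ∈ D.support.filter (fun w => w.restrict F = v),
      D w * (w.inertiaDeg F : ℤ) = D w := by
    intro w _
    rw [inertiaDeg_eq_one' hy w]
    simp
  rw [Finset.sum_congr rfl h1]
  refine Finset.sum_subset ?_ ?_
  · intro w hw
    rw [Finset.mem_filter] at hw
    exact Place.mem_fiber.2 hw.2
  · intro w hw hw'
    rw [Finset.mem_filter, not_and'] at hw'
    have := hw' (Place.mem_fiber.1 hw)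
    rw [Finsupp.mem_support_iff, not_not] at this
    exact this

/-- weak approximation in a fibre. -/
theorem exists_ord_pos_zero_fiber [FiniteDimensional F F'] [HasPrincipalDivisors K F']
    {y : F} (hy : IsFiniteParam K y) (w0 : Place K F') :
    ∃ f : F', f ≠ 0 ∧ 0 < w0.ord f ∧
      ∀ w ∈ (w0.restrict F).fiber F', w ≠ w0 → w.ord f = 0 := by
  classical
  have key : ∀ {z : F}, IsFiniteParam K z → z ∈ (w0.restrict F).toValuationSubring →
      ∃ f : F', f ≠ 0 ∧ 0 < w0.ord f ∧
      ∀ w ∈ (w0.restrict F).fiber F', w ≠ w0 → w.ord f = 0 := by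
    intro z hz hzv
    obtain ⟨f, hf0, hf1, hf2⟩ := exists_ord_pos_zero_of_mem (isFiniteParam_algebraMap (F' := F') hz)
      w0 (((w0.restrict F).fiber F').erase w0) (Finset.notMem_erase _ _) hzv (by
        intro w hw
        have h1 := Place.mem_fiber.1 (Finset.mem_of_mem_erase hw)
        rw [← Place.mem_restrict_iff, h1]
        exact hzv)
    exact ⟨f, hf0, hf1, fun w hw hne => hf2 w (Finset.mem_erase.2 ⟨hne, hw⟩)⟩
  rcases (w0.restrict F).toValuationSubring.mem_or_inv_mem y with h | h
  · exact key hy h
  · exact key hy.inv h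

end Fiber

section Square

variable {K X Y Z W : Type*} [Field K] [IsAlgClosed K] [CharZero K]
  [Field X] [Field Y] [Field Z] [Field W]
  [Algebra K X] [Algebra K Y] [Algebra K Z] [Algebra K W]
  [Algebra X Y] [Algebra X Z] [Algebra Y W] [Algebra Z W] [Algebra X W]
  [IsScalarTower X Y W] [IsScalarTower X Z W]
  [IsScalarTower K X Y] [IsScalarTower K X Z] [IsScalarTower K Y W] [IsScalarTower K Z W]
  [FiniteDimensional X Y] [FiniteDimensional X Z] [FiniteDimensional Y W] [FiniteDimensional Z W]

omit [IsAlgClosed K] [CharZero K] in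
theorem restrict_restrict_comm (w : Place K W) :
    (w.restrict Y).restrict X = (w.restrict Z).restrict X := by
  apply Place.ext
  ext f
  rw [Place.mem_restrict_iff, Place.mem_restrict_iff, Place.mem_restrict_iff,
    Place.mem_restrict_iff, ← IsScalarTower.algebraMap_apply X Y W,
    ← IsScalarTower.algebraMap_apply X Z W]

/-- the local degree identity behind the base change formula. -/
theorem sum_ramificationIndex_filter [HasPrincipalDivisors K W] [HasPrincipalDivisors K Y]
    {x0 : X} (hx : IsFiniteParam K x0)
    (hspan : Submodule.span Z (Set.range (algebraMap Y W)) = ⊤)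
    (hdeg : Module.finrank Z W = Module.finrank X Y)
    (y : Place K Y) (z : Place K Z) (hyz : y.restrict X = z.restrict X) [DecidableEq (Place K Y)] :
    ∑ w ∈ (z.fiber W).filter (fun w => w.restrict Y = y), (w.ramificationIndex Y : ℤ) =
      z.ramificationIndex X := by
  classical
  obtain ⟨f, hf0, hf1, hf2⟩ := exists_ord_pos_zero_fiber (F := X) hx y
  set m := y.ord f with hm
  have hN : (y.restrict X).ord (Algebra.norm X f) = m := by
    rw [ord_norm_eq_sum_fiber' hx _ hf0, Finset.sum_eq_single_of_mem y (Place.restrict_mem_fiber y)]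
    intro w hw hne
    exact hf2 w hw hne
  have hz : IsFiniteParam K (algebraMap X Z x0) := isFiniteParam_algebraMap hx
  have h1 : z.ord (Algebra.norm Z (algebraMap Y W f)) = z.ramificationIndex X * m := by
    rw [norm_baseChange hspan hdeg, z.ord_restrict, ← hyz, hN]
  rw [ord_norm_eq_sum_fiber' hz z (by simpa using hf0)] at h1
  have h2 : ∑ w ∈ z.fiber W, w.ord (algebraMap Y W f) =
      ∑ w ∈ (z.fiber W).filter (fun w => w.restrict Y = y), (w.ramificationIndex Y : ℤ) * m := by
    rw [Finset.sum_filter]
    refine Finset.sum_congr rfl fun w hw => ?_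
    rw [w.ord_restrict]
    split_ifs with h
    · rw [h]
    · rw [hf2 (w.restrict Y) ?_ h, mul_zero]
      rw [Place.mem_fiber, restrict_restrict_comm (Z := Z), Place.mem_fiber.1 hw, hyz]
  rw [h2, ← Finset.sum_mul] at h1
  exact mul_right_cancel₀ hf1.ne' h1

/-- **Base change formula** `b^* a_* = a'_* b'^*` for divisors. -/
theorem pullback_pushforward [HasPrincipalDivisors K W] [HasPrincipalDivisors K Y]
    [HasPrincipalDivisors K Z]
    {x0 : X} (hx : IsFiniteParam K x0)
    (hspan : Submodule.span Z (Set.range (algebraMap Y W)) = ⊤)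
    (hdeg : Module.finrank Z W = Module.finrank X Y) (D : Divisor K Y) :
    Divisor.pullback Z (Divisor.pushforward X D) = Divisor.pushforward Z (Divisor.pullback W D) := by
  classical
  have hz : IsFiniteParam K (algebraMap X Z x0) := isFiniteParam_algebraMap hx
  induction D using Finsupp.induction with
  | zero => simp
  | single_add y n D _ _ ih =>
    rw [map_add, map_add, map_add, map_add, ih]
    congr 1
    ext z
    rw [Divisor.pullback_apply, Divisor.pushforward_single, inertiaDeg_eq_one' hx y,
      pushforward_apply_eq_sum_fiber hz]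
    simp_rw [Divisor.pullback_apply, Finsupp.single_apply]
    by_cases hyz : y.restrict X = z.restrict X
    · rw [if_pos hyz, ← sum_ramificationIndex_filter hx hspan hdeg y z hyz, Finset.sum_mul,
        Finset.sum_filter]
      refine Finset.sum_congr rfl fun w _ => ?_
      by_cases h : w.restrict Y = y
      · rw [if_pos h, if_pos h.symm]
        simp
      · rw [if_neg h, if_neg (fun h' => h h'.symm), mul_zero]
    · rw [if_neg hyz, mul_zero]
      symm
      refine Finset.sum_eq_zero fun w hw => ?_
      rw [if_neg, mul_zero]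
      intro h
      apply hyz
      rw [h, restrict_restrict_comm (Z := Z), Place.mem_fiber.1 hw]

end Square

section Tower

variable {K X Y W : Type*} [Field K]
  [Field X] [Field Y] [Field W]
  [Algebra K X] [Algebra K Y] [Algebra K W]
  [Algebra X Y] [Algebra Y W] [Algebra X W]
  [IsScalarTower X Y W]
  [IsScalarTower K X Y] [IsScalarTower K Y W] [IsScalarTower K X W]
  [Algebra.IsIntegral X Y] [Algebra.IsIntegral Y W] [Algebra.IsIntegral X W]

theorem restrict_restrict (w : Place K W) : (w.restrict Y).restrict X = w.restrict X := by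
  apply Place.ext
  ext f
  rw [Place.mem_restrict_iff, Place.mem_restrict_iff, Place.mem_restrict_iff,
    ← IsScalarTower.algebraMap_apply X Y W]

theorem ramificationIndex_tower (w : Place K W) :
    w.ramificationIndex X = w.ramificationIndex Y * (w.restrict Y).ramificationIndex X := by
  obtain ⟨t, ht0, -, ht⟩ := Place.exists_uniformizer (w.restrict X)
  have h1 := w.ord_restrict (F := X) t
  rw [IsScalarTower.algebraMap_apply X Y W, w.ord_restrict (F := Y),
    (w.restrict Y).ord_restrict (F := X), restrict_restrict, ht] at h1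
  have : ((w.ramificationIndex Y * (w.restrict Y).ramificationIndex X : ℕ) : ℤ) =
      (w.ramificationIndex X : ℕ) := by
    push_cast
    linarith
  exact_mod_cast this.symm

theorem mapRestrict_mapRestrict (D : Divisor K W) :
    Divisor.mapRestrict X (Divisor.mapRestrict Y D) = Divisor.mapRestrict X D := by
  induction D using Finsupp.induction with
  | zero => simp
  | single_add w n D _ _ ih =>
    rw [map_add, map_add, map_add, ih, Divisor.mapRestrict_single, Divisor.mapRestrict_single,
      Divisor.mapRestrict_single, restrict_restrict]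

theorem pullback_pullback [HasPrincipalDivisors K Y] [HasPrincipalDivisors K W]
    (D : Divisor K X) :
    Divisor.pullback W (Divisor.pullback Y D) = Divisor.pullback W D := by
  ext w
  rw [Divisor.pullback_apply, Divisor.pullback_apply, Divisor.pullback_apply,
    ramificationIndex_tower (X := X) (Y := Y) w, restrict_restrict]
  push_cast
  ring

end Tower

section Tower2

variable {K X Y W : Type*} [Field K] [IsAlgClosed K] [CharZero K]
  [Field X] [Field Y] [Field W]
  [Algebra K X] [Algebra K Y] [Algebra K W]
  [Algebra X Y] [Algebra Y W] [Algebra X W]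
  [IsScalarTower X Y W]
  [IsScalarTower K X Y] [IsScalarTower K Y W] [IsScalarTower K X W]
  [FiniteDimensional X Y] [FiniteDimensional Y W] [FiniteDimensional X W]

theorem pushforward_pushforward {x0 : X} (hx : IsFiniteParam K x0) (D : Divisor K W) :
    Divisor.pushforward X (Divisor.pushforward Y D) = Divisor.pushforward X D := by
  rw [pushforward_eq_mapRestrict hx, pushforward_eq_mapRestrict hx,
    pushforward_eq_mapRestrict (isFiniteParam_algebraMap (F' := Y) hx), mapRestrict_mapRestrict]

end Tower2

section Along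

variable {K X Y Z W : Type*} [Field K] 
  [Field X] [Field Y] [Field Z] [Field W]
  [Algebra K X] [Algebra K Y] [Algebra K Z] [Algebra K W]

theorem pullbackAlong_comp [HasPrincipalDivisors K Y] [HasPrincipalDivisors K W]
    (φ : X →ₐ[K] Y) (ψ : Y →ₐ[K] W) (hφ : φ.toRingHom.IsIntegral) (hψ : ψ.toRingHom.IsIntegral)
    (hψφ : (ψ.comp φ).toRingHom.IsIntegral) (D : Divisor K X) :
    Divisor.pullbackAlong ψ hψ (Divisor.pullbackAlong φ hφ D) =
      Divisor.pullbackAlong (ψ.comp φ) hψφ D := by
  letI := algebraAlong φ
  letI := algebraAlong ψ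
  letI := algebraAlong (ψ.comp φ)
  haveI := isScalarTower_along φ
  haveI := isScalarTower_along ψ
  haveI := isScalarTower_along (ψ.comp φ)
  haveI := isIntegral_along φ hφ
  haveI := isIntegral_along ψ hψ
  haveI := isIntegral_along (ψ.comp φ) hψφ
  haveI : IsScalarTower X Y W := IsScalarTower.of_algebraMap_eq fun _ => rfl
  exact pullback_pullback D

variable [IsAlgClosed K] [CharZero K]

theorem pushforwardAlong_comp 
    (φ : X →ₐ[K] Y) (ψ : Y →ₐ[K] W) (hφ : φ.toRingHom.IsIntegral) (hψ : ψ.toRingHom.IsIntegral)
    (hψφ : (ψ.comp φ).toRingHom.IsIntegral) 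
    (fφ : FiniteAlong K φ) (fψ : FiniteAlong K ψ) 
    {x0 : X} (hx : IsFiniteParam K x0) (D : Divisor K W) :
    Divisor.pushforwardAlong φ hφ (Divisor.pushforwardAlong ψ hψ D) =
      Divisor.pushforwardAlong (ψ.comp φ) hψφ D := by
  letI := algebraAlong φ
  letI := algebraAlong ψ
  letI := algebraAlong (ψ.comp φ)
  haveI := isScalarTower_along φ
  haveI := isScalarTower_along ψ
  haveI := isScalarTower_along (ψ.comp φ)
  haveI : IsScalarTower X Y W := IsScalarTower.of_algebraMap_eq fun _ => rfl
  haveI : Module.Finite X Y := fφ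
  haveI : Module.Finite Y W := fψ
  haveI : Module.Finite X W := Module.Finite.trans Y W
  exact pushforward_pushforward hx D

theorem pullbackAlong_pushforwardAlong [HasPrincipalDivisors K W] [HasPrincipalDivisors K Y]
    [HasPrincipalDivisors K Z]
    (a : X →ₐ[K] Y) (b : X →ₐ[K] Z) (a' : Z →ₐ[K] W) (b' : Y →ₐ[K] W)
    (hcomm : a'.comp b = b'.comp a)
    (ha : a.toRingHom.IsIntegral) (hb : b.toRingHom.IsIntegral)
    (ha' : a'.toRingHom.IsIntegral) (hb' : b'.toRingHom.IsIntegral)
    (fa : FiniteAlong K a) (fb : FiniteAlong K b) (fa' : FiniteAlong K a') (fb' : FiniteAlong K b')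
    {x0 : X} (hx : IsFiniteParam K x0)
    (hgen : ∀ S : Subfield W, (∀ z : Z, a' z ∈ S) → (∀ y : Y, b' y ∈ S) → S = ⊤)
    (hdeg : finrankAlong K a' = finrankAlong K a) (D : Divisor K Y) :
    Divisor.pullbackAlong b hb (Divisor.pushforwardAlong a ha D) =
      Divisor.pushforwardAlong a' ha' (Divisor.pullbackAlong b' hb' D) := by
  letI := algebraAlong a
  letI := algebraAlong b
  letI := algebraAlong a'
  letI := algebraAlong b'
  letI := algebraAlong (b'.comp a)
  haveI := isScalarTower_along a
  haveI := isScalarTower_along b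
  haveI := isScalarTower_along a'
  haveI := isScalarTower_along b'
  haveI : IsScalarTower X Y W := IsScalarTower.of_algebraMap_eq fun _ => rfl
  haveI : IsScalarTower X Z W := IsScalarTower.of_algebraMap_eq fun x =>
    (DFunLike.congr_fun hcomm x).symm
  haveI : Module.Finite X Y := fa
  haveI : Module.Finite X Z := fb
  haveI : Module.Finite Z W := fa'
  haveI : Module.Finite Y W := fb'
  exact pullback_pushforward hx (span_range_eq_top hgen) hdeg D

end Along

end Fermat.Agent.GAL.FFBC
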