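import Fermat.Agent.GAL.HeckeEquiv.NormProd
import Fermat.Agent.GAL.HeckeInputs
import Fermat.Agent.GAL.FFBaseChange
import Fermat.Prelude.Def_ModularCurve_HeckeModule

/-!
# The Hecke operators on `J₀(N)(ℚ̄)` commute

`heckeOperatorsCommuteBar N : ModularCurve.HeckeOperatorsCommuteBar N` for all primes `l`, `l'`
(including those dividing `N`).  Both `T_l T_{l'}` and `T_{l'} T_l` are the correspondence
`(incl)_* (q ↦ q^{l l'})^*` through level `N l l'`, by the base change formula of
`GAL/FFBaseChange.lean`, `F_M = ℚ̄(j, j_M)` and the degree formula.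
-/

set_option autoImplicit false
set_option linter.style.haveILetI false
set_option linter.unusedSectionVars false

open AlgebraicCurve ModularCurve IntermediateField
open scoped MatrixGroups

namespace Fermat.Agent.GAL.HeckeComm

open Fermat.Agent.S24 Fermat.Agent.GAL.FFExt Fermat.Agent.GAL.FFBC Fermat.Agent.GAL.HeckeInputs

/-- the conjugates of `j_M` are pairwise distinct. -/
theorem sigma_jBar_injective (M : ℕ) [NeZero M] :
    Function.Injective (fun x : XN M => sigma M x (jBar M M dvd_rfl)) := by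
  have hinv := jfun_isSLInvariant
  have hpole := jfun_hasSimplePoleAtImInfty
  intro x y hxy
  induction x using QuotientGroup.induction_on with
  | H g =>
  induction y using QuotientGroup.induction_on with
  | H h =>
    simp only [sigma_mk hinv] at hxy
    have h1 := hxy
    simp only [sigma0_jBar] at h1
    have h2 := IsFractionRing.injective Hol Mer h1
    rw [QuotientGroup.eq]
    apply mem_Gamma0_of_comp_diag_eq hinv hpole
    intro τ
    have h3 := congrFun (congrArg Subtype.val h2) (h • τ)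
    rw [actHol_apply, actHol_apply, inv_smul_smul] at h3
    rw [mul_smul, ← scal_eq_smul, ← scal_eq_smul]
    exact h3

/-- `F_M = Kb(j, j_M)`. -/
theorem subfield_eq_top (M : ℕ) [NeZero M] (S : Subfield (FN M))
    (hK : ∀ a : Kb, algebraMap Kb (FN M) a ∈ S) (hj : jF M ∈ S)
    (hjM : jBar M M dvd_rfl ∈ S) : S = ⊤ := by
  classical
  have hinv := jfun_isSLInvariant
  have hdeg := degree_of_charpolyCoeff M (CPAlt.charpolyCoeff M)
  haveI := hdeg.1
  set t := jBar M M dvd_rfl with ht
  let E : IntermediateField Kb⟮jF M⟯ (FN M) := IntermediateField.adjoin Kb⟮jF M⟯ {t}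
  letI : Algebra Kb⟮jF M⟯ Mer := ((ThetaMer M).comp (algebraMap Kb⟮jF M⟯ (FN M))).toAlgebra
  let τ : XN M → (FN M →ₐ[Kb⟮jF M⟯] Mer) := fun x =>
    { toRingHom := sigma M x
      commutes' := fun a => by
        refine agree_on_adjoin (jF M) (sigma M x) (ThetaMer M) ?_ ?_ a
        · intro a
          rw [sigma_algebraMap, ThetaMer_algebraMap]
        · rw [sigma_jF hinv, ThetaMer_jF] }
  let τ' : XN M → (E →ₐ[Kb⟮jF M⟯] Mer) := fun x => (τ x).comp E.val
  have hτ' : Function.Injective τ' := by
    intro x y hxy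
    apply sigma_jBar_injective M
    have := DFunLike.congr_fun hxy ⟨t, IntermediateField.subset_adjoin _ _ rfl⟩
    exact this
  have h1 : Nat.card (XN M) ≤ Module.finrank Kb⟮jF M⟯ E :=
    (Nat.card_le_card_of_injective τ' hτ').trans (card_algHom_le_finrank _ _ _)
  have hE : E = ⊤ := by
    apply IntermediateField.eq_of_le_of_finrank_le le_top
    rw [IntermediateField.finrank_top', hdeg.2]
    exact h1
  -- now the subfield statement
  have h2 : ∀ a : Kb⟮jF M⟯, algebraMap Kb⟮jF M⟯ (FN M) a ∈ S := by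
    intro a
    have : (Kb⟮jF M⟯).toSubfield ≤ S := by
      show Subfield.closure _ ≤ _
      rw [Subfield.closure_le]
      rintro x (⟨a, rfl⟩ | hx)
      · exact hK a
      · rw [Set.mem_singleton_iff] at hx
        rw [hx]
        exact hj
    exact this a.2
  have h3 : E.toSubfield ≤ S := by
    show Subfield.closure _ ≤ _
    rw [Subfield.closure_le]
    rintro x (⟨a, rfl⟩ | hx)
    · exact h2 a
    · rw [Set.mem_singleton_iff] at hx
      rw [hx]
      exact hjM
  rw [hE] at h3
  exact top_le_iff.1 (fun x _ => h3 (show x ∈ (⊤ : IntermediateField Kb⟮jF M⟯ (FN M)) from trivial))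

theorem card_XN (N : ℕ) [NeZero N] : Nat.card (XN N) = dedekindPsi N :=
  S20.index_Gamma0 N

theorem finrankAlong_alpha_mul (N l : ℕ) [NeZero N] [NeZero l] :
    finrankAlong Kb (heckeAlphaBar Kb N l) * dedekindPsi N = dedekindPsi (N * l) := by
  rw [← card_XN, ← card_XN]
  exact HeckeEquiv.finrank_alpha_mul N l

theorem dedekindPsi_pos (N : ℕ) [NeZero N] : 0 < dedekindPsi N := by
  rw [← card_XN]
  exact Nat.card_pos

theorem finrankAlong_alpha_of_dvd (N l : ℕ) [NeZero N] [NeZero l] (hl : l.Prime) (h : l ∣ N) :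
    finrankAlong Kb (heckeAlphaBar Kb N l) = l := by
  have h1 := finrankAlong_alpha_mul N l
  rw [S20.dedekindPsi_mul_prime_of_dvd (NeZero.ne N) hl h] at h1
  exact Nat.eq_of_mul_eq_mul_right (dedekindPsi_pos N) h1

theorem finrankAlong_alpha_of_not_dvd (N l : ℕ) [NeZero N] [NeZero l] (hl : l.Prime)
    (h : ¬ l ∣ N) : finrankAlong Kb (heckeAlphaBar Kb N l) = l + 1 := by
  have h1 := finrankAlong_alpha_mul N l
  rw [S20.dedekindPsi_mul_prime_of_not_dvd (NeZero.ne N) hl h] at h1
  exact Nat.eq_of_mul_eq_mul_right (dedekindPsi_pos N) h1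

theorem finrankAlong_alpha_eq (N l l' : ℕ) [NeZero N] [NeZero l] [NeZero l'] (hl : l.Prime)
    (hl' : l'.Prime) (hne : l ≠ l') :
    finrankAlong Kb (heckeAlphaBar Kb (N * l) l') = finrankAlong Kb (heckeAlphaBar Kb N l') := by
  by_cases h : l' ∣ N
  · rw [finrankAlong_alpha_of_dvd N l' hl' h, finrankAlong_alpha_of_dvd (N * l) l' hl'
      (h.mul_right l)]
  · rw [finrankAlong_alpha_of_not_dvd N l' hl' h, finrankAlong_alpha_of_not_dvd (N * l) l' hl']
    intro h2
    rcases (Nat.Prime.dvd_mul hl').1 h2 with h3 | h3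
    · exact h h3
    · exact hne ((Nat.prime_dvd_prime_iff_eq hl' hl).1 h3).symm

theorem bar_le_of_eq {M M' : ℕ} (h : M = M') :
    modularFunctionFieldBar M ≤ modularFunctionFieldBar M' := by
  subst h
  exact le_rfl

/-- the identity map `F_M → F_{M'}` for `M = M'`. -/
noncomputable def castLevel {M M' : ℕ} (h : M = M') : FN M →ₐ[Kb] FN M' :=
  IntermediateField.inclusion (bar_le_of_eq h)

theorem coe_castLevel {M M' : ℕ} (h : M = M') (x : FN M) :
    ((castLevel h x : FN M') : LaurentSeries Kb) = x := 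
  IntermediateField.coe_inclusion _ x

theorem finiteAlong_any {M M' : ℕ} [NeZero M] [NeZero M'] (φ : FN M →ₐ[Kb] FN M') :
    FiniteAlong Kb φ := finiteAlong φ (isFiniteParam_jF M) (isFiniteParam_jF M')

theorem isIntegral_any {M M' : ℕ} [NeZero M] [NeZero M'] (φ : FN M →ₐ[Kb] FN M') :
    φ.toRingHom.IsIntegral := isIntegralAlong φ (finiteAlong_any φ)

theorem correspondence_congr {N M M' : ℕ} [NeZero N] [NeZero M] [NeZero M'] (h : M = M')
    (φ ψ : FN N →ₐ[Kb] FN M) (φ' ψ' : FN N →ₐ[Kb] FN M')
    (hφ : ∀ x, ((φ x : FN M) : LaurentSeries Kb) = φ' x)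
    (hψ : ∀ x, ((ψ x : FN M) : LaurentSeries Kb) = ψ' x) :
    Divisor.correspondence φ ψ (isIntegral_any φ) (isIntegral_any ψ) =
      Divisor.correspondence φ' ψ' (isIntegral_any φ') (isIntegral_any ψ') := by
  subst h
  have h1 : φ = φ' := AlgHom.ext fun x => Subtype.ext (hφ x)
  have h2 : ψ = ψ' := AlgHom.ext fun x => Subtype.ext (hψ x)
  subst h1 h2
  rfl

theorem qExpand_congr {a b : ℕ} [NeZero a] [NeZero b] (h : a = b) (f : LaurentSeries Kb) :
    qExpand Kb a f = qExpand Kb b f := by
  subst h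
  rfl

section Main

variable (N l l' : ℕ) [NeZero N] [NeZero l] [NeZero l']

/-- `β_l` at level `N l'`, landing in level `N l l'`. -/
noncomputable def betaUp : FN (N * l') →ₐ[Kb] FN (N * l * l') :=
  (castLevel (Nat.mul_right_comm N l' l)).comp (heckeBetaBar Kb (N * l') l)

theorem coe_betaUp (x : FN (N * l')) :
    ((betaUp N l l' x : FN (N * l * l')) : LaurentSeries Kb) = qExpand Kb l (x : LaurentSeries Kb) := by
  rw [betaUp, AlgHom.comp_apply, coe_castLevel, coe_heckeBetaBar]

theorem square_comm :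
    (heckeAlphaBar Kb (N * l) l').comp (heckeBetaBar Kb N l) =
      (betaUp N l l').comp (heckeAlphaBar Kb N l') := by
  refine AlgHom.ext fun x => Subtype.ext ?_
  rw [AlgHom.comp_apply, AlgHom.comp_apply, coe_heckeAlphaBar, coe_heckeBetaBar, coe_betaUp,
    coe_heckeAlphaBar]

theorem square_gen (S : Subfield (FN (N * l * l')))
    (h1 : ∀ z, heckeAlphaBar Kb (N * l) l' z ∈ S) (h2 : ∀ y, betaUp N l l' y ∈ S) : S = ⊤ := by
  apply subfield_eq_top
  · intro a
    rw [← (heckeAlphaBar Kb (N * l) l').commutes a]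
    exact h1 _
  · have : jF (N * l * l') = heckeAlphaBar Kb (N * l) l' (jF (N * l)) := by
      apply Subtype.ext
      rw [coe_heckeAlphaBar]
      rfl
    rw [this]
    exact h1 _
  · have : jBar (N * l * l') (N * l * l') dvd_rfl = betaUp N l l' (jBar (N * l') (N * l') dvd_rfl) := by
      apply Subtype.ext
      rw [coe_betaUp, coe_jBar, coe_jBar, jqNModC, jqNModC, qExpand_qExpand]
      exact qExpand_congr (by ring) _
    rw [this]
    exact h2 _

/-- the composite `T_l T_{l'}` as a single correspondence through level `N l l'`. -/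
theorem heckeDiv_comp (hl : l.Prime) (hl' : l'.Prime) (hne : l ≠ l') (D : Divisor Kb (FN N)) :
    heckeDivBar (heckeAlphaBarIntegral N l) (heckeBetaBarIntegral N l)
      (heckeDivBar (heckeAlphaBarIntegral N l') (heckeBetaBarIntegral N l') D) =
    Divisor.correspondence ((betaUp N l l').comp (heckeBetaBar Kb N l'))
      ((heckeAlphaBar Kb (N * l) l').comp (heckeAlphaBar Kb N l))
      (isIntegral_any _) (isIntegral_any _) D := by
  rw [heckeDivBar, heckeDivBar, Divisor.correspondence_apply, Divisor.correspondence_apply,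
    Divisor.correspondence_apply]
  rw [pullbackAlong_pushforwardAlong (heckeAlphaBar Kb N l') (heckeBetaBar Kb N l)
    (heckeAlphaBar Kb (N * l) l') (betaUp N l l') (square_comm N l l')
    _ _ (isIntegral_any _) (isIntegral_any _) (finiteAlong_any _) (finiteAlong_any _)
    (finiteAlong_any _) (finiteAlong_any _) (isFiniteParam_jF N) (square_gen N l l')
    (finrankAlong_alpha_eq N l l' hl hl' hne)]
  rw [pushforwardAlong_comp _ _ _ _ (isIntegral_any _) (finiteAlong_any _) (finiteAlong_any _)
    (isFiniteParam_jF N), pullbackAlong_comp _ _ _ _ (isIntegral_any _)]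

theorem heckeDiv_comm (hl : l.Prime) (hl' : l'.Prime) (D : Divisor Kb (FN N)) :
    heckeDivBar (heckeAlphaBarIntegral N l) (heckeBetaBarIntegral N l)
      (heckeDivBar (heckeAlphaBarIntegral N l') (heckeBetaBarIntegral N l') D) =
    heckeDivBar (heckeAlphaBarIntegral N l') (heckeBetaBarIntegral N l')
      (heckeDivBar (heckeAlphaBarIntegral N l) (heckeBetaBarIntegral N l) D) := by
  by_cases hne : l = l'
  · subst hne
    rfl
  rw [heckeDiv_comp N l l' hl hl' hne, heckeDiv_comp N l' l hl' hl (Ne.symm hne)]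
  refine DFunLike.congr_fun (correspondence_congr (Nat.mul_right_comm N l l') _ _ _ _ ?_ ?_) D
  · intro x
    rw [AlgHom.comp_apply, AlgHom.comp_apply, coe_betaUp, coe_betaUp, coe_heckeBetaBar,
      coe_heckeBetaBar, qExpand_qExpand, qExpand_qExpand]
    exact qExpand_congr (mul_comm l l') _
  · intro x
    rw [AlgHom.comp_apply, AlgHom.comp_apply, coe_heckeAlphaBar, coe_heckeAlphaBar,
      coe_heckeAlphaBar, coe_heckeAlphaBar]

end Main

/-- **The Hecke operators on `J₀(N)(ℚ̄)` commute.** -/
theorem heckeOperatorsCommuteBar (N : ℕ) [NeZero N] : HeckeOperatorsCommuteBar N := by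
  intro l l'
  haveI : NeZero (l : ℕ) := ⟨l.2.ne_zero⟩
  haveI : NeZero (l' : ℕ) := ⟨l'.2.ne_zero⟩
  ext x
  obtain ⟨D, rfl⟩ := Pic0.mk_surjective x
  rw [Module.End.mul_apply, Module.End.mul_apply, heckeOperatorBar_apply, heckeOperatorBar_apply,
    heckeOperatorBar_apply, heckeOperatorBar_apply, heckeOperatorAlong_eq' N l,
    heckeOperatorAlong_eq' N l', heckePic0Bar, heckePic0Bar, Pic0.correspondence_mk,
    Pic0.correspondence_mk, Pic0.correspondence_mk, Pic0.correspondence_mk]
  congr 1
  apply Subtype.ext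
  rw [Pic0.coe_degZeroCorrespondence, Pic0.coe_degZeroCorrespondence,
    Pic0.coe_degZeroCorrespondence, Pic0.coe_degZeroCorrespondence]
  exact heckeDiv_comm N l l' l.2 l'.2 D

end Fermat.Agent.GAL.HeckeComm
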