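import Mathlib

/-!
# Powers of a root of a quadratic polynomial (project GAL)

If `x² - a x + d = 0` then `x^n` satisfies `y² - V_n(a,d) y + d^n = 0`, `V_n` the Lucas sequence.
-/

set_option autoImplicit false

namespace Fermat.Agent.GAL

/-- The Lucas sequence `V_n(a, d)`: `V_0 = 2`, `V_1 = a`, `V_{n+2} = a V_{n+1} - d V_n`. -/
def lucasV {R : Type*} [CommRing R] (a d : R) : ℕ → R
  | 0 => 2
  | 1 => a
  | (n + 2) => a * lucasV a d (n + 1) - d * lucasV a d n

theorem map_lucasV {R S : Type*} [CommRing R] [CommRing S] (f : R →+* S) (a d : R) (n : ℕ) :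
    f (lucasV a d n) = lucasV (f a) (f d) n := by
  induction n using Nat.strong_induction_on with
  | _ n ih =>
    match n with
    | 0 => simp only [lucasV]; exact map_ofNat f 2
    | 1 => simp [lucasV]
    | (m + 2) =>
      rw [lucasV, lucasV, map_sub, map_mul, map_mul, ih (m + 1) (by omega), ih m (by omega)]

variable {F E : Type*} [CommRing F] [Ring E] [Algebra F E]

theorem pow_add_conj_pow {x y : E} {a d : F} (hadd : x + y = a • (1 : E))
    (hxy : x * y = d • (1 : E)) (hyx : y * x = d • (1 : E)) (n : ℕ) :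
    x ^ n + y ^ n = lucasV a d n • (1 : E) := by
  induction n using Nat.strong_induction_on with
  | _ n ih =>
    match n with
    | 0 =>
      simp only [pow_zero, lucasV]
      rw [two_smul]
    | 1 => simpa [lucasV] using hadd
    | (m + 2) =>
      have h1 := ih (m + 1) (by omega)
      have h0 := ih m (by omega)
      have e1 : x ^ (m + 2) + y ^ (m + 2) =
          (x + y) * (x ^ (m + 1) + y ^ (m + 1)) - (x * y) * y ^ m - (y * x) * x ^ m := by
        rw [pow_succ' x (m + 1), pow_succ' y (m + 1), pow_succ' y m, pow_succ' x m]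
        noncomm_ring
      rw [e1, h1, hadd, hxy, hyx, lucasV]
      have e2 : d • (1 : E) * y ^ m + d • (1 : E) * x ^ m = d • (x ^ m + y ^ m) := by
        rw [smul_mul_assoc, smul_mul_assoc, one_mul, one_mul, smul_add, add_comm]
      have e3 : a • (1 : E) * lucasV a d (m + 1) • (1 : E) - d • (1 : E) * y ^ m -
          d • (1 : E) * x ^ m = a • (1 : E) * lucasV a d (m + 1) • (1 : E) -
            (d • (1 : E) * y ^ m + d • (1 : E) * x ^ m) := by abel
      rw [e3, e2, h0, smul_mul_smul_comm, one_mul, smul_smul, ← sub_smul]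

theorem pow_mul_conj_pow {x y : E} {d : F} (hxy : x * y = d • (1 : E)) (n : ℕ) :
    x ^ n * y ^ n = d ^ n • (1 : E) := by
  induction n with
  | zero => simp
  | succ n ih =>
    rw [pow_succ x n, pow_succ' y n, mul_assoc, ← mul_assoc x y, hxy, smul_mul_assoc, one_mul,
      mul_smul_comm, ih, smul_smul, pow_succ']

/-- If `x² - a x + d = 0` then `(x^n)² - V_n(a,d) x^n + d^n = 0`. -/
theorem pow_quadratic {x : E} {a d : F} (h : x * x - a • x + d • (1 : E) = 0) (n : ℕ) :
    x ^ n * x ^ n - lucasV a d n • x ^ n + d ^ n • (1 : E) = 0 := by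
  set y : E := a • (1 : E) - x with hy
  have hadd : x + y = a • (1 : E) := by rw [hy]; abel
  have hxy : x * y = d • (1 : E) := by
    rw [hy, mul_sub, mul_smul_comm, mul_one]
    have : a • x - x * x - d • (1 : E) = -(x * x - a • x + d • (1 : E)) := by abel
    rw [← sub_eq_zero, this, h, neg_zero]
  have hyx : y * x = d • (1 : E) := by
    rw [hy, sub_mul, smul_mul_assoc, one_mul]
    have : a • x - x * x - d • (1 : E) = -(x * x - a • x + d • (1 : E)) := by abel
    rw [← sub_eq_zero, this, h, neg_zero]
  have h1 := pow_add_conj_pow hadd hxy hyx n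
  have h2 := pow_mul_conj_pow hxy n
  have h3 : y ^ n = lucasV a d n • (1 : E) - x ^ n := by rw [← h1]; abel
  rw [h3, mul_sub, mul_smul_comm, mul_one] at h2
  rw [← h2]
  abel

end Fermat.Agent.GAL
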