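import Fermat.Agent.S13.WPA
import Fermat.Prelude.Def_FreyPackage_EigenformResidualAttachment
import Fermat.Prelude.Def_GaloisRep_Residual

/-!
# S42 from S29

* `finiteLevel_galoisRepModuleEnd` : for a Weierstrass curve over `ℚ` whose `n`-torsion over `ℚ̄`
  is finite, the mod `n` Galois representation factors through a finite level.
* `trace_of_charpoly`, `det_of_charpoly` : trace and determinant in rank two.
* `attachment_of_residualGaloisRep` : the body of `EigenformResidualAttachmentAt` from a residual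
  Galois representation attached to `g`.
* `eigenformResidualAttachmentAt_of_S29` : the statement S42 from the statement S29.
-/

set_option autoImplicit false

open WeierstrassCurve WeierstrassCurve.Affine WeierstrassCurve.Affine.Point Polynomial

namespace Fermat.Agent.GAL

local notation "Qb" => AlgebraicClosure ℚ
local notation "GQ" => AlgebraicClosure ℚ ≃ₐ[ℚ] AlgebraicClosure ℚ

/-- The set of coordinates of a point. -/
def coordSet {W : WeierstrassCurve.Affine Qb} : W.Point → Set Qb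
  | .zero => ∅
  | @Affine.Point.some _ _ _ x y _ => {x, y}

theorem coordSet_finite {W : WeierstrassCurve.Affine Qb} (P : W.Point) : (coordSet P).Finite := by
  cases P with
  | zero => exact Set.finite_empty
  | some x y h => exact (Set.toFinite ({x, y} : Set Qb))

theorem finiteLevel_galoisRepModuleEnd (W : WeierstrassCurve ℚ) (n : ℕ)
    [Finite (Submodule.torsionBy ℤ (W⁄Qb).Point n)] :
    GaloisFactorsThroughFiniteLevel (galoisRepModuleEnd (K := Qb) ℚ W n) := by
  classical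
  set S : Set Qb := ⋃ P : Submodule.torsionBy ℤ (W⁄Qb).Point n, coordSet (P : (W⁄Qb).Point) with hS
  have hSfin : S.Finite := Set.finite_iUnion fun P => coordSet_finite _
  refine ⟨IntermediateField.adjoin ℚ S, ?_, ?_⟩
  · have : Finite S := hSfin
    exact IntermediateField.finiteDimensional_adjoin
      (fun x _ => ((AlgebraicClosure.isAlgebraic ℚ).isAlgebraic x).isIntegral)
  · intro σ hσ
    ext P
    have hP : coordSet (P : (W⁄Qb).Point) ⊆ S := Set.subset_iUnion_of_subset P subset_rfl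
    rw [galoisRepModuleEnd_apply]
    obtain ⟨P, hPt⟩ := P
    change (σ • P : (W⁄Qb).Point) = P
    rw [algEquiv_smul_def]
    cases P with
    | zero => rfl
    | some x y h =>
      have hx : σ x = x := hσ x (IntermediateField.subset_adjoin ℚ S (hP (by simp [coordSet])))
      have hy : σ y = y := hσ y (IntermediateField.subset_adjoin ℚ S (hP (by simp [coordSet])))
      simp [Point.map, hx, hy]

theorem trace_det_of_charpoly {K V : Type*} [Field K] [AddCommGroup V] [Module K V]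
    [Module.Finite K V] (h2 : Module.finrank K V = 2) (f : Module.End K V) (t d : K)
    (hf : f.charpoly = X ^ 2 - C t * X + C d) :
    LinearMap.trace K V f = t ∧ LinearMap.det f = d := by
  let b := Module.finBasisOfFinrankEq K V h2
  have h1 := LinearMap.charpoly_toMatrix f b
  rw [Matrix.charpoly_fin_two, hf] at h1
  rw [LinearMap.trace_eq_matrix_trace K b f, ← LinearMap.det_toMatrix b f]
  constructor
  · have := congrArg (fun q => q.coeff 1) h1
    simpa [coeff_X, coeff_C] using this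
  · have := congrArg (fun q => q.coeff 0) h1
    simpa [coeff_X, coeff_C] using this

/-- A finite Galois number field inside `ℚ̄` containing two given finite levels. -/
theorem exists_galois_level (L₁ L₂ : IntermediateField ℚ Qb) [FiniteDimensional ℚ L₁]
    [FiniteDimensional ℚ L₂] :
    ∃ F : IntermediateField ℚ Qb, FiniteDimensional ℚ F ∧ Normal ℚ F ∧ L₁ ≤ F ∧ L₂ ≤ F := by
  have : Algebra.IsAlgebraic ℚ Qb := AlgebraicClosure.isAlgebraic ℚ
  have : IsAlgClosure ℚ Qb := ⟨inferInstance, inferInstance⟩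
  have : Normal ℚ Qb := IsAlgClosure.normal ℚ Qb
  have : FiniteDimensional ℚ (L₁ ⊔ L₂ : IntermediateField ℚ Qb) :=
    IntermediateField.finiteDimensional_sup L₁ L₂
  refine ⟨IntermediateField.normalClosure ℚ (L₁ ⊔ L₂ : IntermediateField ℚ Qb) Qb,
    normalClosure.is_finiteDimensional ℚ _ Qb, normalClosure.normal ℚ _ Qb, ?_, ?_⟩
  · exact le_sup_left.trans (IntermediateField.le_normalClosure _)
  · exact le_sup_right.trans (IntermediateField.le_normalClosure _)

theorem attachment_of_residualGaloisRep (P : FreyPackage) {M : ℕ}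
    (g : CuspForm (CongruenceSubgroup.Gamma0 M) 2) (𝔪 : Ideal (integralClosure ℤ ℂ))
    {K : Type} [Field K] [CharP K P.p] (ψ : integralClosure ℤ ℂ →+* K) (hψ : 𝔪 ≤ RingHom.ker ψ)
    (ρ : ResidualGaloisRep K) (hρ : ρ.IsAttachedTo g ψ) :
    ∃ (K : Type) (_ : Field K) (_ : Algebra (ZMod P.p) K)
      (V : Type) (_ : AddCommGroup V) (_ : Module K V)
      (ρ : Representation K (AlgebraicClosure ℚ ≃ₐ[ℚ] AlgebraicClosure ℚ) V)
      (ψ : integralClosure ℤ ℂ →+* K)
      (F : Type) (_ : Field F) (_ : NumberField F) (_ : IsGalois ℚ F)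
      (_ : Algebra F (AlgebraicClosure ℚ)) (_ : IsScalarTower ℚ F (AlgebraicClosure ℚ)),
      𝔪 ≤ RingHom.ker ψ ∧
      Module.finrank K V = 2 ∧
      (AlgEquiv.restrictNormalHom (F := ℚ) (K₁ := AlgebraicClosure ℚ) F).ker ≤
        (galoisRepModuleEnd (S := ℚ) (K := AlgebraicClosure ℚ) P.freyCurve P.p).ker ⊓
          ρ.ker ∧
      (∀ ℓ : ℕ, ℓ.Prime → ¬ ℓ ∣ M → ℓ ≠ P.p →
        ∀ A : ValuationSubring (AlgebraicClosure ℚ), A.LiesOverPrime ℓ →
          ∀ τ : AlgebraicClosure ℚ ≃ₐ[ℚ] AlgebraicClosure ℚ, A.IsFrobeniusAt τ ℓ →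
            ∃ a : integralClosure ℤ ℂ, (a : ℂ) = ModularFormClass.qCoeff g ℓ ∧
              LinearMap.trace K V (ρ τ) = ψ a) ∧
      (∀ ℓ : ℕ, ℓ.Prime → ¬ ℓ ∣ M → ℓ ≠ P.p →
        ∀ A : ValuationSubring (AlgebraicClosure ℚ), A.LiesOverPrime ℓ →
          ∀ τ : AlgebraicClosure ℚ ≃ₐ[ℚ] AlgebraicClosure ℚ, A.IsFrobeniusAt τ ℓ →
            LinearMap.det (ρ τ) = (ℓ : K)) := by
  have hfinT : Finite (Submodule.torsionBy ℤ (P.freyCurve⁄Qb).Point P.p) :=
    Fermat.Agent.S13.wpA_finite P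
  obtain ⟨L₁, hL₁, h₁⟩ := finiteLevel_galoisRepModuleEnd P.freyCurve P.p
  obtain ⟨L₂, hL₂, h₂⟩ := ρ.factorsThroughFiniteLevel
  obtain ⟨F, hFfin, hFn, h1F, h2F⟩ := exists_galois_level L₁ L₂
  have hNF : NumberField F := { to_charZero := inferInstance, to_finiteDimensional := hFfin }
  have hGal : IsGalois ℚ F := { }
  have hne : ∀ ℓ : ℕ, ℓ.Prime → ℓ ≠ P.p → (ℓ : K) ≠ 0 := by
    intro ℓ hℓ hℓp h0
    rw [CharP.cast_eq_zero_iff K P.p] at h0
    exact hℓp ((Nat.prime_dvd_prime_iff_eq P.pp hℓ).1 h0).symm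
  refine ⟨K, inferInstance, ZMod.algebra K P.p, ρ.V, inferInstance, inferInstance, ρ.ρ, ψ,
    F, inferInstance, hNF, hGal, inferInstance, inferInstance, hψ, ρ.finrank_eq, ?_, ?_, ?_⟩
  · intro σ hσ
    have hσ' := MonoidHom.mem_ker.1 hσ
    have hfix : ∀ x ∈ F, σ x = x := by
      intro x hx
      have h := AlgEquiv.restrictNormal_commutes σ F ⟨x, hx⟩
      have h' : σ.restrictNormal F = 1 := hσ'
      rw [h'] at h
      exact h.symm
    exact ⟨h₁ σ fun x hx => hfix x (h1F hx), h₂ σ fun x hx => hfix x (h2F hx)⟩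
  · intro ℓ hℓ hℓM hℓp A hA τ hτ
    obtain ⟨a, ha, hc⟩ := hρ ℓ hℓ hℓM (hne ℓ hℓ hℓp) A hA τ hτ
    exact ⟨a, ha, (trace_det_of_charpoly ρ.finrank_eq _ _ _ hc).1⟩
  · intro ℓ hℓ hℓM hℓp A hA τ hτ
    obtain ⟨a, ha, hc⟩ := hρ ℓ hℓ hℓM (hne ℓ hℓ hℓp) A hA τ hτ
    exact (trace_det_of_charpoly ρ.finrank_eq _ _ _ hc).2

/-- The statement S42 follows from the statement S29. -/
theorem eigenformResidualAttachmentAt_of_S29
    (h29 : ∀ {N : ℕ} {g : CuspForm (CongruenceSubgroup.Gamma0 N) 2} (_ : g.IsNormalizedEigenform)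
      {p : ℕ} (_ : p.Prime) {k : Type} [Field k] [CharP k p] (φ : integralClosure ℤ ℂ →+* k),
      ∃ ρ : ResidualGaloisRep k, ρ.IsAttachedTo g φ ∧
        ∀ ℓ : ℕ, ℓ.Prime → ¬ ℓ ∣ N * p → ρ.IsUnramifiedAt ℓ)
    (P : FreyPackage) : ∀ M : ℕ, 0 < M → P.EigenformResidualAttachmentAt M := by
  intro M _ g hg 𝔪 h𝔪 hp
  let _ : Field (integralClosure ℤ ℂ ⧸ 𝔪) := Ideal.Quotient.field 𝔪
  have hchar : CharP (integralClosure ℤ ℂ ⧸ 𝔪) P.p := by
    rw [CharP.charP_iff_prime_eq_zero P.pp]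
    have := Ideal.Quotient.eq_zero_iff_mem.2 hp
    simpa using this
  obtain ⟨ρ, hρ, -⟩ := h29 hg P.pp (Ideal.Quotient.mk 𝔪)
  exact attachment_of_residualGaloisRep P g 𝔪 (Ideal.Quotient.mk 𝔪)
    (by rw [Ideal.mk_ker]) ρ hρ

end Fermat.Agent.GAL
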