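import Mathlib

set_option autoImplicit false

namespace Fermat.Agent.GAL

open Complex Metric Set Filter Topology

theorem exists_root_ball_of_ne_zero {c : ℂ} {r : ℝ} {g : ℂ → ℂ}
    (hg : DifferentiableOn ℂ g (ball c r)) (h0 : ∀ z ∈ ball c r, g z ≠ 0) (m : ℕ) (hm : m ≠ 0) :
    ∃ G : ℂ → ℂ, DifferentiableOn ℂ G (ball c r) ∧ ∀ z ∈ ball c r, G z ^ m = g z := by
  by_cases hr : 0 < r
  swap
  · refine ⟨0, by simp [ball_eq_empty.2 (not_lt.1 hr)], by simp [ball_eq_empty.2 (not_lt.1 hr)]⟩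
  have hc : c ∈ ball c r := mem_ball_self hr
  have hφ : DifferentiableOn ℂ (fun z => deriv g z / g z) (ball c r) :=
    (hg.deriv isOpen_ball).div hg h0
  obtain ⟨L, hL⟩ := hφ.isExactOn_ball
  have hgd : ∀ z ∈ ball c r, HasDerivAt g (deriv g z) z := fun z hz =>
    (hg.differentiableAt (isOpen_ball.mem_nhds hz)).hasDerivAt
  have hk : ∀ z ∈ ball c r, HasDerivAt (fun z => g z * exp (-L z)) 0 z := by
    intro z hz
    have h1 := (hgd z hz).mul ((hL z hz).neg.cexp)
    have h2 : deriv g z * cexp ((-L) z) + g z * (cexp ((-L) z) * -(fun z => deriv g z / g z) z)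
        = 0 := by
      have := h0 z hz
      simp only
      field_simp
      ring
    rw [h2] at h1
    exact h1
  have hconst : ∀ z ∈ ball c r, g z * exp (-L z) = g c * exp (-L c) := by
    intro z hz
    apply (convex_ball c r).is_const_of_fderivWithin_eq_zero (𝕜 := ℂ)
      (f := fun z => g z * exp (-L z)) (fun z hz => (hk z hz).differentiableAt.differentiableWithinAt)
      _ hz hc
    intro x hx
    rw [fderivWithin_of_isOpen isOpen_ball hx]
    ext
    simp [(hk x hx).hasFDerivAt.fderiv]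
  set C := g c * exp (-L c) with hC
  have hC0 : C ≠ 0 := mul_ne_zero (h0 c hc) (exp_ne_zero _)
  refine ⟨fun z => exp ((log C + L z) / m), ?_, ?_⟩
  · intro z hz
    have : HasDerivAt (fun z => exp ((log C + L z) / m)) _ z :=
      (((hL z hz).const_add (log C)).div_const (m : ℂ)).cexp
    exact this.differentiableAt.differentiableWithinAt
  · intro z hz
    have hm' : (m : ℂ) ≠ 0 := by exact_mod_cast hm
    rw [← exp_nat_mul, mul_div_cancel₀ _ hm', exp_add, exp_log hC0, ← hconst z hz, mul_assoc,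
      ← exp_add]
    simp


theorem exists_root_ball {c : ℂ} {r : ℝ} {A : ℂ → ℂ} (hA : AnalyticOnNhd ℂ A (closedBall c r))
    (m : ℕ) (hm : m ≠ 0)
    (hord : ∀ u ∈ closedBall c r, ∃ k : ℕ, analyticOrderAt A u = ((m * k : ℕ) : ℕ∞)) :
    ∃ B : ℂ → ℂ, DifferentiableOn ℂ B (ball c r) ∧ ∀ z ∈ ball c r, B z ^ m = A z := by
  set U := closedBall c r with hU
  have hmer : MeromorphicOn A U := hA.meromorphicOn
  have hordZ : ∀ u ∈ U, ∃ k : ℕ, meromorphicOrderAt A u = ((m * k : ℕ) : ℤ) := by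
    intro u hu
    obtain ⟨k, hk⟩ := hord u hu
    refine ⟨k, ?_⟩
    rw [(hA u hu).meromorphicOrderAt_eq, hk]
    rfl
  have h2 : ∀ u : U, meromorphicOrderAt A u ≠ ⊤ := by
    intro u
    obtain ⟨k, hk⟩ := hordZ u u.2
    rw [hk]
    exact WithTop.coe_ne_top
  have h3 : (MeromorphicOn.divisor A U).support.Finite :=
    (MeromorphicOn.divisor A U).finiteSupport (isCompact_closedBall c r)
  obtain ⟨g, hg, hg0, heq⟩ := hmer.extract_zeros_poles h2 h3
  set d : ℂ → ℤ := fun u => MeromorphicOn.divisor A U u with hd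
  have hdk : ∀ u, ∃ k : ℕ, d u = m * k := by
    intro u
    by_cases hu : u ∈ U
    · obtain ⟨k, hk⟩ := hordZ u hu
      refine ⟨k, ?_⟩
      simp only [hd]
      rw [MeromorphicOn.divisor_apply hmer hu, hk]
      simp
    · refine ⟨0, ?_⟩
      simp only [hd]
      simp [hu]
  choose e he using hdk
  have hefin : (fun u => (e u : ℤ)).support.Finite := by
    apply h3.subset
    intro u hu
    simp only [Function.mem_support, ne_eq] at hu ⊢
    change d u ≠ 0
    rw [he u]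
    have : (m : ℤ) ≠ 0 := by exact_mod_cast hm
    exact mul_ne_zero this hu
  set Q : ℂ → ℂ := ∏ᶠ u, (· - u) ^ (e u : ℤ) with hQ
  have hQm : Q ^ m = ∏ᶠ u, (· - u) ^ d u := by
    rw [hQ, finprod_pow]
    · congr 1
      ext u z
      simp only [Pi.pow_apply]
      rw [he u, ← zpow_natCast, ← zpow_mul, mul_comm]
    · rw [Function.HasFiniteMulSupport, Function.FactorizedRational.mulSupport]
      exact hefin
  have hQan : ∀ x, AnalyticAt ℂ Q x := fun x =>
    Function.FactorizedRational.analyticAt (d := fun u => (e u : ℤ)) (by positivity)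
  have hgd : DifferentiableOn ℂ g (ball c r) := fun z hz =>
    (hg z (ball_subset_closedBall hz)).differentiableAt.differentiableWithinAt
  obtain ⟨G, hG, hGm⟩ := exists_root_ball_of_ne_zero hgd
    (fun z hz => hg0 ⟨z, ball_subset_closedBall hz⟩) m hm
  refine ⟨Q * G, ?_, ?_⟩
  · exact DifferentiableOn.mul (fun z _ => (hQan z).differentiableAt.differentiableWithinAt) hG
  · intro z hz
    have hzU : z ∈ U := ball_subset_closedBall hz
    have h4 : (Q * G) z ^ m = (Q ^ m) z * g z := by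
      simp only [Pi.mul_apply, Pi.pow_apply, mul_pow, hGm z hz]
    rw [h4]
    -- continuity argument
    have h5 : ∀ᶠ x in 𝓝[≠] z, A x = (Q ^ m) x * g x := by
      have h6 := (mem_codiscreteWithin_iff_forall_mem_nhdsNE.1 heq) z hzU
      have h7 : ∀ᶠ x in 𝓝[≠] z, x ∈ U :=
        mem_nhdsWithin_of_mem_nhds (mem_of_superset (isOpen_ball.mem_nhds hz) ball_subset_closedBall)
      filter_upwards [h6, h7] with x hx hxU
      rcases hx with hx | hx
      · rw [hQm]
        simpa using hx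
      · exact absurd hxU hx
    have hc1 : Tendsto A (𝓝[≠] z) (𝓝 (A z)) :=
      ((hA z hzU).continuousAt.tendsto).mono_left nhdsWithin_le_nhds
    have hc2 : Tendsto (fun x => (Q ^ m) x * g x) (𝓝[≠] z) (𝓝 ((Q ^ m) z * g z)) := by
      have : ContinuousAt (fun x => (Q ^ m) x * g x) z :=
        (((hQan z).pow m).continuousAt).mul (hg z hzU).continuousAt
      exact this.tendsto.mono_left nhdsWithin_le_nhds
    exact (tendsto_nhds_unique (hc1.congr' h5) hc2).symm


theorem exists_eqOn_zero_of_prod_eq_zero {ι : Type*} (s : Finset ι) {U : Set ℂ}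
    (hU : IsPreconnected U) (hne : U.Nonempty) (f : ι → ℂ → ℂ)
    (hf : ∀ i ∈ s, AnalyticOnNhd ℂ (f i) U) (h : ∀ z ∈ U, ∏ i ∈ s, f i z = 0) :
    ∃ i ∈ s, ∀ z ∈ U, f i z = 0 := by
  classical
  induction s using Finset.induction_on with
  | empty =>
    obtain ⟨z, hz⟩ := hne
    simpa using h z hz
  | insert a s ha ih =>
    have h1 : AnalyticOnNhd ℂ (fun z => ∏ i ∈ s, f i z) U :=
      Finset.analyticOnNhd_fun_prod _ (fun i hi => hf i (Finset.mem_insert_of_mem hi))
    rcases AnalyticOnNhd.eq_zero_or_eq_zero_of_mul_eq_zero (hf a (Finset.mem_insert_self a s)) h1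
      (fun z hz => by simpa [Finset.prod_insert ha] using h z hz) hU with h2 | h2
    · exact ⟨a, Finset.mem_insert_self a s, h2⟩
    · obtain ⟨i, hi, h3⟩ := ih (fun i hi => hf i (Finset.mem_insert_of_mem hi)) h2
      exact ⟨i, Finset.mem_insert_of_mem hi, h3⟩

/-- two analytic functions with the same `m`-th power differ by a root of unity -/
theorem exists_rootOfUnity_mul {U : Set ℂ} (hU : IsPreconnected U) (hne : U.Nonempty)
    {B B' : ℂ → ℂ} (hB : AnalyticOnNhd ℂ B U) (hB' : AnalyticOnNhd ℂ B' U) (m : ℕ) (hm : m ≠ 0)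
    (h : ∀ z ∈ U, B z ^ m = B' z ^ m) : ∃ ζ : ℂ, ζ ^ m = 1 ∧ ∀ z ∈ U, B z = ζ * B' z := by
  have hprim := Complex.isPrimitiveRoot_exp m hm
  have hpos : 0 < m := Nat.pos_of_ne_zero hm
  obtain ⟨ζ, hζ, h1⟩ := exists_eqOn_zero_of_prod_eq_zero (Polynomial.nthRootsFinset m (1 : ℂ)) hU hne
    (fun ζ z => B z - ζ * B' z) (fun ζ _ => hB.sub (analyticOnNhd_const.mul hB'))
    (fun z hz => by
      rw [← hprim.pow_sub_pow_eq_prod_sub_mul _ _ hpos, h z hz, sub_self])
  refine ⟨ζ, (Polynomial.mem_nthRootsFinset hpos 1).1 hζ, fun z hz => sub_eq_zero.1 (h1 z hz)⟩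

theorem root_unique {U : Set ℂ} (hU : IsPreconnected U)
    {B B' : ℂ → ℂ} (hB : AnalyticOnNhd ℂ B U) (hB' : AnalyticOnNhd ℂ B' U) (m : ℕ) (hm : m ≠ 0)
    (h : ∀ z ∈ U, B z ^ m = B' z ^ m) {z₀ : ℂ} (hz₀ : z₀ ∈ U) (h0 : B z₀ = B' z₀)
    (hne : B z₀ ≠ 0) : ∀ z ∈ U, B z = B' z := by
  obtain ⟨ζ, _, h1⟩ := exists_rootOfUnity_mul hU ⟨z₀, hz₀⟩ hB hB' m hm h
  have h2 := h1 z₀ hz₀
  have h3 : ζ = 1 := by
    rw [h0] at h2 hne
    have : (ζ - 1) * B' z₀ = 0 := by linear_combination -h2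
    rcases mul_eq_zero.1 this with h | h
    · exact sub_eq_zero.1 h
    · exact absurd h hne
  intro z hz
  rw [h1 z hz, h3, one_mul]


/-- the exhausting discs -/
def disc (t : ℝ) : Set ℂ := ball ((t : ℂ) * I) (t - 1 / t)

lemma isOpen_disc (t : ℝ) : IsOpen (disc t) := isOpen_ball

lemma convex_disc (t : ℝ) : Convex ℝ (disc t) := convex_ball _ _

lemma mem_disc {z : ℂ} {t : ℝ} (ht : 1 < t) (h : normSq z + 2 ≤ 2 * z.im * t) : z ∈ disc t := by
  have ht0 : 0 < t := by linarith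
  have h1 : 0 < t - 1 / t := by
    have : 1 / t < 1 := by rw [div_lt_one ht0]; exact ht
    linarith
  rw [disc, mem_ball, dist_eq_norm]
  apply lt_of_pow_lt_pow_left₀ 2 h1.le
  rw [← Complex.normSq_eq_norm_sq]
  have h2 : normSq (z - (t : ℂ) * I) = normSq z - 2 * z.im * t + t ^ 2 := by
    simp [normSq_apply]
    ring
  rw [h2]
  have h3 : (t - 1 / t) ^ 2 = t ^ 2 - 2 + 1 / t ^ 2 := by
    field_simp
    ring
  rw [h3]
  have : 0 < 1 / t ^ 2 := by positivity
  linarith

lemma closedDisc_subset {t : ℝ} (ht : 0 < t) :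
    closedBall ((t : ℂ) * I) (t - 1 / t) ⊆ {z : ℂ | 0 < z.im} := by
  intro z hz
  rw [mem_closedBall, dist_eq_norm] at hz
  have h1 : |(z - (t : ℂ) * I).im| ≤ ‖z - (t : ℂ) * I‖ := Complex.abs_im_le_norm _
  have h2 : (z - (t : ℂ) * I).im = z.im - t := by simp
  rw [h2] at h1
  have h3 := (abs_le.1 (h1.trans hz)).1
  have : 0 < 1 / t := by positivity
  show 0 < z.im
  linarith

theorem exists_root_upperHalfPlane {A : ℂ → ℂ} (hA : DifferentiableOn ℂ A {z : ℂ | 0 < z.im})
    (m : ℕ) (hm : m ≠ 0)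
    (hord : ∀ u : ℂ, 0 < u.im → ∃ k : ℕ, analyticOrderAt A u = ((m * k : ℕ) : ℕ∞)) :
    ∃ B : ℂ → ℂ, DifferentiableOn ℂ B {z : ℂ | 0 < z.im} ∧ ∀ z : ℂ, 0 < z.im → B z ^ m = A z := by
  have hUo : IsOpen {z : ℂ | 0 < z.im} := isOpen_lt continuous_const Complex.continuous_im
  have hAan : AnalyticOnNhd ℂ A {z : ℂ | 0 < z.im} := hA.analyticOnNhd hUo
  -- a base point
  obtain ⟨z₀, hz₀, hAz₀⟩ : ∃ z₀ : ℂ, 0 < z₀.im ∧ A z₀ ≠ 0 := by
    have hI : (0 : ℝ) < I.im := by simp
    obtain ⟨k, hk⟩ := hord I hI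
    have h1 : analyticOrderAt A I ≠ ⊤ := by rw [hk]; exact ENat.natCast_ne_top _
    have h2 : ∀ᶠ z in 𝓝[≠] I, A z ≠ 0 := by
      rcases (hAan I hI).eventually_eq_zero_or_eventually_ne_zero with h | h
      · exact absurd (analyticOrderAt_eq_top.2 h) h1
      · exact h
    have h3 : ∀ᶠ z in 𝓝[≠] I, 0 < z.im := mem_nhdsWithin_of_mem_nhds (hUo.mem_nhds hI)
    obtain ⟨z, hz1, hz2⟩ := (h2.and h3).exists
    exact ⟨z, hz2, hz1⟩
  obtain ⟨β, hβ⟩ := IsAlgClosed.exists_pow_nat_eq (A z₀) (Nat.pos_of_ne_zero hm)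
  have hβ0 : β ≠ 0 := by
    rintro rfl
    rw [zero_pow hm] at hβ
    exact hAz₀ hβ.symm
  -- parameter
  let T : ℂ → ℝ := fun z => max 2 (max ((normSq z + 2) / (2 * z.im)) ((normSq z₀ + 2) / (2 * z₀.im)))
  have hT1 : ∀ z, 1 < T z := fun z => lt_of_lt_of_le (by norm_num) (le_max_left _ _)
  have hTz : ∀ z : ℂ, 0 < z.im → z ∈ disc (T z) := by
    intro z hz
    apply mem_disc (hT1 z)
    have h1 : (normSq z + 2) / (2 * z.im) ≤ T z := (le_max_left _ _).trans (le_max_right _ _)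
    rw [div_le_iff₀ (by positivity)] at h1
    linarith
  have hTz₀ : ∀ z : ℂ, z₀ ∈ disc (T z) := by
    intro z
    apply mem_disc (hT1 z)
    have h1 : (normSq z₀ + 2) / (2 * z₀.im) ≤ T z := (le_max_right _ _).trans (le_max_right _ _)
    rw [div_le_iff₀ (by positivity)] at h1
    linarith
  -- normalised roots on the discs
  have hex : ∀ w : ℂ, ∃ B : ℂ → ℂ, DifferentiableOn ℂ B (disc (T w)) ∧
      (∀ z ∈ disc (T w), B z ^ m = A z) ∧ B z₀ = β := by
    intro w
    have ht : 0 < T w := by linarith [hT1 w]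
    obtain ⟨B, hB, hBm⟩ := exists_root_ball (c := (T w : ℂ) * I) (r := T w - 1 / T w) (A := A)
      (fun z hz => hAan z (closedDisc_subset ht hz)) m hm
      (fun u hu => hord u (closedDisc_subset ht hu))
    have h1 := hBm z₀ (hTz₀ w)
    have hB0 : B z₀ ≠ 0 := by
      intro h
      rw [h, zero_pow hm] at h1
      exact hAz₀ h1.symm
    refine ⟨fun z => β / B z₀ * B z, hB.const_mul _, fun z hz => ?_, ?_⟩
    · rw [mul_pow, div_pow, hβ, h1, div_self hAz₀, one_mul]
      exact hBm z hz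
    · field_simp
  choose Bf hBd hBm hB0 using hex
  have hcoh : ∀ w w' z : ℂ, z ∈ disc (T w) → z ∈ disc (T w') → Bf w z = Bf w' z := by
    intro w w' z hz hz'
    have hconv : IsPreconnected (disc (T w) ∩ disc (T w')) :=
      ((convex_disc _).inter (convex_disc _)).isPreconnected
    have hop : IsOpen (disc (T w) ∩ disc (T w')) := (isOpen_disc _).inter (isOpen_disc _)
    apply root_unique hconv (((hBd w).mono inter_subset_left).analyticOnNhd hop)
      (((hBd w').mono inter_subset_right).analyticOnNhd hop) m hm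
      (fun x hx => by rw [hBm w x hx.1, hBm w' x hx.2]) (z₀ := z₀) ⟨hTz₀ w, hTz₀ w'⟩
      (by rw [hB0, hB0]) (by rw [hB0]; exact hβ0) z ⟨hz, hz'⟩
  refine ⟨fun z => Bf z z, ?_, fun z hz => hBm z z (hTz z hz)⟩
  intro z hz
  have h1 : DifferentiableAt ℂ (Bf z) z :=
    (hBd z).differentiableAt ((isOpen_disc _).mem_nhds (hTz z hz))
  have h2 : (fun x => Bf x x) =ᶠ[𝓝 z] Bf z := by
    filter_upwards [(isOpen_disc _).mem_nhds (hTz z hz), hUo.mem_nhds hz] with x hx hx'
    exact hcoh x z x (hTz x hx') hx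
  exact (h2.differentiableAt_iff.2 h1).differentiableWithinAt


open UpperHalfPlane in
open scoped Manifold in
/-- a holomorphic function on the upper half plane all of whose zeros have order divisible by `m`
is an `m`-th power -/
theorem exists_root_of_order_dvd (m : ℕ) (hm : m ≠ 0) (A : UpperHalfPlane → ℂ) (hA : MDiff A)
    (hord : ∀ τ : UpperHalfPlane, ∃ k : ℕ,
      analyticOrderAt (A ∘ UpperHalfPlane.ofComplex) (τ : ℂ) = ((m * k : ℕ) : ℕ∞)) :
    ∃ B : UpperHalfPlane → ℂ, MDiff B ∧ ∀ τ, B τ ^ m = A τ := by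
  obtain ⟨B, hB, hBm⟩ := exists_root_upperHalfPlane (UpperHalfPlane.mdifferentiable_iff.1 hA) m hm
    (fun u hu => hord ⟨u, hu⟩)
  refine ⟨fun τ => B τ, ?_, fun τ => ?_⟩
  · rw [UpperHalfPlane.mdifferentiable_iff]
    apply hB.congr
    intro z hz
    simp [UpperHalfPlane.ofComplex_apply_of_im_pos hz]
  · rw [hBm τ τ.im_pos]
    simp

open UpperHalfPlane in
open scoped Manifold in
/-- two holomorphic functions on the upper half plane with the same `m`-th power differ by a root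
of unity -/
theorem exists_rootOfUnity_mul_of_mdiff (m : ℕ) (hm : m ≠ 0) {B B' : UpperHalfPlane → ℂ}
    (hB : MDiff B) (hB' : MDiff B') (h : ∀ τ, B τ ^ m = B' τ ^ m) :
    ∃ ζ : ℂ, ζ ^ m = 1 ∧ ∀ τ, B τ = ζ * B' τ := by
  have hUo : IsOpen {z : ℂ | 0 < z.im} := isOpen_lt continuous_const Complex.continuous_im
  have hconv : IsPreconnected {z : ℂ | 0 < z.im} := (convex_halfSpace_im_gt 0).isPreconnected
  obtain ⟨ζ, hζ, h1⟩ := exists_rootOfUnity_mul hconv ⟨Complex.I, by simp⟩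
    ((UpperHalfPlane.mdifferentiable_iff.1 hB).analyticOnNhd hUo)
    ((UpperHalfPlane.mdifferentiable_iff.1 hB').analyticOnNhd hUo) m hm
    (fun z hz => by simpa using h (UpperHalfPlane.ofComplex z))
  refine ⟨ζ, hζ, fun τ => ?_⟩
  simpa using h1 τ τ.im_pos

end Fermat.Agent.GAL
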