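import Fermat.Agent.S24.Hol
import Fermat.Agent.GAL.RootHol

set_option autoImplicit false

namespace Fermat.Agent.GAL

open Fermat.Agent.S24 UpperHalfPlane WithZero
open scoped MatrixGroups Manifold

noncomputable section

/-- a nonzero holomorphic function has a finite order at every point -/
theorem exists_holVal_eq_exp (τ : ℍ) {a : Hol} (ha : a ≠ 0) :
    ∃ n : ℕ, holVal τ a = exp (-(n : ℤ)) := by
  have h1 : holOrd τ a ≠ ⊤ := fun h => ha ((holOrd_eq_top_iff τ a).1 h)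
  rw [holOrd_eq_map] at h1
  cases h : analyticOrderAt ((a : ℍ → ℂ) ∘ ofComplex) (τ : ℂ) with
  | top => simp [h] at h1
  | coe n => exact ⟨n, (holVal_eq_exp_iff τ a n).2 h⟩

/-- a meromorphic function on the upper half plane all of whose orders are divisible by `m` is an
`m`-th power -/
theorem exists_mer_root (m : ℕ) (hm : m ≠ 0) (f : Mer) (hf : f ≠ 0)
    (hord : ∀ τ : ℍ, ∃ k : ℤ, merVal τ f = exp ((m : ℤ) * k)) : ∃ h : Mer, h ^ m = f := by
  obtain ⟨a, b, hb, rfl⟩ := IsFractionRing.div_surjective (A := Hol) f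
  have hb0 : b ≠ 0 := nonZeroDivisors.ne_zero hb
  have hbM : algebraMap Hol Mer b ≠ 0 := by
    simpa using hb0
  have ha0 : a ≠ 0 := by
    rintro rfl
    simp at hf
  obtain ⟨m', rfl⟩ : ∃ m', m = m' + 1 := ⟨m - 1, by omega⟩
  set A : Hol := a * b ^ m' with hA
  have hA0 : A ≠ 0 := mul_ne_zero ha0 (pow_ne_zero _ hb0)
  have hAord : ∀ τ : ℍ, ∃ k : ℕ,
      analyticOrderAt ((A : ℍ → ℂ) ∘ ofComplex) (τ : ℂ) = (((m' + 1) * k : ℕ) : ℕ∞) := by
    intro τ
    obtain ⟨k, hk⟩ := hord τ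
    obtain ⟨nb, hnb⟩ := exists_holVal_eq_exp τ hb0
    obtain ⟨nA, hnA⟩ := exists_holVal_eq_exp τ hA0
    have h1 : holVal τ A = holVal τ a / holVal τ b * holVal τ b ^ (m' + 1) := by
      have hvb : holVal τ b ≠ 0 := fun h => hb0 ((holVal_eq_zero_iff τ b).1 h)
      rw [hA, map_mul, map_pow, pow_succ]
      field_simp
    rw [← merVal_div, hk, hnb, hnA, ← exp_nsmul, ← exp_add, exp_inj] at h1
    have h2 : (nA : ℤ) = ((m' + 1 : ℕ) : ℤ) * (nb - k) := by
      simp only [nsmul_eq_mul] at h1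
      push_cast at h1 ⊢
      linarith
    have h3 : 0 ≤ (nb : ℤ) - k := by
      by_contra hneg
      push Not at hneg
      have : ((m' + 1 : ℕ) : ℤ) * (nb - k) < 0 :=
        mul_neg_of_pos_of_neg (by positivity) hneg
      omega
    obtain ⟨k', hk'⟩ := Int.eq_ofNat_of_zero_le h3
    refine ⟨k', ?_⟩
    rw [← holVal_eq_exp_iff, hnA]
    congr 2
    rw [h2, hk']
    push_cast
    ring
  obtain ⟨B, hB, hBm⟩ := exists_root_of_order_dvd (m' + 1) hm (A : ℍ → ℂ) A.2 hAord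
  refine ⟨algebraMap Hol Mer ⟨B, hB⟩ / algebraMap Hol Mer b, ?_⟩
  have h4 : (⟨B, hB⟩ : Hol) ^ (m' + 1) = A := by
    apply Subtype.ext
    funext τ
    exact hBm τ
  rw [div_pow, ← map_pow, h4, hA, map_mul, map_pow, pow_succ]
  field_simp

/-- in an extension field of `ℂ` the `m`-th roots of unity are complex numbers -/
theorem exists_complex_of_pow_eq_one {E : Type*} [Field E] [Algebra ℂ E] (m : ℕ) (hm : m ≠ 0)
    {u : E} (hu : u ^ m = 1) : ∃ ζ : ℂ, ζ ^ m = 1 ∧ u = algebraMap ℂ E ζ := by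
  have hprim := (Complex.isPrimitiveRoot_exp m hm).map_of_injective
    (FaithfulSMul.algebraMap_injective ℂ E)
  have : NeZero m := ⟨hm⟩
  obtain ⟨i, -, hi⟩ := hprim.eq_pow_of_pow_eq_one hu
  refine ⟨Complex.exp (2 * Real.pi * Complex.I / m) ^ i, ?_, ?_⟩
  · rw [← pow_mul, Nat.mul_comm, pow_mul, (Complex.isPrimitiveRoot_exp m hm).pow_eq_one, one_pow]
  · rw [map_pow, hi]

/-- the character attached to an `m`-th root of an invariant function -/
theorem exists_character (m : ℕ) (hm : m ≠ 0) (Γ : Subgroup SL(2, ℤ)) (h : Mer) (hh : h ≠ 0)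
    (hinv : ∀ g ∈ Γ, actMer g (h ^ m) = h ^ m) :
    ∃ χ : Γ →* ℂˣ, (∀ g, χ g ^ m = 1) ∧
      ∀ g : Γ, actMer (g : SL(2, ℤ)) h = algebraMap ℂ Mer (χ g : ℂ) * h := by
  have hex : ∀ g : Γ, ∃ ζ : ℂ, ζ ^ m = 1 ∧ actMer (g : SL(2, ℤ)) h = algebraMap ℂ Mer ζ * h := by
    intro g
    have h1 : (actMer (g : SL(2, ℤ)) h / h) ^ m = 1 := by
      rw [div_pow, ← map_pow, hinv g g.2, div_self (pow_ne_zero _ hh)]
    obtain ⟨ζ, hζ, h2⟩ := exists_complex_of_pow_eq_one m hm h1
    refine ⟨ζ, hζ, ?_⟩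
    rw [← h2]
    field_simp
  choose c hc1 hc2 using hex
  have hc0 : ∀ g, c g ≠ 0 := by
    intro g h0
    have := hc1 g
    rw [h0, zero_pow hm] at this
    exact zero_ne_one this
  have hinj : Function.Injective (algebraMap ℂ Mer) := FaithfulSMul.algebraMap_injective ℂ Mer
  have hmul : ∀ g g' : Γ, c (g * g') = c g * c g' := by
    intro g g'
    apply hinj
    apply mul_right_cancel₀ hh
    rw [← hc2, Subgroup.coe_mul, map_mul, AlgEquiv.mul_apply, hc2 g', map_mul, AlgEquiv.commutes,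
      hc2 g, map_mul]
    ring
  have hone : c 1 = 1 := by
    apply hinj
    apply mul_right_cancel₀ hh
    rw [← hc2]
    simp
  refine ⟨{ toFun := fun g => Units.mk0 (c g) (hc0 g)
            map_one' := Units.ext hone
            map_mul' := fun g g' => Units.ext (hmul g g') }, fun g => ?_, fun g => hc2 g⟩
  apply Units.ext
  simpa using hc1 g

end

end Fermat.Agent.GAL
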