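import Mathlib
import Fermat.Prelude.Def_ModularCurve_LaurentCoeff

/-!
Descent toolkit, part (D3): for fields `k ⊆ C` (via `ι : k →+* C`) and a subfield `F₀ ⊆ ℚ((q))`,
a series `u ∈ k((q))` whose image in `C((q))` lies in `laurentBaseChange C F₀`
lies in `laurentBaseChange k F₀`.
-/

set_option autoImplicit false

namespace Fermat.Agent.GAL.Descent

open ModularCurve

variable {k C : Type*} [Field k] [Field C]

section Pi

variable [Algebra k C]

/-- apply a `k`-linear functional coefficientwise -/
noncomputable def mapFun (π : C →ₗ[k] k) : LaurentSeries C →+ LaurentSeries k where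
  toFun w := w.map π
  map_zero' := by ext n; simp
  map_add' x y := by ext n; simp

@[simp] theorem mapFun_coeff (π : C →ₗ[k] k) (w : LaurentSeries C) (n : ℤ) :
    (mapFun π w).coeff n = π (w.coeff n) := rfl

theorem support_mapFun_subset (π : C →ₗ[k] k) (w : LaurentSeries C) :
    (mapFun π w).support ⊆ w.support := by
  intro n hn
  rw [HahnSeries.mem_support] at hn ⊢
  intro h
  apply hn
  rw [mapFun_coeff, h, map_zero]

theorem support_coeffMap_subset (u : LaurentSeries k) :
    (coeffMap (algebraMap k C) u).support ⊆ u.support := by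
  intro n hn
  rw [HahnSeries.mem_support] at hn ⊢
  intro h
  apply hn
  rw [coeffMap_coeff, h, map_zero]

/-- `mapFun π` is `k((q))`-linear. -/
theorem mapFun_mul (π : C →ₗ[k] k) (u : LaurentSeries k) (w : LaurentSeries C) :
    mapFun π (coeffMap (algebraMap k C) u * w) = u * mapFun π w := by
  ext n
  rw [mapFun_coeff, HahnSeries.coeff_mul_left' u.isPWO_support (support_coeffMap_subset u),
    HahnSeries.coeff_mul_right' w.isPWO_support (support_mapFun_subset π w), map_sum]
  refine Finset.sum_congr rfl fun ij _ => ?_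
  rw [coeffMap_coeff, mapFun_coeff, ← Algebra.smul_def, map_smul, smul_eq_mul]

end Pi

theorem coeffMap_algebraMap' (ι : k →+* C) (c : k) :
    coeffMap ι (algebraMap k (LaurentSeries k) c) = algebraMap C (LaurentSeries C) (ι c) := by
  rw [algebraMap_laurentSeries_eq_single, algebraMap_laurentSeries_eq_single, coeffMap_single]

variable [Algebra ℚ k] [Algebra ℚ C]

theorem coeffMap_coeffEmb' (ι : k →+* C) (x : LaurentSeries ℚ) :
    coeffMap ι (coeffEmb k x) = coeffEmb C x := by
  rw [coeffEmb, coeffMap_coeffMap]
  exact coeffMap_congr (Subsingleton.elim _ _) x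

/-- base change is functorial -/
theorem coeffMap_mem_laurentBaseChange' (ι : k →+* C) (F₀ : IntermediateField ℚ (LaurentSeries ℚ))
    {x : LaurentSeries k} (hx : x ∈ laurentBaseChange k F₀) :
    coeffMap ι x ∈ laurentBaseChange C F₀ := by
  rw [mem_laurentBaseChange_iff] at hx
  induction hx using Subfield.closure_induction with
  | mem y hy =>
      rcases hy with ⟨a, rfl⟩ | ⟨z, hz, rfl⟩
      · rw [coeffMap_algebraMap']
        exact (laurentBaseChange C F₀).algebraMap_mem _
      · rw [coeffMap_coeffEmb']
        exact coeffEmb_mem_laurentBaseChange C hz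
  | one => simp
  | add x y _ _ hx hy => simpa using add_mem hx hy
  | neg x _ hx => simpa using neg_mem hx
  | inv x _ hx => simpa using inv_mem hx
  | mul x y _ _ hx hy => simpa using mul_mem hx hy

/-- the generators `c · z`, `c : C`, `z ∈ F₀` -/
def linGen (C : Type*) [Field C] [Algebra ℚ C] (F₀ : IntermediateField ℚ (LaurentSeries ℚ)) :
    Set (LaurentSeries C) :=
  {w | ∃ c : C, ∃ z ∈ F₀, w = algebraMap C (LaurentSeries C) c * coeffEmb C z}

theorem mul_mem_closure_linGen (F₀ : IntermediateField ℚ (LaurentSeries ℚ))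
    {x y : LaurentSeries C} (hx : x ∈ AddSubmonoid.closure (linGen C F₀))
    (hy : y ∈ AddSubmonoid.closure (linGen C F₀)) :
    x * y ∈ AddSubmonoid.closure (linGen C F₀) := by
  induction hx using AddSubmonoid.closure_induction with
  | mem x hx =>
      induction hy using AddSubmonoid.closure_induction with
      | mem y hy =>
          obtain ⟨c, z, hz, rfl⟩ := hx
          obtain ⟨d, w, hw, rfl⟩ := hy
          refine AddSubmonoid.subset_closure ⟨c * d, z * w, mul_mem hz hw, ?_⟩
          rw [map_mul, map_mul]; ring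
      | zero => rw [mul_zero]; exact zero_mem _
      | add a b _ _ ha hb => rw [mul_add]; exact add_mem ha hb
  | zero => rw [zero_mul]; exact zero_mem _
  | add a b _ _ ha hb => rw [add_mul]; exact add_mem ha hb

theorem mem_closure_linGen_of_mem_adjoin (F₀ : IntermediateField ℚ (LaurentSeries ℚ))
    {r : LaurentSeries C}
    (hr : r ∈ Algebra.adjoin C (⇑(coeffEmb C) '' (F₀ : Set (LaurentSeries ℚ)))) :
    r ∈ AddSubmonoid.closure (linGen C F₀) := by
  induction hr using Algebra.adjoin_induction with
  | mem x hx =>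
      obtain ⟨z, hz, rfl⟩ := hx
      exact AddSubmonoid.subset_closure ⟨1, z, hz, by simp⟩
  | algebraMap c => exact AddSubmonoid.subset_closure ⟨c, 1, one_mem _, by simp⟩
  | add x y _ _ hx hy => exact add_mem hx hy
  | mul x y _ _ hx hy => exact mul_mem_closure_linGen F₀ hx hy

/-- elements of the base change are quotients of `C`-linear combinations of elements of `F₀` -/
theorem exists_span_div (F₀ : IntermediateField ℚ (LaurentSeries ℚ)) {x : LaurentSeries C}
    (hx : x ∈ laurentBaseChange C F₀) :
    ∃ A ∈ AddSubmonoid.closure (linGen C F₀), ∃ B ∈ AddSubmonoid.closure (linGen C F₀),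
        B ≠ 0 ∧ x * B = A := by
  obtain ⟨r, hr, s, hs, rfl⟩ := IntermediateField.mem_adjoin_iff_div.1 hx
  by_cases hs0 : s = 0
  · exact ⟨0, zero_mem _, 1, mem_closure_linGen_of_mem_adjoin F₀ (one_mem _), one_ne_zero,
      by simp [hs0]⟩
  · exact ⟨r, mem_closure_linGen_of_mem_adjoin F₀ hr, s, mem_closure_linGen_of_mem_adjoin F₀ hs,
      hs0, div_mul_cancel₀ r hs0⟩

theorem mapFun_mem_of_mem_closure [Algebra k C] (π : C →ₗ[k] k)
    (F₀ : IntermediateField ℚ (LaurentSeries ℚ)) {A : LaurentSeries C}
    (hA : A ∈ AddSubmonoid.closure (linGen C F₀)) :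
    mapFun π A ∈ laurentBaseChange k F₀ := by
  induction hA using AddSubmonoid.closure_induction with
  | mem x hx =>
      obtain ⟨c, z, hz, rfl⟩ := hx
      have : mapFun π (algebraMap C (LaurentSeries C) c * coeffEmb C z)
          = algebraMap k (LaurentSeries k) (π c) * coeffEmb k z := by
        rw [← coeffMap_coeffEmb' (algebraMap k C), mul_comm, mapFun_mul, mul_comm]
        congr 1
        ext n
        rw [mapFun_coeff, algebraMap_laurentSeries_eq_single,
          algebraMap_laurentSeries_eq_single]
        by_cases hn : n = 0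
        · subst hn; simp
        · rw [HahnSeries.coeff_single_of_ne hn, HahnSeries.coeff_single_of_ne hn, map_zero]
      rw [this]
      exact mul_mem ((laurentBaseChange k F₀).algebraMap_mem _)
        (coeffEmb_mem_laurentBaseChange k hz)
  | zero => rw [map_zero]; exact zero_mem _
  | add x y _ _ hx hy => rw [map_add]; exact add_mem hx hy

/-- **(D3)** descent of membership in the base-changed function field. -/
theorem mem_laurentBaseChange_of_coeffMap_mem (ι : k →+* C)
    (F₀ : IntermediateField ℚ (LaurentSeries ℚ)) (u : LaurentSeries k)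
    (hu : coeffMap ι u ∈ laurentBaseChange C F₀) : u ∈ laurentBaseChange k F₀ := by
  let _ : Algebra k C := ι.toAlgebra
  obtain ⟨A, hA, B, hB, hB0, hAB⟩ := exists_span_div F₀ hu
  obtain ⟨n, hn⟩ : ∃ n, B.coeff n ≠ 0 := by
    by_contra hcon
    push Not at hcon
    exact hB0 (HahnSeries.ext (funext hcon))
  obtain ⟨π, hπ⟩ : ∃ π : C →ₗ[k] k, π (B.coeff n) ≠ 0 := by
    by_contra hcon
    push Not at hcon
    exact hn ((Module.forall_dual_apply_eq_zero_iff k (B.coeff n)).1 hcon)
  have h1 : u * mapFun π B = mapFun π A := by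
    rw [← hAB]
    exact (mapFun_mul π u B).symm
  have h2 : mapFun π B ≠ 0 := by
    intro h
    apply hπ
    rw [← mapFun_coeff, h, HahnSeries.coeff_zero]
  have h3 : u = mapFun π A / mapFun π B := by
    rw [← h1, mul_div_cancel_right₀ _ h2]
  rw [h3]
  exact div_mem (mapFun_mem_of_mem_closure π F₀ hA) (mapFun_mem_of_mem_closure π F₀ hB)

theorem coeffMap_mem_laurentBaseChange_iff (ι : k →+* C)
    (F₀ : IntermediateField ℚ (LaurentSeries ℚ)) (u : LaurentSeries k) :
    coeffMap ι u ∈ laurentBaseChange C F₀ ↔ u ∈ laurentBaseChange k F₀ :=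
  ⟨mem_laurentBaseChange_of_coeffMap_mem ι F₀ u, coeffMap_mem_laurentBaseChange' ι F₀⟩

end Fermat.Agent.GAL.Descent
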