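import Mathlib
import Fermat.Agent.S24.Hol

/-!
An element of `Mer` without poles is holomorphic.
-/

set_option autoImplicit false

open UpperHalfPlane hiding I
open Filter Topology WithZero
open scoped Manifold
open Fermat.Agent.S24

namespace Fermat.Agent.GAL

theorem holOrd_le_of_holVal_le {τ : ℍ} {a b : Hol} (h : holVal τ a ≤ holVal τ b) :
    holOrd τ b ≤ holOrd τ a := by
  rw [holVal_apply, holVal_apply] at h
  cases ha : holOrd τ a with
  | top => exact le_top
  | coe m =>
    cases hb : holOrd τ b with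
    | top =>
      rw [ha, hb, toVal_top, toVal_coe] at h
      exact absurd (le_antisymm h zero_le) exp_ne_zero
    | coe n =>
      rw [ha, hb, toVal_coe, toVal_coe, exp_le_exp] at h
      exact_mod_cast (neg_le_neg_iff.mp h)

/-- (DIV) an element of `Mer` with no poles is holomorphic. -/
theorem exists_hol_of_merVal_le_one (u : Mer) (h : ∀ τ, merVal τ u ≤ 1) :
    ∃ f : Hol, algebraMap Hol Mer f = u := by
  obtain ⟨a, b, hb, rfl⟩ := IsFractionRing.div_surjective (A := Hol) u
  have hb0 : b ≠ 0 := nonZeroDivisors.ne_zero hb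
  set A : ℂ → ℂ := (a : ℍ → ℂ) ∘ ofComplex with hAdef
  set B : ℂ → ℂ := (b : ℍ → ℂ) ∘ ofComplex with hBdef
  have hA : ∀ z ∈ upperHalfPlaneSet, AnalyticAt ℂ A z := fun z hz => hol_analyticAt a ⟨z, hz⟩
  have hB : ∀ z ∈ upperHalfPlaneSet, AnalyticAt ℂ B z := fun z hz => hol_analyticAt b ⟨z, hz⟩
  have hf : MeromorphicOn (A / B) upperHalfPlaneSet :=
    fun z hz => (hA z hz).meromorphicAt.div (hB z hz).meromorphicAt
  set g := toMeromorphicNFOn (A / B) upperHalfPlaneSet with hgdef
  have hord : ∀ z ∈ upperHalfPlaneSet, 0 ≤ meromorphicOrderAt (A / B) z := by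
    intro z hz
    rw [meromorphicOrderAt_div (hA z hz).meromorphicAt (hB z hz).meromorphicAt]
    have h1 := h ⟨z, hz⟩
    rw [merVal_div] at h1
    have hbne : holVal ⟨z, hz⟩ b ≠ 0 := fun h0 => hb0 ((holVal_eq_zero_iff _ _).mp h0)
    have h2 : holVal ⟨z, hz⟩ a ≤ holVal ⟨z, hz⟩ b := by
      have := (div_le_iff₀ (zero_lt_iff.mpr hbne)).mp h1
      simpa using this
    have h3 : holOrd ⟨z, hz⟩ b ≤ holOrd ⟨z, hz⟩ a := holOrd_le_of_holVal_le h2
    have hbt : holOrd ⟨z, hz⟩ b ≠ ⊤ := fun h0 => hb0 ((holOrd_eq_top_iff _ _).mp h0)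
    change meromorphicOrderAt B z ≤ meromorphicOrderAt A z at h3
    change meromorphicOrderAt B z ≠ ⊤ at hbt
    generalize meromorphicOrderAt B z = n at h3 hbt
    generalize meromorphicOrderAt A z = m at h3
    cases n with
    | top => exact absurd rfl hbt
    | coe n =>
      cases m with
      | top => simp
      | coe m =>
        have : n ≤ m := by exact_mod_cast h3
        rw [← WithTop.LinearOrderedAddCommGroup.coe_sub]
        exact_mod_cast sub_nonneg.mpr this
  have hg : ∀ z ∈ upperHalfPlaneSet, AnalyticAt ℂ g z := by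
    intro z hz
    rw [← (meromorphicNFOn_toMeromorphicNFOn (A / B) upperHalfPlaneSet
      hz).meromorphicOrderAt_nonneg_iff_analyticAt, meromorphicOrderAt_toMeromorphicNFOn hf hz]
    exact hord z hz
  have hgd : MDiff (g ∘ ((↑) : ℍ → ℂ)) := by
    rw [UpperHalfPlane.mdifferentiable_iff]
    have : DifferentiableOn ℂ g upperHalfPlaneSet :=
      fun z hz => (hg z hz).differentiableAt.differentiableWithinAt
    refine this.congr fun z hz => ?_
    simp [Function.comp, ofComplex_apply_of_im_pos hz]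
  refine ⟨⟨g ∘ ((↑) : ℍ → ℂ), hgd⟩, ?_⟩
  have hbM : algebraMap Hol Mer b ≠ 0 := by
    rw [Ne, map_eq_zero_iff _ (IsFractionRing.injective Hol Mer)]
    exact hb0
  rw [eq_div_iff hbM, ← map_mul]
  congr 1
  apply Subtype.ext
  funext τ
  show g τ * (b : ℍ → ℂ) τ = (a : ℍ → ℂ) τ
  have hτ : (τ : ℂ) ∈ upperHalfPlaneSet := τ.im_pos
  have e1 : g =ᶠ[𝓝[≠] (τ : ℂ)] A / B := hf.toMeromorphicNFOn_eq_self_on_nhdsNE hτ
  have e2 : ∀ᶠ z in 𝓝[≠] (τ : ℂ), B z ≠ 0 := by
    rcases (hB τ hτ).eventually_eq_zero_or_eventually_ne_zero with h0 | h0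
    · exfalso
      have : holOrd τ b = ⊤ := by
        rw [holOrd, meromorphicOrderAt_eq_top_iff]
        exact h0.filter_mono nhdsWithin_le_nhds
      exact hb0 ((holOrd_eq_top_iff _ _).mp this)
    · exact h0
  have e3 : (fun z => g z * B z) =ᶠ[𝓝[≠] (τ : ℂ)] A := by
    filter_upwards [e1, e2] with z hz1 hz2
    rw [hz1, Pi.div_apply, div_mul_cancel₀ _ hz2]
  have t1 : Tendsto (fun z => g z * B z) (𝓝[≠] (τ : ℂ)) (𝓝 (g τ * B τ)) :=
    (((hg τ hτ).continuousAt.mul (hB τ hτ).continuousAt).tendsto).mono_left nhdsWithin_le_nhds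
  have t2 : Tendsto A (𝓝[≠] (τ : ℂ)) (𝓝 (A τ)) :=
    ((hA τ hτ).continuousAt.tendsto).mono_left nhdsWithin_le_nhds
  have := tendsto_nhds_unique (t1.congr' e3) t2
  simpa [hAdef, hBdef] using this

/-- an element of `Mer` a power of which is holomorphic is holomorphic. -/
theorem exists_hol_of_pow {m : ℕ} (hm : m ≠ 0) (u : Mer) (f : Hol)
    (h : u ^ m = algebraMap Hol Mer f) : ∃ g : Hol, algebraMap Hol Mer g = u := by
  apply exists_hol_of_merVal_le_one
  intro τ
  have h1 : merVal τ u ^ m ≤ 1 := by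
    rw [← map_pow, h, merVal_algebraMap]
    exact holVal_le_one τ f
  exact (pow_le_one_iff hm).mp h1

/-- an element of `Mer` integral over `Hol` is holomorphic. -/
theorem exists_hol_of_isIntegral (u : Mer) (h : IsIntegral Hol u) :
    ∃ g : Hol, algebraMap Hol Mer g = u := by
  apply exists_hol_of_merVal_le_one
  intro τ
  have hI : (merVal τ).Integers (merVal τ).integer := Valuation.integer.integers _
  have h2 : IsIntegral (merVal τ).integer u := by
    obtain ⟨p, hp, hpu⟩ := h
    let φ : Hol →+* (merVal τ).integer :=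
      (algebraMap Hol Mer).codRestrict (merVal τ).integer (fun f => by
        rw [Valuation.mem_integer_iff, merVal_algebraMap]
        exact holVal_le_one τ f)
    refine ⟨p.map φ, hp.map φ, ?_⟩
    rw [Polynomial.eval₂_map]
    exact hpu
  exact hI.mem_of_integral h2

end Fermat.Agent.GAL
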