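import Fermat.Agent.GAL.S29Wire
import Fermat.Agent.GAL.GalHeckeWire
import Fermat.Agent.GAL.Sup.Main
import Fermat.Agent.GAL.S42Wire
import Fermat.Agent.GAL.PC.Wire
import Fermat.Agent.RED.TorsESCongr
import Fermat.Agent.RED.S18Main

/-!
# Project GAL: final wiring

All four statements S29, S42, S30, S31 from the single remaining input of project RED,
the relative Riemann-Hurwitz inequality `RED.RHRelStatement`.
-/

set_option autoImplicit false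
open Polynomial

namespace Fermat.Agent.GAL.Final

open Fermat.Agent.GAL Fermat.Agent.RED

/-- (C) the support interface, unconditional. -/
theorem sup (N : ℕ) [NeZero N] (m : ℕ) (hm : m ≠ 0) : SUP N m := by
  haveI : NeZero m := ⟨hm⟩
  obtain ⟨κ, h1, -, h3⟩ := exists_kummerHom N m
  exact ⟨κ, h1, h3⟩

/-- (K) at all levels from (RH-rel). -/
theorem kAll (H : RHRelStatement) (N : ℕ) [NeZero N] : TorsES.KAll N :=
  fun _ _ hℓN A hA _ hm => kProp_of_rhRel A N H hA hℓN hm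

/-- (B) the Eichler-Shimura interfaces from (RH-rel). -/
theorem es (H : RHRelStatement) (N : ℕ) [NeZero N] (p : ℕ) : ESUnram N p ∧ ESQuad N p :=
  ⟨TorsES.esUnram_of (kAll H N) p, TorsES.esQuad_of (kAll H N) (TorsES.congrAll N) p⟩

/-- S29 from (RH-rel). -/
theorem s29 (H : RHRelStatement)
    {N : ℕ} {g : CuspForm (CongruenceSubgroup.Gamma0 N) 2} (hg : g.IsNormalizedEigenform)
    {p : ℕ} (hp : p.Prime) {k : Type} [Field k] [CharP k p]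
    (φ : integralClosure ℤ ℂ →+* k) :
    ∃ ρ : ResidualGaloisRep k, ρ.IsAttachedTo g φ ∧
      ∀ ℓ : ℕ, ℓ.Prime → ¬ ℓ ∣ N * p → ρ.IsUnramifiedAt ℓ :=
  s29_of_interfaces (fun N _ => galHecke N) (fun N _ p _ => es H N p)
    (fun N _ p hp => sup N p hp.ne_zero) hg hp φ

/-- S42 from (RH-rel). -/
theorem s42 (H : RHRelStatement) (P : FreyPackage) :
    ∀ M : ℕ, 0 < M → P.EigenformResidualAttachmentAt M :=
  eigenformResidualAttachmentAt_of_S29 (fun hg _ hp _ _ _ φ => s29 H hg hp φ) P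

/-- S30 from (RH-rel). -/
theorem s30 (H : RHRelStatement) :
    ∀ (p : ℕ) [Fact p.Prime] (N : ℕ) [NeZero N] (S : Finset ℕ)
      (_hpS : p ∈ S) (_hNS : ∀ q : ℕ, q.Prime → q ∣ N → q ∈ S)
      (𝒪' : Type) [CommRing 𝒪'] [IsDomain 𝒪'] [IsDiscreteValuationRing 𝒪']
      [IsAdicComplete (IsLocalRing.maximalIdeal 𝒪') 𝒪'] [Finite (IsLocalRing.ResidueField 𝒪')]
      [CharZero 𝒪'] (_hp𝒪' : (p : 𝒪') ∈ IsLocalRing.maximalIdeal 𝒪')
      (χ : CuspForm.heckeAlgebra N 2 (↑S : Set ℕ) →+* 𝒪'),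
      ∃ (𝒪'' : Type) (_ : CommRing 𝒪'') (_ : IsDomain 𝒪'') (_ : IsDiscreteValuationRing 𝒪'')
        (_ : IsAdicComplete (IsLocalRing.maximalIdeal 𝒪'') 𝒪'')
        (_ : Finite (IsLocalRing.ResidueField 𝒪'')) (_ : CharZero 𝒪'')
        (_ : Algebra 𝒪' 𝒪'') (_ : Module.Finite 𝒪' 𝒪'') (_ : IsLocalHom (algebraMap 𝒪' 𝒪'')),
      Function.Injective (algebraMap 𝒪' 𝒪'') ∧
      ∃ ρ : GaloisRepAdic 𝒪'',
        (∀ (ℓ : ℕ) (hℓ : ℓ.Prime) (hℓN : ¬ ℓ ∣ N) (hℓS : ℓ ∉ (↑S : Set ℕ)),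
          ∀ A : ValuationSubring (AlgebraicClosure ℚ), A.LiesOverPrime ℓ →
            ∀ σ : AlgebraicClosure ℚ ≃ₐ[ℚ] AlgebraicClosure ℚ, A.IsFrobeniusAt σ ℓ →
              LinearMap.charpoly (ρ.ρ σ) =
                X ^ 2 - C (algebraMap 𝒪' 𝒪'' (χ (CuspForm.heckeAlgebra.T hℓ hℓN hℓS))) * X
                  + C ((ℓ : 𝒪''))) ∧
        (∀ q : ℕ, q.Prime → ¬ q ∣ N → q ≠ p → ρ.IsUnramifiedAt q) :=
  PC.s30_of_interfaces (fun N _ p _ => es H N p) (fun N _ m hm => sup N m hm)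

section S31

variable {p : ℕ} {N : ℕ} [NeZero N] {S : Finset ℕ}
  {𝒪 : Type} [CommRing 𝒪] [IsDomain 𝒪] [IsDiscreteValuationRing 𝒪]
  [IsAdicComplete (IsLocalRing.maximalIdeal 𝒪) 𝒪]
  {θ : CuspForm.heckeAlgebra N 2 (↑S : Set ℕ) →+* IsLocalRing.ResidueField 𝒪}
  {T : Type} [CommRing T] [IsLocalRing T] [IsNoetherianRing T]
  [IsAdicComplete (IsLocalRing.maximalIdeal T) T] [Algebra 𝒪 T] [IsLocalHom (algebraMap 𝒪 T)]
  [Module.Finite 𝒪 T] [Module.Free 𝒪 T]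

/-- S31 from (RH-rel). -/
theorem s31 (H : RHRelStatement) (hp : p.Prime)
    (hp𝒪 : (p : 𝒪) ∈ IsLocalRing.maximalIdeal 𝒪) (hpS : p ∈ S)
    (hNS : ∀ q : ℕ, q.Prime → q ∣ N → q ∈ S)
    (H' : CuspForm.HeckeGaloisRepDatum N (↑S : Set ℕ) 𝒪 θ T)
    (q : ℕ) (hq : q.Prime) (hqS : q ∉ S) :
    H'.ρ.IsUnramifiedAt q :=
  PC.s31_of_interfaces (fun N _ p _ => es H N p) (fun N _ m hm => sup N m hm)
    hp hp𝒪 hpS hNS H' q hq hqS

end S31

end Fermat.Agent.GAL.Final
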