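import Mathlib
import Fermat.Agent.S24.CP
import Fermat.Agent.GAL.MerDiv

/-!
Invariant + algebraic over `ℂ(j)` implies rational:
* (INV) an `SL₂(ℤ)`-invariant element of `Mer` algebraic over `ℂ(j)` lies in `ℂ(j)`;
* (LAG) a `Γ₀(N)`-invariant element of `Mer` algebraic over `ℂ(j)` lies in `ℂ(j, j_N)`.
-/

set_option autoImplicit false

open UpperHalfPlane hiding I
open Polynomial IntermediateField CongruenceSubgroup Filter
open scoped MatrixGroups Manifold IntermediateField.algebraAdjoinAdjoin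
open Fermat.Agent.S24

namespace Fermat.Agent.GAL

noncomputable section

local notation "Δ" => ModularForm.discriminant

/-- `j(dτ)` as an element of `Mer`. -/
def jMer (d : ℕ) [NeZero d] : Mer := algebraMap Hol Mer (jdHol d)

theorem actMer_jMer_one (g : SL(2, ℤ)) : actMer g (jMer 1) = jMer 1 := by
  rw [jMer, actMer_algebraMap, actHol_jdHol_one jfun_isSLInvariant]

theorem modGrowth_eval_jfun (b : ℂ[X]) : ModGrowth (fun τ => b.eval (jfun τ)) := by
  have h := (aeval jHolGrowth b : holGrowth).2.2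
  have e : ((aeval jHolGrowth b : holGrowth) : ℍ → ℂ) = fun τ => b.eval (jfun τ) :=
    funext fun τ => aeval_jHolGrowth_apply b τ
  rw [e] at h
  exact h

theorem norm_le_of_monic_root {p : ℂ[X]} (hp : p.Monic) {z : ℂ} (hz : p.IsRoot z) :
    ‖z‖ ≤ 1 + ∑ i ∈ Finset.range p.natDegree, ‖p.coeff i‖ := by
  have h1 := hz.norm_lt_cauchyBound hp.ne_zero
  have h2 : cauchyBound p ≤ 1 + ∑ i ∈ Finset.range p.natDegree, ‖p.coeff i‖₊ := by
    unfold cauchyBound
    rw [hp.leadingCoeff, nnnorm_one, div_one, add_comm]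
    gcongr
    refine Finset.sup_le fun i hi => ?_
    exact Finset.single_le_sum (f := fun i => ‖p.coeff i‖₊) (fun _ _ => zero_le) hi
  have h3 := h1.le.trans h2
  have h4 : ((‖z‖₊ : NNReal) : ℝ) ≤
      ((1 + ∑ i ∈ Finset.range p.natDegree, ‖p.coeff i‖₊ : NNReal) : ℝ) := by exact_mod_cast h3
  simpa using h4

/-- Growth of a root of a monic polynomial with coefficients in `ℂ[j]`. -/
theorem modGrowth_of_monic_root (W : ℍ → ℂ) (P : ℂ[X][X]) (hP : P.Monic)
    (hroot : ∀ τ, (P.map (evalRingHom (jfun τ))).IsRoot (W τ)) : ModGrowth W := by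
  classical
  set n := P.natDegree with hn
  have hM : ∀ i, ∃ M : ℕ, IsBoundedAtImInfty (fun τ => Δ τ ^ M * (P.coeff i).eval (jfun τ)) :=
    fun i => modGrowth_eval_jfun (P.coeff i)
  choose M hM using hM
  set M0 := ∑ i ∈ Finset.range n, M i with hM0
  have hM' : ∀ i ∈ Finset.range n,
      IsBoundedAtImInfty (fun τ => Δ τ ^ M0 * (P.coeff i).eval (jfun τ)) := fun i hi =>
    isBoundedAtImInfty_pow_mul_mono
      (Finset.single_le_sum (f := M) (fun _ _ => Nat.zero_le _) hi) (hM i)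
  refine ⟨M0, ?_⟩
  have hb : ∀ τ, ‖W τ‖ ≤ 1 + ∑ i ∈ Finset.range n, ‖(P.coeff i).eval (jfun τ)‖ := by
    intro τ
    have h1 := norm_le_of_monic_root (hP.map (evalRingHom (jfun τ))) (hroot τ)
    rw [hP.natDegree_map] at h1
    simpa [coeff_map] using h1
  have hG : (fun τ => ‖Δ τ ^ M0‖ + ∑ i ∈ Finset.range n, ‖Δ τ ^ M0 * (P.coeff i).eval (jfun τ)‖)
      =O[atImInfty] (1 : ℍ → ℝ) := by
    refine Asymptotics.IsBigO.add ?_ (Asymptotics.IsBigO.fun_sum fun i hi => ?_)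
    · exact (isBoundedAtImInfty_discriminant_pow M0).norm_left
    · exact (hM' i hi).norm_left
  refine Asymptotics.IsBigO.trans (Asymptotics.IsBigO.of_bound 1 (Eventually.of_forall fun τ => ?_))
    hG
  rw [one_mul, norm_mul]
  have h0 : 0 ≤ ‖Δ τ ^ M0‖ + ∑ i ∈ Finset.range n, ‖Δ τ ^ M0 * (P.coeff i).eval (jfun τ)‖ := by
    positivity
  rw [Real.norm_of_nonneg h0]
  calc ‖Δ τ ^ M0‖ * ‖W τ‖
      ≤ ‖Δ τ ^ M0‖ * (1 + ∑ i ∈ Finset.range n, ‖(P.coeff i).eval (jfun τ)‖) := by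
        gcongr
        exact hb τ
    _ = _ := by
        rw [mul_add, mul_one, Finset.mul_sum]
        simp only [norm_mul]

theorem aeval_jMer_one (b : ℂ[X]) :
    aeval (jMer 1) b = algebraMap Hol Mer (aeval (jdHol 1) b) := by
  rw [jMer, ← aeval_algebraMap_apply]

theorem aeval_jdHol_one_apply (b : ℂ[X]) (τ : ℍ) :
    ((aeval (jdHol 1) b : Hol) : ℍ → ℂ) τ = b.eval (jfun τ) := by
  have h := Polynomial.aeval_algHom_apply
    ((Pi.evalAlgHom ℂ (fun _ : ℍ => ℂ) τ).comp Hol.val) (jdHol 1) b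
  have h2 : ((Pi.evalAlgHom ℂ (fun _ : ℍ => ℂ) τ).comp Hol.val) (jdHol 1) = jfun τ := by
    show jd 1 τ = jfun τ
    rw [jd_one]
  rw [h2] at h
  rw [← Polynomial.coe_aeval_eq_eval, h]
  rfl

theorem exists_aeval_of_mem_adjoin {z : Mer} (hz : z ∈ Algebra.adjoin ℂ {jMer 1}) :
    ∃ b : ℂ[X], aeval (jMer 1) b = z := by
  rw [Algebra.adjoin_singleton_eq_range_aeval] at hz
  exact hz

theorem algebraMap_comp_aeval_jdHol :
    (algebraMap Hol Mer).comp (aeval (jdHol 1) : ℂ[X] →ₐ[ℂ] Hol).toRingHom =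
      (aeval (jMer 1) : ℂ[X] →ₐ[ℂ] Mer).toRingHom :=
  RingHom.ext fun b => (aeval_jMer_one b).symm

/-- An invariant element of `Mer` integral over `ℂ[j]` is a polynomial in `j`. -/
theorem exists_aeval_of_invariant_of_isIntegral (w : Mer) (hinv : ∀ g, actMer g w = w)
    (hint : IsIntegral (Algebra.adjoin ℂ {jMer 1}) w) : ∃ b : ℂ[X], w = aeval (jMer 1) b := by
  obtain ⟨P0, hP0, hP0w⟩ := hint
  -- lift the polynomial to `ℂ[X][X]`
  have hl : P0.map (algebraMap (Algebra.adjoin ℂ {jMer 1}) Mer) ∈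
      lifts (aeval (jMer 1) : ℂ[X] →ₐ[ℂ] Mer).toRingHom := by
    rw [lifts_iff_coeff_lifts]
    intro i
    rw [coeff_map]
    exact exists_aeval_of_mem_adjoin (P0.coeff i).2
  obtain ⟨P, hPmap, -, hP⟩ := lifts_and_natDegree_eq_and_monic hl (hP0.map _)
  have hPw : eval₂ (aeval (jMer 1) : ℂ[X] →ₐ[ℂ] Mer).toRingHom w P = 0 := by
    rw [← eval_map, hPmap, eval_map]
    exact hP0w
  -- `w` is holomorphic
  have hintHol : IsIntegral Hol w := by
    refine ⟨P.map (aeval (jdHol 1) : ℂ[X] →ₐ[ℂ] Hol).toRingHom, hP.map _, ?_⟩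
    rw [eval₂_map]
    rw [algebraMap_comp_aeval_jdHol]
    exact hPw
  obtain ⟨W, rfl⟩ := exists_hol_of_isIntegral w hintHol
  have hWeq : eval₂ (aeval (jdHol 1) : ℂ[X] →ₐ[ℂ] Hol).toRingHom W P = 0 := by
    apply IsFractionRing.injective Hol Mer
    rw [map_zero, hom_eval₂]
    rw [algebraMap_comp_aeval_jdHol]
    exact hPw
  have hroot : ∀ τ, (P.map (evalRingHom (jfun τ))).IsRoot ((W : ℍ → ℂ) τ) := by
    intro τ
    rw [IsRoot.def, eval_map]
    have h1 := congrArg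
      (((Pi.evalAlgHom ℂ (fun _ : ℍ => ℂ) τ).comp Hol.val : Hol →ₐ[ℂ] ℂ).toRingHom) hWeq
    rw [map_zero, hom_eval₂] at h1
    have h2 : (((Pi.evalAlgHom ℂ (fun _ : ℍ => ℂ) τ).comp Hol.val : Hol →ₐ[ℂ] ℂ).toRingHom).comp
        (aeval (jdHol 1) : ℂ[X] →ₐ[ℂ] Hol).toRingHom = evalRingHom (jfun τ) := by
      refine RingHom.ext fun b => ?_
      exact aeval_jdHol_one_apply b τ
    rw [h2] at h1
    exact h1
  have hgrowth : ModGrowth (W : ℍ → ℂ) := modGrowth_of_monic_root _ P hP hroot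
  have hWinv : S28.IsSL2Inv (W : ℍ → ℂ) := by
    intro γ τ
    have h1 := hinv γ⁻¹
    rw [actMer_algebraMap] at h1
    have h2 := IsFractionRing.injective Hol Mer h1
    have h3 := congrFun (congrArg Subtype.val h2) τ
    rw [actHol_apply, inv_inv] at h3
    exact h3
  obtain ⟨b, hb⟩ := exists_aeval_of_invariant (⟨W, W.2, hgrowth⟩ : holGrowth) hWinv
  refine ⟨b, ?_⟩
  rw [aeval_jMer_one]
  congr 1
  apply Subtype.ext
  funext τ
  rw [aeval_jdHol_one_apply, ← aeval_jHolGrowth_apply, ← hb]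

/-- (INV) -/
theorem mem_adjoin_of_invariant (w : Mer) (hinv : ∀ g, actMer g w = w)
    (halg : IsAlgebraic ℂ⟮jMer 1⟯ w) : w ∈ ℂ⟮jMer 1⟯ := by
  have h1 : IsAlgebraic (Algebra.adjoin ℂ {jMer 1}) w :=
    (IsFractionRing.isAlgebraic_iff (Algebra.adjoin ℂ {jMer 1}) ℂ⟮jMer 1⟯ Mer).mpr halg
  obtain ⟨y, hy0, hint⟩ := h1.exists_integral_multiple
  have hyM : (y : Mer) ≠ 0 := fun h => hy0 (Subtype.ext h)
  have hyJ : (y : Mer) ∈ ℂ⟮jMer 1⟯ := IntermediateField.algebra_adjoin_le_adjoin ℂ _ y.2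
  have hyinv : ∀ g, actMer g (y : Mer) = y := by
    intro g
    obtain ⟨b, hb'⟩ := exists_aeval_of_mem_adjoin y.2
    rw [← hb', ← Polynomial.aeval_algHom_apply (actMer g), actMer_jMer_one]
  have hsm : y • w = (y : Mer) * w := rfl
  rw [hsm] at hint
  obtain ⟨b, hb⟩ := exists_aeval_of_invariant_of_isIntegral _
    (fun g => by rw [map_mul, hyinv, hinv]) hint
  have h3 : w = aeval (jMer 1) b / (y : Mer) := by
    rw [← hb, mul_div_cancel_left₀ _ hyM]
  rw [h3]
  refine div_mem ?_ hyJ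
  apply IntermediateField.algebra_adjoin_le_adjoin ℂ
  rw [Algebra.adjoin_singleton_eq_range_aeval]
  exact ⟨b, rfl⟩

/-! ### Conjugates -/

theorem actMer_of_mem_adjoin (g : SL(2, ℤ)) {a : Mer} (ha : a ∈ ℂ⟮jMer 1⟯) : actMer g a = a :=
  agree_on_adjoin (K := ℂ) (jMer 1) ((actMer g : Mer ≃ₐ[ℂ] Mer) : Mer →+* Mer) (RingHom.id Mer)
    (fun c => (actMer g).commutes c) (actMer_jMer_one g) ⟨a, ha⟩

theorem isAlgebraic_actMer (g : SL(2, ℤ)) {h : Mer} (hh : IsAlgebraic ℂ⟮jMer 1⟯ h) :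
    IsAlgebraic ℂ⟮jMer 1⟯ (actMer g h) := by
  obtain ⟨p, hp0, hp⟩ := hh
  refine ⟨p, hp0, ?_⟩
  have h1 : aeval (actMer g h) p = actMer g (aeval h p) := by
    have h2 := Polynomial.hom_eval₂ p (algebraMap ℂ⟮jMer 1⟯ Mer)
      ((actMer g : Mer ≃ₐ[ℂ] Mer) : Mer →+* Mer) h
    have h3 : ((actMer g : Mer ≃ₐ[ℂ] Mer) : Mer →+* Mer).comp (algebraMap ℂ⟮jMer 1⟯ Mer) =
        algebraMap ℂ⟮jMer 1⟯ Mer := RingHom.ext fun a => actMer_of_mem_adjoin g a.2
    rw [h3] at h2
    exact h2.symm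
  rw [h1, hp, map_zero]

variable (N : ℕ)

/-- The conjugate of `h` attached to a coset. -/
def conjM (h : Mer) (c : XN N) : Mer := actMer (Quotient.out c) h

variable {N}

theorem conjM_mk {h : Mer} (hh : ∀ γ ∈ Gamma0 N, actMer γ h = h) (a : SL(2, ℤ)) :
    conjM N h (a : XN N) = actMer a h := by
  obtain ⟨γ, hγ⟩ := QuotientGroup.mk_out_eq_mul (Gamma0 N) a
  rw [conjM, hγ, map_mul]
  show actMer a (actMer γ h) = actMer a h
  rw [hh γ γ.2]

theorem actMer_conjM {h : Mer} (hh : ∀ γ ∈ Gamma0 N, actMer γ h = h) (g : SL(2, ℤ)) (c : XN N) :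
    actMer g (conjM N h c) = conjM N h (g • c) := by
  induction c using QuotientGroup.induction_on with
  | H a =>
    rw [MulAction.Quotient.smul_coe, smul_eq_mul, conjM_mk hh, conjM_mk hh, map_mul]
    rfl

theorem conjM_base {h : Mer} (hh : ∀ γ ∈ Gamma0 N, actMer γ h = h) :
    conjM N h ((1 : SL(2, ℤ)) : XN N) = h := by
  rw [conjM_mk hh, map_one]
  rfl

theorem isAlgebraic_conjM {h : Mer} (hh : IsAlgebraic ℂ⟮jMer 1⟯ h) (c : XN N) :
    IsAlgebraic ℂ⟮jMer 1⟯ (conjM N h c) := isAlgebraic_actMer _ hh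

theorem actMer_jMer_of_mem {d : ℕ} [NeZero d] (hd : d ∣ N) {γ : SL(2, ℤ)} (hγ : γ ∈ Gamma0 N) :
    actMer γ (jMer d) = jMer d := by
  rw [jMer, actMer_algebraMap, actHol_jdHol_of_mem jfun_isSLInvariant hd hγ]

theorem conjM_jMer_eq_iff [NeZero N] (c : XN N) :
    conjM N (jMer N) c = jMer N ↔ c = ((1 : SL(2, ℤ)) : XN N) := by
  constructor
  · intro h
    rw [conjM, jMer, actMer_algebraMap] at h
    have h2 := IsFractionRing.injective Hol Mer h
    have h3 : (Quotient.out c)⁻¹ ∈ Gamma0 N := by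
      apply mem_Gamma0_of_jd_smul_eq N
      intro τ
      have h4 := congrFun (congrArg Subtype.val h2) τ
      rw [actHol_apply] at h4
      exact h4
    have h5 : ((Quotient.out c : SL(2, ℤ)) : XN N) = c := Quotient.out_eq' c
    rw [← h5, QuotientGroup.eq]
    simpa using h3
  · rintro rfl
    exact conjM_base (fun γ hγ => actMer_jMer_of_mem dvd_rfl hγ)

/-! ### Lagrange interpolation -/

section Lagrange

variable [NeZero N]

open Classical in
/-- The Lagrange numerator. -/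
def lagM (N : ℕ) [NeZero N] (u h : Mer) : Mer[X] :=
  ∑ c : XN N, C (conjM N h c) * ∏ c' ∈ Finset.univ.erase c, (X - C (conjM N u c'))

theorem lagM_map {u h : Mer} (hu : ∀ γ ∈ Gamma0 N, actMer γ u = u)
    (hh : ∀ γ ∈ Gamma0 N, actMer γ h = h) (g : SL(2, ℤ)) :
    (lagM N u h).map ((actMer g : Mer ≃ₐ[ℂ] Mer) : Mer →+* Mer) = lagM N u h := by
  classical
  set φ : Mer →+* Mer := ((actMer g : Mer ≃ₐ[ℂ] Mer) : Mer →+* Mer) with hφ
  have eu : ∀ c, φ (conjM N u c) = conjM N u (g • c) := fun c => actMer_conjM hu g c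
  have eh : ∀ c, φ (conjM N h c) = conjM N h (g • c) := fun c => actMer_conjM hh g c
  have h1 : (lagM N u h).map φ = ∑ c : XN N, C (conjM N h (g • c)) *
      ∏ c' ∈ Finset.univ.erase c, (X - C (conjM N u (g • c'))) := by
    unfold lagM
    rw [Polynomial.map_sum]
    refine Finset.sum_congr rfl fun c _ => ?_
    rw [Polynomial.map_mul, Polynomial.map_C, eh, Polynomial.map_prod]
    congr 1
    refine Finset.prod_congr (by congr) fun c' _ => ?_
    rw [Polynomial.map_sub, Polynomial.map_X, Polynomial.map_C, eu]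
  rw [h1]
  unfold lagM
  refine Fintype.sum_equiv (MulAction.toPerm g)
    (fun c => C (conjM N h (g • c)) * ∏ c' ∈ Finset.univ.erase c, (X - C (conjM N u (g • c'))))
    (fun c => C (conjM N h c) * ∏ c' ∈ Finset.univ.erase c, (X - C (conjM N u c'))) (fun c => ?_)
  simp only [MulAction.toPerm_apply]
  have h2 : ∏ c' ∈ Finset.univ.erase c, (X - C (conjM N u (g • c'))) =
      ∏ c' ∈ Finset.univ.erase (g • c), (X - C (conjM N u c')) := by
    refine Finset.prod_bij (fun c' _ => g • c') ?_ ?_ ?_ ?_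
    · intro a ha
      rw [Finset.mem_erase] at ha ⊢
      exact ⟨fun h => ha.1 (smul_left_cancel g h), Finset.mem_univ _⟩
    · intro a _ b _ hab
      exact smul_left_cancel g hab
    · intro b hb
      rw [Finset.mem_erase] at hb
      refine ⟨g⁻¹ • b, ?_, smul_inv_smul g b⟩
      rw [Finset.mem_erase]
      exact ⟨fun h => hb.1 (by rw [← h, smul_inv_smul]), Finset.mem_univ _⟩
    · intro a _
      rfl
  rw [h2]

theorem lagM_coeff_mem {u h : Mer} (hu : ∀ γ ∈ Gamma0 N, actMer γ u = u)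
    (hh : ∀ γ ∈ Gamma0 N, actMer γ h = h) (hua : IsAlgebraic ℂ⟮jMer 1⟯ u)
    (hha : IsAlgebraic ℂ⟮jMer 1⟯ h) (i : ℕ) : (lagM N u h).coeff i ∈ ℂ⟮jMer 1⟯ := by
  classical
  apply mem_adjoin_of_invariant
  · intro g
    have h1 := congrArg (fun p => Polynomial.coeff p i) (lagM_map hu hh g)
    simp only [coeff_map] at h1
    exact h1
  · set L := algebraicClosure ℂ⟮jMer 1⟯ Mer with hL
    have hu' : ∀ c, conjM N u c ∈ L := fun c =>
      mem_algebraicClosure_iff.mpr (isAlgebraic_conjM hua c)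
    have hh' : ∀ c, conjM N h c ∈ L := fun c =>
      mem_algebraicClosure_iff.mpr (isAlgebraic_conjM hha c)
    have h1 : lagM N u h = (∑ c : XN N, C (⟨conjM N h c, hh' c⟩ : L) *
        ∏ c' ∈ Finset.univ.erase c, (X - C (⟨conjM N u c', hu' c'⟩ : L))).map
          (algebraMap L Mer) := by
      simp only [lagM, Polynomial.map_sum, Polynomial.map_mul, Polynomial.map_prod,
        Polynomial.map_sub, Polynomial.map_X, Polynomial.map_C]
      rfl
    rw [h1, coeff_map]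
    exact mem_algebraicClosure_iff.mp (Subtype.mem _)

theorem eval_lagM {u h : Mer} (c0 : XN N) :
    (lagM N u h).eval (conjM N u c0) =
      conjM N h c0 * ∏ c' ∈ (Finset.univ.erase c0 : Finset (XN N)),
        (conjM N u c0 - conjM N u c') := by
  classical
  rw [lagM, eval_finsetSum, Finset.sum_eq_single c0]
  · rw [eval_mul, eval_C, eval_prod]
    simp
  · intro c _ hc
    rw [eval_mul, eval_prod, Finset.prod_eq_zero (i := c0)]
    · simp
    · exact Finset.mem_erase.mpr ⟨hc.symm, Finset.mem_univ _⟩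
    · simp
  · intro h0
    exact absurd (Finset.mem_univ _) h0

theorem eval_mem_of_coeff_mem {E : IntermediateField ℂ Mer} {p : Mer[X]} {x : Mer}
    (hp : ∀ i, p.coeff i ∈ E) (hx : x ∈ E) : p.eval x ∈ E := by
  rw [eval_eq_sum_range]
  exact sum_mem fun i _ => mul_mem (hp i) (pow_mem hx i)

theorem adjoin_jMer_one_le : ℂ⟮jMer 1⟯ ≤ IntermediateField.adjoin ℂ {jMer 1, jMer N} :=
  IntermediateField.adjoin.mono ℂ _ _ (by simp)

/-- `j_d` is algebraic over `ℂ(j)`. -/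
theorem isAlgebraic_jMer {d : ℕ} [NeZero d] (hd : d ∣ N) : IsAlgebraic ℂ⟮jMer 1⟯ (jMer d) := by
  classical
  have hmem : jMer d ∈ Algebra.adjoin ℂ (ThetaMer N '' genSetF N) :=
    Algebra.subset_adjoin ⟨jBar N d hd, ⟨d, ‹_›, hd, rfl⟩, ThetaMer_jBar N d hd⟩
  have hc := charpolyCoeff N (jMer d) hmem
  set Φ : Mer[X] := ∏ x : XN N, (X - C (actMer (Quotient.out x) (jMer d))) with hΦ
  have hmonic : Φ.Monic := monic_prod_of_monic _ _ fun x _ => monic_X_sub_C _
  have hl : Φ ∈ lifts (algebraMap ℂ⟮jMer 1⟯ Mer) := by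
    rw [lifts_iff_coeff_lifts]
    intro i
    obtain ⟨b, hb⟩ := hc i
    refine ⟨⟨aeval (jMer 1) b, ?_⟩, hb.symm⟩
    apply IntermediateField.algebra_adjoin_le_adjoin ℂ
    rw [Algebra.adjoin_singleton_eq_range_aeval]
    exact ⟨b, rfl⟩
  obtain ⟨q, hq, -, hqm⟩ := lifts_and_natDegree_eq_and_monic hl hmonic
  refine ⟨q, hqm.ne_zero, ?_⟩
  rw [aeval_def, ← eval_map, hq, hΦ, eval_prod]
  refine Finset.prod_eq_zero (Finset.mem_univ ((1 : SL(2, ℤ)) : XN N)) ?_
  have := conjM_base (N := N) (h := jMer d) (fun γ hγ => actMer_jMer_of_mem hd hγ)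
  rw [conjM] at this
  rw [this]
  simp

/-- (LAG) a `Γ₀(N)`-invariant element of `Mer` algebraic over `ℂ(j)` lies in `ℂ(j, j_N)`. -/
theorem mem_adjoin_of_Gamma0_invariant (h : Mer) (hinv : ∀ γ ∈ Gamma0 N, actMer γ h = h)
    (halg : IsAlgebraic ℂ⟮jMer 1⟯ h) : h ∈ IntermediateField.adjoin ℂ {jMer 1, jMer N} := by
  classical
  set E := IntermediateField.adjoin ℂ {jMer 1, jMer N} with hE
  set u := jMer N with hu
  set c0 : XN N := ((1 : SL(2, ℤ)) : XN N) with hc0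
  have huinv : ∀ γ ∈ Gamma0 N, actMer γ u = u := fun γ hγ => actMer_jMer_of_mem dvd_rfl hγ
  have hualg : IsAlgebraic ℂ⟮jMer 1⟯ u := isAlgebraic_jMer dvd_rfl
  have huE : u ∈ E := IntermediateField.subset_adjoin ℂ _ (Set.mem_insert_of_mem _ rfl)
  have hu0 : conjM N u c0 = u := conjM_base huinv
  have h1inv : ∀ γ ∈ Gamma0 N, actMer γ (1 : Mer) = 1 := fun γ _ => map_one _
  have key : ∀ w : Mer, (∀ γ ∈ Gamma0 N, actMer γ w = w) → IsAlgebraic ℂ⟮jMer 1⟯ w →
      w * ∏ c' ∈ (Finset.univ.erase c0 : Finset (XN N)), (u - conjM N u c') ∈ E := by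
    intro w hw hwa
    have h2 := eval_lagM (N := N) (u := u) (h := w) c0
    rw [hu0, conjM_base hw] at h2
    rw [← h2]
    exact eval_mem_of_coeff_mem
      (fun i => adjoin_jMer_one_le (lagM_coeff_mem huinv hw hualg hwa i)) huE
  set D := ∏ c' ∈ (Finset.univ.erase c0 : Finset (XN N)), (u - conjM N u c') with hD
  have hD0 : D ≠ 0 := by
    rw [hD, Finset.prod_ne_zero_iff]
    intro c' hc'
    rw [sub_ne_zero]
    intro h3
    exact (Finset.mem_erase.mp hc').1 ((conjM_jMer_eq_iff c').mp h3.symm)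
  have hDE : D ∈ E := by
    have := key 1 h1inv isAlgebraic_one
    rwa [one_mul] at this
  have := div_mem (key h hinv halg) hDE
  rwa [mul_div_cancel_right₀ _ hD0] at this

end Lagrange

end

end Fermat.Agent.GAL
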