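import Mathlib

/-!
# From a quadratic relation to a two-dimensional representation (project GAL, piece (e))

Let `G` act on a nonzero finite dimensional vector space `W` over an algebraically closed field
`F` such that every `σ` satisfies `σ² - t(σ) σ + χ(σ) = 0` with `χ` multiplicative.  Then there is
a two-dimensional representation `ρ` of `G` with `charpoly (ρ σ) = X² - t(σ) X + χ(σ)`, trivial on
`ker r ∩ ker χ`.
-/

set_option autoImplicit false
open Polynomial

namespace Fermat.Agent.GAL.QuadRep

variable {F : Type*} [Field F] {G : Type*} [Group G] {W : Type*} [AddCommGroup W] [Module F W]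

/-- The quadratic relation. -/
def Rel (r : G →* Module.End F W) (χ : G →* F) (t : G → F) : Prop :=
  ∀ σ, r σ * r σ - t σ • r σ + χ σ • (1 : Module.End F W) = 0

variable {r : G →* Module.End F W} {χ : G →* F} {t : G → F}

theorem Rel.sq (h : Rel r χ t) (σ : G) : r σ * r σ = t σ • r σ - χ σ • (1 : Module.End F W) := by
  have := h σ
  linear_combination (norm := module) this

theorem Rel.adj (h : Rel r χ t) (σ : G) : χ σ • r σ⁻¹ = t σ • (1 : Module.End F W) - r σ := by
  have h2 : r σ * r σ⁻¹ = 1 := by rw [← map_mul, mul_inv_cancel, map_one]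
  have h3 := congrArg (· * r σ⁻¹) (h σ)
  simp only [add_mul, sub_mul, mul_assoc, h2, smul_mul_assoc, one_mul, mul_one, zero_mul] at h3
  linear_combination (norm := module) h3

theorem Rel.anticomm (h : Rel r χ t) (s g : G) :
    r s * r g + r g * r s =
      t g • r s + t s • r g + (t (s * g) - t g * t s) • (1 : Module.End F W) := by
  have h1 := h.adj (s * g)
  rw [mul_inv_rev, map_mul, map_mul, map_mul] at h1
  have h2 : (χ s * χ g) • (r g⁻¹ * r s⁻¹) = (χ g • r g⁻¹) * (χ s • r s⁻¹) := by
    rw [smul_mul_smul_comm, mul_comm]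
  rw [h2, h.adj, h.adj] at h1
  simp only [sub_mul, mul_sub, smul_mul_assoc, mul_smul_comm, one_mul, mul_one] at h1
  linear_combination (norm := module) h1

/-- The linear extension of `r` to the group algebra. -/
noncomputable def R (r : G →* Module.End F W) : MonoidAlgebra F G →ₐ[F] Module.End F W :=
  MonoidAlgebra.lift F (Module.End F W) G r

/-- The linear extension of `t` to the group algebra. -/
noncomputable def T (t : G → F) : MonoidAlgebra F G →ₗ[F] F :=
  (MonoidAlgebra.basis G F).constr F t

@[simp] theorem R_of (σ : G) : R r (MonoidAlgebra.of F G σ) = r σ := by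
  simp [R]

@[simp] theorem T_of (σ : G) : T t (MonoidAlgebra.of F G σ) = t σ := by
  have := (MonoidAlgebra.basis G F).constr_basis F t σ
  rw [MonoidAlgebra.basis_apply] at this
  simpa [T] using this

theorem Rel.anticomm' (h : Rel r χ t) (x y : MonoidAlgebra F G) :
    R r x * R r y + R r y * R r x =
      T t y • R r x + T t x • R r y + (T t (x * y) - T t y * T t x) • (1 : Module.End F W) := by
  induction x using MonoidAlgebra.induction_on with
  | of s =>
    induction y using MonoidAlgebra.induction_on with
    | of g =>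
      rw [← map_mul (MonoidAlgebra.of F G), R_of, R_of, T_of, T_of, T_of]
      exact h.anticomm s g
    | add y y' hy hy' =>
      simp only [map_add, mul_add, add_mul]
      linear_combination (norm := module) hy + hy'
    | smul c y hy =>
      simp only [map_smul, mul_smul_comm, smul_mul_assoc, smul_eq_mul]
      linear_combination (norm := module) c • hy
  | add x x' hx hx' =>
    simp only [map_add, mul_add, add_mul]
    linear_combination (norm := module) hx + hx'
  | smul c x hx =>
    simp only [map_smul, mul_smul_comm, smul_mul_assoc, smul_eq_mul]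
    linear_combination (norm := module) c • hx

theorem Rel.exists_norm (h : Rel r χ t) (x : MonoidAlgebra F G) :
    ∃ n : F, R r x * R r x = T t x • R r x - n • (1 : Module.End F W) := by
  induction x using MonoidAlgebra.induction_on with
  | of s => exact ⟨χ s, by rw [R_of, T_of]; exact h.sq s⟩
  | add x y hx hy =>
    obtain ⟨n, hn⟩ := hx
    obtain ⟨m, hm⟩ := hy
    refine ⟨n + m - (T t (x * y) - T t y * T t x), ?_⟩
    have := h.anticomm' x y
    simp only [map_add, mul_add, add_mul]
    linear_combination (norm := module) hn + hm + this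
  | smul c x hx =>
    obtain ⟨n, hn⟩ := hx
    refine ⟨c * c * n, ?_⟩
    simp only [map_smul, mul_smul_comm, smul_mul_assoc, smul_eq_mul]
    linear_combination (norm := module) (c * c) • hn

/-- If `N(x) = 0` then `x y x = T(xy) x`. -/
theorem Rel.sandwich (h : Rel r χ t) {x : MonoidAlgebra F G}
    (hx : R r x * R r x = T t x • R r x) (y : MonoidAlgebra F G) :
    R r x * R r y * R r x = T t (x * y) • R r x := by
  have h1 := congrArg (· * R r x) (h.anticomm' x y)
  simp only [add_mul, mul_assoc, hx, smul_mul_assoc, one_mul, mul_smul_comm] at h1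
  rw [mul_assoc]
  linear_combination (norm := module) h1

/-- Irreducibility. -/
def Irr (r : G →* Module.End F W) : Prop :=
  ∀ U : Submodule F W, (∀ σ, ∀ w ∈ U, r σ w ∈ U) → U = ⊥ ∨ U = ⊤

theorem Irr.span_orbit (hirr : Irr r) {w0 : W} (hw0 : w0 ≠ 0) :
    Submodule.span F (Set.range fun g => r g w0) = ⊤ := by
  refine (hirr _ fun σ w hw => ?_).resolve_left fun hbot => hw0 ?_
  · induction hw using Submodule.span_induction with
    | mem w hw =>
      obtain ⟨g, rfl⟩ := hw
      refine Submodule.subset_span ⟨σ * g, ?_⟩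
      simp [map_mul]
    | zero => simp
    | add a b _ _ ha hb => rw [map_add]; exact add_mem ha hb
    | smul c a _ ha => rw [map_smul]; exact Submodule.smul_mem _ _ ha
  · have : r 1 w0 ∈ Submodule.span F (Set.range fun g => r g w0) :=
      Submodule.subset_span ⟨1, rfl⟩
    rw [hbot, Submodule.mem_bot, map_one] at this
    exact this

theorem Rel.range_le (h : Rel r χ t) (hirr : Irr r) {x : MonoidAlgebra F G}
    (hx : R r x * R r x = T t x • R r x) :
    ∃ w0, LinearMap.range (R r x) ≤ Submodule.span F {w0} := by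
  by_cases hR : R r x = 0
  · exact ⟨0, by rw [hR, LinearMap.range_zero]; exact bot_le⟩
  · obtain ⟨w1, hw1⟩ : ∃ w1, R r x w1 ≠ 0 := by
      by_contra hcon
      push Not at hcon
      exact hR (LinearMap.ext hcon)
    refine ⟨R r x w1, ?_⟩
    rintro _ ⟨w, rfl⟩
    have hw : w ∈ Submodule.span F (Set.range fun g => r g (R r x w1)) := by
      rw [hirr.span_orbit hw1]; trivial
    induction hw using Submodule.span_induction with
    | mem w hw =>
      obtain ⟨g, rfl⟩ := hw
      have := congrArg (· w1) (h.sandwich hx (MonoidAlgebra.of F G g))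
      simp only [R_of, Module.End.mul_apply, LinearMap.smul_apply] at this
      change R r x (r g (R r x w1)) ∈ _
      rw [this]
      exact Submodule.smul_mem _ _ (Submodule.mem_span_singleton_self _)
    | zero => simp
    | add a b _ _ ha hb => rw [map_add]; exact add_mem ha hb
    | smul c a _ ha => rw [map_smul]; exact Submodule.smul_mem _ _ ha

theorem Rel.t_one [Nontrivial W] (h : Rel r χ t) : t 1 = 2 := by
  have h1 := h 1
  simp only [map_one, mul_one] at h1
  have h2 : ((2 : F) - t 1) • (1 : Module.End F W) = 0 := by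
    linear_combination (norm := module) h1
  rcases smul_eq_zero.mp h2 with h3 | h3
  · linear_combination -h3
  · exact absurd h3 one_ne_zero

theorem Rel.finrank_le_two_of [Nontrivial W] [FiniteDimensional F W] (h : Rel r χ t)
    (hirr : Irr r) {x : MonoidAlgebra F G}
    (hx : R r x * R r x = T t x • R r x) (hT : T t x ≠ 0) : Module.finrank F W ≤ 2 := by
  set x' : MonoidAlgebra F G := T t x • MonoidAlgebra.of F G 1 - x with hx'def
  have hRx' : R r x' = T t x • (1 : Module.End F W) - R r x := by
    rw [hx'def, map_sub, map_smul, R_of, map_one]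
  have hTx' : T t x' = T t x := by
    rw [hx'def, map_sub, map_smul, T_of, h.t_one, smul_eq_mul]; ring
  have hx' : R r x' * R r x' = T t x' • R r x' := by
    rw [hTx', hRx']
    simp only [sub_mul, mul_sub, smul_mul_assoc, mul_smul_comm, one_mul, mul_one, hx]
    module
  obtain ⟨w0, hw0⟩ := h.range_le hirr hx
  obtain ⟨w0', hw0'⟩ := h.range_le hirr hx'
  have htop : (⊤ : Submodule F W) ≤ Submodule.span F {w0, w0'} := by
    intro w _
    have hw : w = (T t x)⁻¹ • (R r x w + R r x' w) := by
      rw [hRx']
      simp [hT]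
    rw [hw]
    refine Submodule.smul_mem _ _ (add_mem ?_ ?_)
    · exact Submodule.span_mono (by simp) (hw0 ⟨w, rfl⟩)
    · exact Submodule.span_mono (by simp) (hw0' ⟨w, rfl⟩)
  have h1 : Module.finrank F (⊤ : Submodule F W) ≤
      Module.finrank F (Submodule.span F ({w0, w0'} : Set W)) := Submodule.finrank_mono htop
  rw [finrank_top] at h1
  classical
  have h2 := finrank_span_finset_le_card (R := F) ({w0, w0'} : Finset W)
  have h3 : ({w0, w0'} : Finset W).card ≤ 2 := Finset.card_le_two
  have h4 : ((({w0, w0'} : Finset W) : Set W)) = {w0, w0'} := by simp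
  rw [h4, Set.finrank] at h2
  omega

theorem Irr.finrank_le_one_of_scalar [Nontrivial W] [FiniteDimensional F W] (hirr : Irr r)
    (hsc : ∀ σ, ∃ c : F, r σ = c • (1 : Module.End F W)) : Module.finrank F W ≤ 1 := by
  obtain ⟨w0, hw0⟩ := exists_ne (0 : W)
  have htop : Submodule.span F {w0} = ⊤ := by
    refine (hirr _ fun σ w hw => ?_).resolve_left fun hbot => hw0 ?_
    · obtain ⟨c, hc⟩ := hsc σ
      rw [hc]
      exact Submodule.smul_mem _ _ hw
    · have := Submodule.mem_span_singleton_self (R := F) w0
      rwa [hbot, Submodule.mem_bot] at this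
  have h1 := finrank_span_singleton (K := F) hw0
  rw [htop, finrank_top] at h1
  exact h1.le

theorem Rel.finrank_le_two [Nontrivial W] [FiniteDimensional F W]
    (h : Rel r χ t) (hsplit : ∀ σ, ∃ α : F, α ^ 2 - t σ * α + χ σ = 0) (hirr : Irr r) :
    Module.finrank F W ≤ 2 := by
  by_cases hsc : ∀ σ, ∃ c : F, r σ = c • (1 : Module.End F W)
  · exact (hirr.finrank_le_one_of_scalar hsc).trans one_le_two
  · push Not at hsc
    obtain ⟨s, hs⟩ := hsc
    obtain ⟨α, hα'⟩ := hsplit s
    set x : MonoidAlgebra F G := MonoidAlgebra.of F G s - α • MonoidAlgebra.of F G 1 with hxdef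
    have hRx : R r x = r s - α • (1 : Module.End F W) := by
      rw [hxdef, map_sub, map_smul, R_of, R_of, map_one]
    have hRx0 : R r x ≠ 0 := by
      rw [hRx]
      intro h0
      exact hs α (sub_eq_zero.mp h0)
    have hTx : T t x = t s - 2 * α := by
      rw [hxdef, map_sub, map_smul, T_of, T_of, h.t_one, smul_eq_mul]; ring
    have hx : R r x * R r x = T t x • R r x := by
      rw [hTx, hRx]
      simp only [sub_mul, mul_sub, smul_mul_assoc, mul_smul_comm, one_mul, mul_one, h.sq s]
      have : (α ^ 2 - t s * α + χ s) • (1 : Module.End F W) = 0 := by rw [hα', zero_smul]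
      linear_combination (norm := module) -this
    by_cases hT : T t x = 0
    · obtain ⟨g, hg⟩ : ∃ g, T t (x * MonoidAlgebra.of F G g) ≠ 0 := by
        by_contra hcon
        push Not at hcon
        obtain ⟨w1, hw1⟩ : ∃ w1, R r x w1 ≠ 0 := by
          by_contra hcon'
          push Not at hcon'
          exact hRx0 (LinearMap.ext hcon')
        apply hRx0
        ext w
        have hw : w ∈ Submodule.span F (Set.range fun g => r g (R r x w1)) := by
          rw [hirr.span_orbit hw1]; trivial
        induction hw using Submodule.span_induction with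
        | mem w hw =>
          obtain ⟨g, rfl⟩ := hw
          have := congrArg (· w1) (h.sandwich hx (MonoidAlgebra.of F G g))
          simp only [R_of, Module.End.mul_apply, hcon g, zero_smul] at this
          exact this
        | zero => simp
        | add a b _ _ ha hb => rw [map_add, ha, hb]; simp
        | smul c a _ ha => rw [map_smul, ha]; simp
      refine h.finrank_le_two_of hirr (x := x * MonoidAlgebra.of F G g) ?_ hg
      have h1 := h.sandwich hx (MonoidAlgebra.of F G g)
      rw [map_mul, ← mul_assoc, h1, smul_mul_assoc]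
    · exact h.finrank_le_two_of hirr hx hT

/-! ### Two by two matrices -/

theorem matrix_sq (M : Matrix (Fin 2) (Fin 2) F) :
    M * M = M.trace • M - M.det • (1 : Matrix (Fin 2) (Fin 2) F) := by
  ext i j
  fin_cases i <;> fin_cases j <;>
    simp [Matrix.mul_apply, Fin.sum_univ_two, Matrix.trace_fin_two, Matrix.det_fin_two] <;> ring

theorem trace_det_of_nonscalar {M : Matrix (Fin 2) (Fin 2) F} {a b : F}
    (hM : M * M = a • M - b • (1 : Matrix (Fin 2) (Fin 2) F))
    (hns : ∀ c : F, M ≠ c • (1 : Matrix (Fin 2) (Fin 2) F)) : M.trace = a ∧ M.det = b := by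
  have h1 : (a - M.trace) • M = (b - M.det) • (1 : Matrix (Fin 2) (Fin 2) F) := by
    have := matrix_sq M
    rw [hM] at this
    linear_combination (norm := module) this
  have h2 : M.trace = a := by
    by_contra hne
    have hne' : a - M.trace ≠ 0 := sub_ne_zero.mpr (Ne.symm hne)
    apply hns ((a - M.trace)⁻¹ * (b - M.det))
    rw [mul_smul, ← h1, smul_smul, inv_mul_cancel₀ hne', one_smul]
  refine ⟨h2, ?_⟩
  rw [h2, sub_self, zero_smul] at h1
  rcases smul_eq_zero.mp h1.symm with h3 | h3
  · linear_combination -h3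
  · exact absurd h3 one_ne_zero

theorem χ_ne_zero (χ : G →* F) (σ : G) : χ σ ≠ 0 := by
  intro h0
  have : χ σ * χ σ⁻¹ = 1 := by rw [← map_mul, mul_inv_cancel, map_one]
  rw [h0, zero_mul] at this
  exact zero_ne_one this

/-- A matrix representation satisfying the relation, with at least one non-scalar element, has the
expected characteristic polynomials. -/
theorem charpoly_of_matrix_rel (ρ : G →* Matrix (Fin 2) (Fin 2) F)
    (hρ : ∀ σ, ρ σ * ρ σ = t σ • ρ σ - χ σ • (1 : Matrix (Fin 2) (Fin 2) F))
    (g : G) (hg : ∀ c : F, ρ g ≠ c • (1 : Matrix (Fin 2) (Fin 2) F)) (σ : G) :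
    (ρ σ).charpoly = X ^ 2 - C (t σ) * X + C (χ σ) := by
  rw [Matrix.charpoly_fin_two]
  by_cases hσ : ∀ c : F, ρ σ ≠ c • (1 : Matrix (Fin 2) (Fin 2) F)
  · obtain ⟨h1, h2⟩ := trace_det_of_nonscalar (hρ σ) hσ
    rw [h1, h2]
  · push Not at hσ
    obtain ⟨c, hc⟩ := hσ
    have hc0 : c ≠ 0 := by
      rintro rfl
      have : ρ σ * ρ σ⁻¹ = 1 := by rw [← map_mul, mul_inv_cancel, map_one]
      rw [hc, zero_smul, zero_mul] at this
      exact zero_ne_one this
    have hσg : ρ (σ * g) = c • ρ g := by rw [map_mul, hc, smul_mul_assoc, one_mul]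
    have hns : ∀ c' : F, ρ (σ * g) ≠ c' • (1 : Matrix (Fin 2) (Fin 2) F) := by
      intro c' h'
      apply hg (c⁻¹ * c')
      rw [mul_smul, ← h', hσg, smul_smul, inv_mul_cancel₀ hc0, one_smul]
    obtain ⟨-, h2⟩ := trace_det_of_nonscalar (hρ (σ * g)) hns
    obtain ⟨-, h4⟩ := trace_det_of_nonscalar (hρ g) hg
    rw [hσg, Matrix.det_smul, h4, map_mul, Fintype.card_fin] at h2
    have h5 : c ^ 2 = χ σ := mul_right_cancel₀ (χ_ne_zero χ g) h2
    have h6 := hρ σ
    rw [hc] at h6
    have h7 : (c * c - t σ * c + χ σ) • (1 : Matrix (Fin 2) (Fin 2) F) = 0 := by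
      simp only [smul_mul_assoc, mul_smul_comm, one_mul] at h6
      linear_combination (norm := module) h6
    have h8 : c * c - t σ * c + χ σ = 0 := by
      rcases smul_eq_zero.mp h7 with h | h
      · exact h
      · exact absurd h one_ne_zero
    have h9 : t σ = 2 * c := by
      apply mul_right_cancel₀ hc0
      linear_combination -h8 - h5
    rw [hc, Matrix.trace_smul, Matrix.det_smul, Matrix.trace_one, Matrix.det_one, Fintype.card_fin,
      h9, ← h5]
    simp [mul_comm]

/-- The diagonal representation `λ ⊕ χ λ⁻¹`. -/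
noncomputable def diagRep (l χ : G →* F) : G →* Matrix (Fin 2) (Fin 2) F where
  toFun σ := !![l σ, 0; 0, χ σ * (l σ)⁻¹]
  map_one' := by
    ext i j
    fin_cases i <;> fin_cases j <;> simp
  map_mul' σ τ := by
    ext i j
    fin_cases i <;> fin_cases j <;> simp [Matrix.mul_apply, Fin.sum_univ_two]
    ring

theorem Rel.exists_rep_of_irr [Nontrivial W] [FiniteDimensional F W]
    (h : Rel r χ t) (hsplit : ∀ σ, ∃ α : F, α ^ 2 - t σ * α + χ σ = 0) (hirr : Irr r) :
    ∃ ρ : G →* Matrix (Fin 2) (Fin 2) F, (∀ σ, r σ = 1 → χ σ = 1 → ρ σ = 1) ∧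
      ∀ σ, (ρ σ).charpoly = X ^ 2 - C (t σ) * X + C (χ σ) := by
  have hle := h.finrank_le_two hsplit hirr
  have hpos : 0 < Module.finrank F W := Module.finrank_pos
  obtain h1 | h2 : Module.finrank F W = 1 ∨ Module.finrank F W = 2 := by omega
  · -- a character
    obtain ⟨w0, hw0⟩ := exists_ne (0 : W)
    have hex : ∀ σ, ∃ c : F, c • w0 = r σ w0 := fun σ =>
      exists_smul_eq_of_finrank_eq_one h1 hw0 _
    choose l hl using hex
    have hinj : ∀ a b : F, a • w0 = b • w0 → a = b := fun a b hab =>
      smul_left_injective F hw0 hab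
    let L : G →* F :=
      { toFun := l
        map_one' := hinj _ _ (by rw [hl, map_one]; simp)
        map_mul' := fun σ τ => hinj _ _ (by
          rw [hl, map_mul, Module.End.mul_apply, ← hl τ, map_smul, ← hl σ, smul_smul, mul_comm]) }
    have hL : ∀ σ, L σ = l σ := fun _ => rfl
    refine ⟨diagRep L χ, fun σ hσ hχ => ?_, fun σ => ?_⟩
    · have : l σ = 1 := hinj _ _ (by rw [hl, hσ]; simp)
      ext i j
      fin_cases i <;> fin_cases j <;> simp [diagRep, hL, this, hχ]
    · have hl0 : l σ ≠ 0 := χ_ne_zero L σ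
      have hrel := congrArg (· w0) (h σ)
      simp only [LinearMap.add_apply, LinearMap.sub_apply, Module.End.mul_apply,
        LinearMap.smul_apply, Module.End.one_apply, LinearMap.zero_apply, ← hl σ, map_smul] at hrel
      have hrel' : l σ * l σ - t σ * l σ + χ σ = 0 := by
        apply hinj
        rw [zero_smul, ← hrel]
        module
      rw [Matrix.charpoly_fin_two]
      have htr : (diagRep L χ σ).trace = t σ := by
        simp only [diagRep, MonoidHom.coe_mk, OneHom.coe_mk, Matrix.trace_fin_two_of, hL]
        field_simp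
        linear_combination hrel'
      have hdet : (diagRep L χ σ).det = χ σ := by
        simp only [diagRep, MonoidHom.coe_mk, OneHom.coe_mk, Matrix.det_fin_two_of, hL]
        field_simp
        ring
      rw [htr, hdet]
  · let b := Module.finBasisOfFinrankEq F W h2
    let e : Module.End F W ≃ₐ[F] Matrix (Fin 2) (Fin 2) F := LinearMap.toMatrixAlgEquiv b
    let ρ : G →* Matrix (Fin 2) (Fin 2) F := (e : Module.End F W →* _).comp r
    have hρ : ∀ σ, ρ σ = e (r σ) := fun _ => rfl
    obtain ⟨g, hg⟩ : ∃ g, ∀ c : F, r g ≠ c • (1 : Module.End F W) := by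
      by_contra hcon
      push Not at hcon
      have := hirr.finrank_le_one_of_scalar hcon
      omega
    refine ⟨ρ, fun σ hσ _ => by rw [hρ, hσ, map_one], fun σ => ?_⟩
    refine charpoly_of_matrix_rel (χ := χ) (t := t) ρ (fun σ => ?_) g (fun c hc => hg c ?_) σ
    · rw [hρ, ← map_mul, h.sq σ, map_sub, map_smul, map_smul, map_one]
    · apply e.injective
      rw [← hρ, hc, map_smul, map_one]

/-- Restriction of a representation to an invariant subspace. -/
def restrictRep (r : G →* Module.End F W) (U : Submodule F W)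
    (hU : ∀ σ, ∀ w ∈ U, r σ w ∈ U) : G →* Module.End F U where
  toFun σ := (r σ).restrict (hU σ)
  map_one' := by
    ext w
    simp
  map_mul' σ τ := by
    ext w
    simp

theorem restrictRep_apply (r : G →* Module.End F W) (U : Submodule F W)
    (hU : ∀ σ, ∀ w ∈ U, r σ w ∈ U) (σ : G) (w : U) :
    ((restrictRep r U hU σ w : U) : W) = r σ w := rfl

/-- **Main theorem** (piece (e) of project GAL), assuming only that the quadratic polynomials
`X² - t(σ) X + χ(σ)` have a root in `F`. -/
theorem Rel.exists_rep_of_split [Nontrivial W] [FiniteDimensional F W] (h : Rel r χ t)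
    (hsplit : ∀ σ, ∃ α : F, α ^ 2 - t σ * α + χ σ = 0) :
    ∃ ρ : G →* Matrix (Fin 2) (Fin 2) F, (∀ σ, r σ = 1 → χ σ = 1 → ρ σ = 1) ∧
      ∀ σ, (ρ σ).charpoly = X ^ 2 - C (t σ) * X + C (χ σ) := by
  let S : Set (Submodule F W) := {U | U ≠ ⊥ ∧ ∀ σ, ∀ w ∈ U, r σ w ∈ U}
  have hS : S.Nonempty := ⟨⊤, top_ne_bot, fun _ _ _ => trivial⟩
  obtain ⟨U, ⟨hU0, hUinv⟩, hmin⟩ :=
    WellFounded.has_min (measure (fun U : Submodule F W => Module.finrank F U)).wf S hS
  have hnt : Nontrivial U := (Submodule.nontrivial_iff_ne_bot).mpr hU0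
  have hrel : Rel (restrictRep r U hUinv) χ t := by
    intro σ
    ext w
    have := congrArg (· (w : W)) (h σ)
    simpa [restrictRep_apply] using this
  have hirr : Irr (restrictRep r U hUinv) := by
    intro U' hU'
    by_cases hbot : U' = ⊥
    · exact Or.inl hbot
    · right
      have hmem : U'.map U.subtype ∈ S := by
        refine ⟨?_, fun σ w hw => ?_⟩
        · intro hb
          apply hbot
          apply Submodule.map_injective_of_injective U.injective_subtype
          rw [hb, Submodule.map_bot]
        · obtain ⟨w', hw', rfl⟩ := hw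
          exact ⟨restrictRep r U hUinv σ w', hU' σ w' hw', rfl⟩
      have h1 := hmin _ hmem
      change ¬ (Module.finrank F (U'.map U.subtype) < Module.finrank F U) at h1
      rw [not_lt] at h1
      rw [Submodule.finrank_map_subtype_eq] at h1
      exact Submodule.eq_top_of_finrank_eq (le_antisymm (Submodule.finrank_le _) h1)
  obtain ⟨ρ, hρ1, hρ2⟩ := hrel.exists_rep_of_irr hsplit hirr
  refine ⟨ρ, fun σ hσ hχ => hρ1 σ ?_ hχ, hρ2⟩
  ext w
  rw [restrictRep_apply, hσ]
  rfl

/-- **Main theorem** (piece (e) of project GAL) over an algebraically closed field. -/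
theorem Rel.exists_rep [Nontrivial W] [FiniteDimensional F W] [IsAlgClosed F] (h : Rel r χ t) :
    ∃ ρ : G →* Matrix (Fin 2) (Fin 2) F, (∀ σ, r σ = 1 → χ σ = 1 → ρ σ = 1) ∧
      ∀ σ, (ρ σ).charpoly = X ^ 2 - C (t σ) * X + C (χ σ) := by
  refine h.exists_rep_of_split fun s => ?_
  obtain ⟨α, hα⟩ := IsAlgClosed.exists_root (X ^ 2 - C (t s) * X + C (χ s) : F[X]) (by
    have : (X ^ 2 - C (t s) * X + C (χ s) : F[X]).degree = 2 := by compute_degree!
    rw [this]; norm_num)
  exact ⟨α, by simpa [IsRoot] using hα⟩

/-- The function `t` is determined by the relation. -/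
theorem Rel.t_unique [Nontrivial W] (h : Rel r χ t) {σ : G} {a : F}
    (ha : r σ * r σ - a • r σ + χ σ • (1 : Module.End F W) = 0) : t σ = a := by
  have h1 : (t σ - a) • r σ = 0 := by
    have := h σ
    linear_combination (norm := module) ha - this
  have h2 : r σ * r σ⁻¹ = 1 := by rw [← map_mul, mul_inv_cancel, map_one]
  have h3 : (t σ - a) • (1 : Module.End F W) = 0 := by
    rw [← h2, ← smul_mul_assoc, h1, zero_mul]
  rcases smul_eq_zero.mp h3 with h4 | h4
  · exact sub_eq_zero.mp h4
  · exact absurd h4 one_ne_zero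

end Fermat.Agent.GAL.QuadRep
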