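import Fermat.Statements.S29
import Fermat.Agent.GAL.QuadRep
import Fermat.Agent.GAL.Lucas
import Fermat.Agent.GAL.CycloChar

/-!
# Abstract assembly of S29 (project GAL)

From a nonzero finite dimensional Galois module on which the Eichler-Shimura relation holds at all
Frobenius lifts (outside `N p`), and generator-Chebotarev, we get the conclusion of S29.
-/

set_option autoImplicit false
open Polynomial
open Fermat.Agent.GAL.QuadRep

namespace Fermat.Agent.GAL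

local notation "Qbar" => AlgebraicClosure ℚ
local notation "GQ" => (AlgebraicClosure ℚ ≃ₐ[ℚ] AlgebraicClosure ℚ)

/-- Generator-Chebotarev in the language of the Prelude: every element of a finite quotient of
`G_ℚ` is a power of a Frobenius lift at a prime outside any given finite set. -/
def GenCheb : Prop :=
  ∀ (L : IntermediateField ℚ Qbar), FiniteDimensional ℚ L → ∀ (σ : GQ) (T : Finset ℕ),
    ∃ (ℓ : ℕ) (A : ValuationSubring Qbar) (τ : GQ) (c : ℕ), ℓ.Prime ∧ ℓ ∉ T ∧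
      A.LiesOverPrime ℓ ∧ A.IsFrobeniusAt τ ℓ ∧ ∀ x ∈ L, σ x = (τ ^ c) x

/-- Monic quadratic polynomials over the ring of all algebraic integers have a root there. -/
theorem exists_root_integralClosure (v d : integralClosure ℤ ℂ) :
    ∃ β : integralClosure ℤ ℂ, β ^ 2 - v * β + d = 0 := by
  set P : (integralClosure ℤ ℂ)[X] := X ^ 2 - C v * X + C d with hP
  have hmonic : P.Monic := by rw [hP]; monicity!
  have hdeg : (P.map (algebraMap (integralClosure ℤ ℂ) ℂ)).degree ≠ 0 := by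
    rw [hmonic.degree_map]
    have : P.degree = 2 := by rw [hP]; compute_degree!
    rw [this]; norm_num
  obtain ⟨β, hβ⟩ := IsAlgClosed.exists_root _ hdeg
  have hβ' : eval₂ (algebraMap (integralClosure ℤ ℂ) ℂ) β P = 0 := by
    rwa [IsRoot, eval_map] at hβ
  have hint : IsIntegral (integralClosure ℤ ℂ) β := ⟨P, hmonic, hβ'⟩
  have hint' : IsIntegral ℤ β := isIntegral_trans β hint
  refine ⟨⟨β, hint'⟩, Subtype.ext ?_⟩
  simpa [hP, eval₂_add, eval₂_sub, eval₂_mul, eval₂_pow] using hβ'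

/-- The mod `p` cyclotomic character with values in a field of characteristic `p`. -/
noncomputable def cycloCharField (p : ℕ) [Fact p.Prime] (k : Type*) [Field k] [CharP k p] :
    GQ →* k :=
  ((ZMod.castHom (dvd_refl p) k : ZMod p →+* k) : ZMod p →* k).comp
    ((Units.coeHom (ZMod p)).comp (cycloChar p))

theorem cycloCharField_apply (p : ℕ) [Fact p.Prime] (k : Type*) [Field k] [CharP k p] (σ : GQ) :
    cycloCharField p k σ = ZMod.castHom (dvd_refl p) k (cycloChar p σ : ZMod p) := rfl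

/-- Package a matrix representation as a `ResidualGaloisRep`. -/
noncomputable def residualOfMatrix {k : Type} [Field k] (ρ : GQ →* Matrix (Fin 2) (Fin 2) k)
    (h : ∃ L : IntermediateField ℚ Qbar, FiniteDimensional ℚ L ∧
      ∀ σ : GQ, (∀ x ∈ L, σ x = x) → ρ σ = 1) : ResidualGaloisRep k where
  V := Fin 2 → k
  finrank_eq := Module.finrank_fin_fun k
  ρ := ((Matrix.toLinAlgEquiv' : Matrix (Fin 2) (Fin 2) k ≃ₐ[k] _) :
    Matrix (Fin 2) (Fin 2) k →* Module.End k (Fin 2 → k)).comp ρ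
  factorsThroughFiniteLevel := by
    obtain ⟨L, hL, h1⟩ := h
    exact ⟨L, hL, fun σ hσ => by rw [MonoidHom.comp_apply, h1 σ hσ, map_one]⟩

theorem residualOfMatrix_ρ {k : Type} [Field k] (ρ : GQ →* Matrix (Fin 2) (Fin 2) k)
    (h : ∃ L : IntermediateField ℚ Qbar, FiniteDimensional ℚ L ∧
      ∀ σ : GQ, (∀ x ∈ L, σ x = x) → ρ σ = 1) (σ : GQ) :
    (residualOfMatrix ρ h).ρ σ = Matrix.toLin' (ρ σ) := rfl

theorem residualOfMatrix_charpoly {k : Type} [Field k] (ρ : GQ →* Matrix (Fin 2) (Fin 2) k)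
    (h : ∃ L : IntermediateField ℚ Qbar, FiniteDimensional ℚ L ∧
      ∀ σ : GQ, (∀ x ∈ L, σ x = x) → ρ σ = 1) (σ : GQ) :
    LinearMap.charpoly ((residualOfMatrix ρ h).ρ σ) = (ρ σ).charpoly :=
  Matrix.charpoly_toLin' (ρ σ)

section Main

variable {N : ℕ} [NeZero N] {g : CuspForm (CongruenceSubgroup.Gamma0 N) 2}
  {p : ℕ} {k : Type} [Field k] [CharP k p]

/-- **Abstract S29** over the field `k` itself. -/
theorem exists_residualGaloisRep_of_module (hp : p.Prime)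
    (φ : integralClosure ℤ ℂ →+* k) (hCheb : GenCheb)
    {W : Type*} [AddCommGroup W] [Module k W] [FiniteDimensional k W] [Nontrivial W]
    (r : GQ →* Module.End k W)
    (hfin : ∃ L : IntermediateField ℚ Qbar, FiniteDimensional ℚ L ∧
      ∀ σ : GQ, (∀ x ∈ L, σ x = x) → r σ = 1)
    (hunr : ∀ ℓ : ℕ, ℓ.Prime → ¬ ℓ ∣ N * p → ∀ A : ValuationSubring Qbar, A.LiesOverPrime ℓ →
      ∀ σ ∈ A.inertiaSubgroupIn ℚ, r σ = 1)
    (hES : ∀ ℓ : ℕ, ℓ.Prime → ¬ ℓ ∣ N * p → ∀ A : ValuationSubring Qbar, A.LiesOverPrime ℓ →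
      ∀ σ : GQ, A.IsFrobeniusAt σ ℓ → ∃ a : integralClosure ℤ ℂ,
        (a : ℂ) = ModularFormClass.qCoeff g ℓ ∧
          r σ * r σ - φ a • r σ + (ℓ : k) • (1 : Module.End k W) = 0) :
    ∃ ρ : ResidualGaloisRep k, ρ.IsAttachedTo g φ ∧
      ∀ ℓ : ℕ, ℓ.Prime → ¬ ℓ ∣ N * p → ρ.IsUnramifiedAt ℓ := by
  have : Fact p.Prime := ⟨hp⟩
  set χ : GQ →* k := cycloCharField p k with hχ
  have hNp : N * p ≠ 0 := mul_ne_zero (NeZero.ne N) hp.ne_zero
  have hne : ∀ ℓ : ℕ, ¬ ℓ ∣ N * p → ℓ ≠ p := by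
    rintro ℓ h rfl
    exact h (dvd_mul_left _ _)
  -- values of `χ`
  have hχfrob : ∀ ℓ : ℕ, ℓ.Prime → ℓ ≠ p → ∀ A : ValuationSubring Qbar, A.LiesOverPrime ℓ →
      ∀ σ : GQ, A.IsFrobeniusAt σ ℓ → χ σ = (ℓ : k) := by
    intro ℓ hℓ hℓp A hA σ hσ
    rw [hχ, cycloCharField_apply, cycloChar_of_isFrobeniusAt hℓ hℓp hA hσ, map_natCast]
  have hχin : ∀ ℓ : ℕ, ℓ.Prime → ℓ ≠ p → ∀ A : ValuationSubring Qbar, A.LiesOverPrime ℓ →
      ∀ σ ∈ A.inertiaSubgroupIn ℚ, χ σ = 1 := by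
    intro ℓ hℓ hℓp A hA σ hσ
    rw [hχ, cycloCharField_apply, cycloChar_of_mem_inertia hℓ hℓp hA hσ, Units.val_one, map_one]
  -- a common finite level
  obtain ⟨L₁, hL₁, hr₁⟩ := hfin
  obtain ⟨L₂, hL₂, hc₂⟩ := cycloChar_finiteLevel p
  set L : IntermediateField ℚ Qbar := L₁ ⊔ L₂ with hL
  have hLfin : FiniteDimensional ℚ L := IntermediateField.finiteDimensional_sup L₁ L₂
  have hrL : ∀ σ : GQ, (∀ x ∈ L, σ x = x) → r σ = 1 := fun σ hσ =>
    hr₁ σ fun x hx => hσ x ((le_sup_left : L₁ ≤ L) hx)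
  have hχL : ∀ σ : GQ, (∀ x ∈ L, σ x = x) → χ σ = 1 := fun σ hσ => by
    rw [hχ, cycloCharField_apply, hc₂ σ fun x hx => hσ x ((le_sup_right : L₂ ≤ L) hx),
      Units.val_one, map_one]
  -- the relation for all `σ`
  have key : ∀ σ : GQ, ∃ v : k, (r σ * r σ - v • r σ + χ σ • (1 : Module.End k W) = 0) ∧
      ∃ α : k, α ^ 2 - v * α + χ σ = 0 := by
    intro σ
    obtain ⟨ℓ, A, τ, c, hℓ, hℓT, hA, hτ, hστ⟩ := hCheb L hLfin σ (N * p).primeFactors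
    have hℓNp : ¬ ℓ ∣ N * p := fun hd => hℓT (Nat.mem_primeFactors.mpr ⟨hℓ, hd, hNp⟩)
    obtain ⟨a, -, ha⟩ := hES ℓ hℓ hℓNp A hA τ hτ
    have hfix : ∀ x ∈ L, ((τ ^ c)⁻¹ * σ) x = x := by
      intro x hx
      rw [AlgEquiv.mul_apply, hστ x hx]
      exact (τ ^ c).symm_apply_apply x
    have hrσ : r σ = r τ ^ c := by
      calc r σ = r (τ ^ c * ((τ ^ c)⁻¹ * σ)) := by rw [mul_inv_cancel_left]
        _ = r τ ^ c := by rw [map_mul, hrL _ hfix, mul_one, map_pow]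
    have hχσ : χ σ = (ℓ : k) ^ c := by
      calc χ σ = χ (τ ^ c * ((τ ^ c)⁻¹ * σ)) := by rw [mul_inv_cancel_left]
        _ = (ℓ : k) ^ c := by
          rw [map_mul, hχL _ hfix, mul_one, map_pow, hχfrob ℓ hℓ (hne ℓ hℓNp) A hA τ hτ]
    refine ⟨lucasV (φ a) (ℓ : k) c, ?_, ?_⟩
    · rw [hrσ, hχσ]
      exact pow_quadratic ha c
    · obtain ⟨β, hβ⟩ := exists_root_integralClosure (lucasV a (ℓ : integralClosure ℤ ℂ) c)
        ((ℓ : integralClosure ℤ ℂ) ^ c)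
      refine ⟨φ β, ?_⟩
      have := congrArg φ hβ
      rw [map_add, map_sub, map_mul, map_pow, map_pow, map_lucasV, map_natCast, map_zero] at this
      rw [hχσ]
      exact this
  choose t ht hsplit using key
  have hrel : Rel r χ t := ht
  obtain ⟨ρM, hρ1, hρ2⟩ := hrel.exists_rep_of_split hsplit
  refine ⟨residualOfMatrix ρM ⟨L, hLfin, fun σ hσ => hρ1 σ (hrL σ hσ) (hχL σ hσ)⟩, ?_, ?_⟩
  · intro ℓ hℓ hℓN hℓk A hA σ hσ
    have hℓp : ℓ ≠ p := by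
      rintro rfl
      exact hℓk (CharP.cast_eq_zero k ℓ)
    have hℓNp : ¬ ℓ ∣ N * p := by
      intro hd
      rcases (Nat.Prime.dvd_mul hℓ).mp hd with h | h
      · exact hℓN h
      · exact hℓp ((Nat.prime_dvd_prime_iff_eq hℓ hp).mp h)
    obtain ⟨a, ha1, ha2⟩ := hES ℓ hℓ hℓNp A hA σ hσ
    refine ⟨a, ha1, ?_⟩
    have hχσ := hχfrob ℓ hℓ hℓp A hA σ hσ
    rw [← hχσ] at ha2
    rw [residualOfMatrix_charpoly, hρ2, hrel.t_unique ha2, hχσ]
  · intro ℓ hℓ hℓNp A hA σ hσ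
    rw [residualOfMatrix_ρ, hρ1 σ (hunr ℓ hℓ hℓNp A hA σ hσ) (hχin ℓ hℓ (hne ℓ hℓNp) A hA σ hσ)]
    exact Matrix.toLin'_one

open scoped TensorProduct in
/-- **Abstract S29**, for a Galois module over a subfield `F₀` of `k`. -/
theorem exists_residualGaloisRep_of_module' (hp : p.Prime)
    (φ : integralClosure ℤ ℂ →+* k) (hCheb : GenCheb)
    {F₀ : Type*} [Field F₀] [Algebra F₀ k]
    {W₀ : Type*} [AddCommGroup W₀] [Module F₀ W₀] [FiniteDimensional F₀ W₀] [Nontrivial W₀]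
    (r₀ : GQ →* Module.End F₀ W₀)
    (hfin : ∃ L : IntermediateField ℚ Qbar, FiniteDimensional ℚ L ∧
      ∀ σ : GQ, (∀ x ∈ L, σ x = x) → r₀ σ = 1)
    (hunr : ∀ ℓ : ℕ, ℓ.Prime → ¬ ℓ ∣ N * p → ∀ A : ValuationSubring Qbar, A.LiesOverPrime ℓ →
      ∀ σ ∈ A.inertiaSubgroupIn ℚ, r₀ σ = 1)
    (hES : ∀ ℓ : ℕ, ℓ.Prime → ¬ ℓ ∣ N * p → ∀ A : ValuationSubring Qbar, A.LiesOverPrime ℓ →
      ∀ σ : GQ, A.IsFrobeniusAt σ ℓ → ∃ (a : integralClosure ℤ ℂ) (a₀ : F₀),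
        (a : ℂ) = ModularFormClass.qCoeff g ℓ ∧ algebraMap F₀ k a₀ = φ a ∧
          r₀ σ * r₀ σ - a₀ • r₀ σ + (ℓ : F₀) • (1 : Module.End F₀ W₀) = 0) :
    ∃ ρ : ResidualGaloisRep k, ρ.IsAttachedTo g φ ∧
      ∀ ℓ : ℕ, ℓ.Prime → ¬ ℓ ∣ N * p → ρ.IsUnramifiedAt ℓ := by
  let B : Module.End F₀ W₀ →ₐ[F₀] Module.End k (k ⊗[F₀] W₀) := Module.End.baseChangeHom F₀ k W₀
  let r : GQ →* Module.End k (k ⊗[F₀] W₀) := (B : Module.End F₀ W₀ →* _).comp r₀
  have hr : ∀ σ, r σ = B (r₀ σ) := fun _ => rfl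
  have hnt : Nontrivial (k ⊗[F₀] W₀) := by
    apply Module.nontrivial_of_finrank_pos (R := k)
    rw [Module.finrank_baseChange]
    exact Module.finrank_pos
  refine exists_residualGaloisRep_of_module hp φ hCheb r ?_ ?_ ?_
  · obtain ⟨L, hL, h1⟩ := hfin
    exact ⟨L, hL, fun σ hσ => by rw [hr, h1 σ hσ, map_one]⟩
  · intro ℓ hℓ hℓNp A hA σ hσ
    rw [hr, hunr ℓ hℓ hℓNp A hA σ hσ, map_one]
  · intro ℓ hℓ hℓNp A hA σ hσ
    obtain ⟨a, a₀, h1, h2, h3⟩ := hES ℓ hℓ hℓNp A hA σ hσ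
    refine ⟨a, h1, ?_⟩
    have h4 := congrArg B h3
    rw [map_add, map_sub, map_mul, map_smul, map_smul, map_one, map_zero] at h4
    rw [hr, ← h2, algebraMap_smul, ← map_natCast (algebraMap F₀ k), algebraMap_smul]
    exact h4

end Main

/-- S29 is trivial at level `0`. -/
theorem exists_residualGaloisRep_level_zero {g : CuspForm (CongruenceSubgroup.Gamma0 0) 2}
    {p : ℕ} {k : Type} [Field k] (φ : integralClosure ℤ ℂ →+* k) :
    ∃ ρ : ResidualGaloisRep k, ρ.IsAttachedTo g φ ∧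
      ∀ ℓ : ℕ, ℓ.Prime → ¬ ℓ ∣ 0 * p → ρ.IsUnramifiedAt ℓ := by
  refine ⟨residualOfMatrix 1 ⟨⊥, inferInstance, fun _ _ => rfl⟩, ?_, ?_⟩
  · intro ℓ _ h
    exact absurd (dvd_zero ℓ) h
  · intro ℓ _ h
    rw [zero_mul] at h
    exact absurd (dvd_zero ℓ) h

end Fermat.Agent.GAL
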