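import Fermat.Agent.GAL.Assemble
import Fermat.Prelude.Def_HeckeGalois_EichlerShimura

/-!
# Abstract assembly of S29, level 2: from a Hecke-Galois module (project GAL)
-/

set_option autoImplicit false
open Polynomial ModularCurve
open Fermat.Agent.GAL.QuadRep

namespace Fermat.Agent.GAL

local notation "Qbar" => AlgebraicClosure ℚ
local notation "GQ" => (AlgebraicClosure ℚ ≃ₐ[ℚ] AlgebraicClosure ℚ)

/-- The eigen-ideal of a system of eigenvalues which are reductions of algebraic integers is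
maximal. -/
theorem eigenIdeal_isMaximal {p : ℕ} (hp : p.Prime) {k : Type*} [Field k] [CharP k p]
    (b : Nat.Primes → k) (hb : ∀ ℓ, IsIntegral ℤ (b ℓ)) : (eigenIdeal b).IsMaximal := by
  set f : HeckeAlg →ₐ[ℤ] k := MvPolynomial.aeval b with hf
  have hrange : f.range = Algebra.adjoin ℤ (Set.range b) :=
    (Algebra.adjoin_range_eq_range_aeval ℤ b).symm
  have hint : Algebra.IsIntegral ℤ f.range := by
    rw [hrange]
    exact Algebra.IsIntegral.adjoin (by rintro _ ⟨ℓ, rfl⟩; exact hb ℓ)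
  have hbot : (⊥ : Ideal f.range).IsMaximal := by
    have hprime : (⊥ : Ideal f.range).IsPrime := Ideal.isPrime_bot
    refine Bridge.isMaximal_of_natCast_mem hp ⊥ ?_
    rw [Ideal.mem_bot]
    apply Subtype.ext
    simp
  have hsurj : Function.Surjective f.rangeRestrict := f.rangeRestrict_surjective
  have h1 := Ideal.comap_isMaximal_of_surjective (f.rangeRestrict : HeckeAlg →+* f.range) hsurj
    (K := ⊥)
  have h2 : eigenIdeal b = Ideal.comap (f.rangeRestrict : HeckeAlg →+* f.range) ⊥ := by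
    ext t
    rw [mem_eigenIdeal_iff, Ideal.mem_comap, Ideal.mem_bot]
    constructor
    · intro h; exact Subtype.ext h
    · intro h; exact congrArg Subtype.val h
  rw [h2]
  exact h1

/-- An element with open stabiliser has a finite orbit. -/
theorem finite_orbit_of_finiteLevel {X : Type*} [MulAction GQ X] (x : X)
    (hstab : ∃ L : IntermediateField ℚ Qbar, FiniteDimensional ℚ L ∧
      ∀ σ : GQ, (∀ y ∈ L, σ y = y) → σ • x = x) :
    (Set.range fun σ : GQ => σ • x).Finite := by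
  obtain ⟨L, hL, h⟩ := hstab
  let f : GQ → (L →ₐ[ℚ] Qbar) := fun σ => (σ : Qbar →ₐ[ℚ] Qbar).comp L.val
  have hfac : Function.FactorsThrough (fun σ : GQ => σ • x) f := by
    intro σ τ hστ
    have h1 : (τ⁻¹ * σ) • x = x := by
      apply h
      intro y hy
      have h2 := DFunLike.congr_fun hστ ⟨y, hy⟩
      have h3 : σ y = τ y := h2
      rw [AlgEquiv.mul_apply, h3]
      exact τ.symm_apply_apply y
    change σ • x = τ • x
    rw [mul_smul, inv_smul_eq_iff] at h1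
    exact h1
  have hsub : (Set.range fun σ : GQ => σ • x) ⊆
      Set.range (Function.extend f (fun σ : GQ => σ • x) fun _ => x) := by
    rintro _ ⟨σ, rfl⟩
    exact ⟨f σ, hfac.extend_apply _ σ⟩
  exact (Set.finite_range _).subset hsub

/-- The whole orbit of an element with open stabiliser is fixed by an open subgroup. -/
theorem exists_finiteLevel_orbit {X : Type*} [MulAction GQ X] (x : X)
    (hstab : ∃ L : IntermediateField ℚ Qbar, FiniteDimensional ℚ L ∧
      ∀ σ : GQ, (∀ y ∈ L, σ y = y) → σ • x = x) :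
    ∃ L : IntermediateField ℚ Qbar, FiniteDimensional ℚ L ∧
      ∀ σ : GQ, (∀ y ∈ L, σ y = y) → ∀ τ : GQ, σ • τ • x = τ • x := by
  obtain ⟨L, hL, h⟩ := hstab
  refine ⟨IntermediateField.normalClosure ℚ L Qbar, inferInstance, fun σ hσ τ => ?_⟩
  have h1 : (τ⁻¹ * σ * τ) • x = x := by
    apply h
    intro y hy
    have hmem : τ y ∈ IntermediateField.normalClosure ℚ L Qbar := by
      have h2 : ((τ : Qbar →ₐ[ℚ] Qbar).comp L.val).fieldRange ≤
          IntermediateField.normalClosure ℚ L Qbar :=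
        le_iSup (fun f : L →ₐ[ℚ] Qbar => f.fieldRange) _
      exact h2 ⟨⟨y, hy⟩, rfl⟩
    rw [AlgEquiv.mul_apply, AlgEquiv.mul_apply, hσ _ hmem]
    exact τ.symm_apply_apply y
  rw [mul_smul, mul_smul, inv_smul_eq_iff] at h1
  exact h1

section Main

variable {N : ℕ} [NeZero N] {g : CuspForm (CongruenceSubgroup.Gamma0 N) 2}
  {p : ℕ} {k : Type} [Field k] [CharP k p]

/-- **Abstract S29, level 2.** -/
theorem exists_residualGaloisRep_of_heckeModule (hp : p.Prime)
    (φ : integralClosure ℤ ℂ →+* k) (hCheb : GenCheb)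
    {J : Type*} [AddCommGroup J] [Module HeckeAlg J] [DistribMulAction GQ J]
    [SMulCommClass GQ HeckeAlg J]
    (hunr : UnramifiedOutside (K := ℚ) (L := Qbar) N p J)
    (hfrob : FrobeniusQuadratic (K := ℚ) (L := Qbar) N p J)
    (a : Nat.Primes → integralClosure ℤ ℂ)
    (ha : ∀ ℓ : Nat.Primes, ¬ (ℓ : ℕ) ∣ N * p → (a ℓ : ℂ) = ModularFormClass.qCoeff g ℓ)
    (x : J) (hx : x ≠ 0) (hxm : x ∈ heckeTorsion J (eigenIdeal fun ℓ => φ (a ℓ)))
    (hstab : ∃ L : IntermediateField ℚ Qbar, FiniteDimensional ℚ L ∧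
      ∀ σ : GQ, (∀ y ∈ L, σ y = y) → σ • x = x) :
    ∃ ρ : ResidualGaloisRep k, ρ.IsAttachedTo g φ ∧
      ∀ ℓ : ℕ, ℓ.Prime → ¬ ℓ ∣ N * p → ρ.IsUnramifiedAt ℓ := by
  set b : Nat.Primes → k := fun ℓ => φ (a ℓ) with hb
  set 𝔪 : Ideal HeckeAlg := eigenIdeal b with h𝔪
  have hmax : 𝔪.IsMaximal := eigenIdeal_isMaximal hp b fun ℓ =>
    map_isIntegral_int φ (integralClosure.isIntegral (a ℓ))
  let _ : Field (HeckeAlg ⧸ 𝔪) := Ideal.Quotient.field 𝔪
  let ι : (HeckeAlg ⧸ 𝔪) →+* k :=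
    Ideal.Quotient.lift 𝔪 (MvPolynomial.aeval b : HeckeAlg →ₐ[ℤ] k).toRingHom
      (fun t ht => (mem_eigenIdeal_iff b t).mp ht)
  let _ : Algebra (HeckeAlg ⧸ 𝔪) k := ι.toAlgebra
  have hι : ∀ t : HeckeAlg, algebraMap (HeckeAlg ⧸ 𝔪) k (Ideal.Quotient.mk 𝔪 t) =
      MvPolynomial.aeval b t := fun t => rfl
  have hp𝔪 : (p : HeckeAlg) ∈ 𝔪 := by
    rw [h𝔪, mem_eigenIdeal_iff, map_natCast]
    exact CharP.cast_eq_zero k p
  -- every element of `J[𝔪]` is killed by `p`
  have hptors : ∀ w : heckeTorsion J 𝔪, ∃ n : ℕ, p ^ n • (w : J) = 0 := by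
    intro w
    refine ⟨1, ?_⟩
    rw [pow_one, ← Nat.cast_smul_eq_nsmul HeckeAlg]
    exact (mem_heckeTorsion_iff J 𝔪 w).mp w.2 _ hp𝔪
  let r₁ : GQ →* Module.End (HeckeAlg ⧸ 𝔪) (heckeTorsion J 𝔪) := mTorsionGaloisRep J 𝔪
  let x₁ : heckeTorsion J 𝔪 := ⟨x, hxm⟩
  let W₀ : Submodule (HeckeAlg ⧸ 𝔪) (heckeTorsion J 𝔪) :=
    Submodule.span (HeckeAlg ⧸ 𝔪) (Set.range fun σ : GQ => r₁ σ x₁)
  have hr₁ : ∀ (σ : GQ) (w : heckeTorsion J 𝔪), ((r₁ σ w : heckeTorsion J 𝔪) : J) = σ • (w : J) :=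
    fun σ w => rfl
  -- finiteness
  have hfinrange : (Set.range fun σ : GQ => r₁ σ x₁).Finite := by
    have h1 := finite_orbit_of_finiteLevel x hstab
    refine Set.Finite.of_finite_image (f := fun w : heckeTorsion J 𝔪 => (w : J)) ?_
      Subtype.val_injective.injOn
    refine h1.subset ?_
    rintro _ ⟨_, ⟨σ, rfl⟩, rfl⟩
    exact ⟨σ, rfl⟩
  have hfd : FiniteDimensional (HeckeAlg ⧸ 𝔪) W₀ := FiniteDimensional.span_of_finite _ hfinrange
  have hx₁mem : x₁ ∈ W₀ := Submodule.subset_span ⟨1, by simp⟩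
  have hnt : Nontrivial W₀ := by
    refine ⟨⟨⟨x₁, hx₁mem⟩, 0, fun h => hx ?_⟩⟩
    exact congrArg (fun w : W₀ => ((w : heckeTorsion J 𝔪) : J)) h
  have hinv : ∀ σ, ∀ w ∈ W₀, r₁ σ w ∈ W₀ := by
    intro σ w hw
    induction hw using Submodule.span_induction with
    | mem w hw =>
      obtain ⟨τ, rfl⟩ := hw
      refine Submodule.subset_span ⟨σ * τ, ?_⟩
      simp [map_mul]
    | zero => simp
    | add u v _ _ hu hv => rw [map_add]; exact add_mem hu hv
    | smul c u _ hu => rw [map_smul]; exact Submodule.smul_mem _ _ hu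
  let r₀ : GQ →* Module.End (HeckeAlg ⧸ 𝔪) W₀ := restrictRep r₁ W₀ hinv
  have hr₀ : ∀ (σ : GQ) (w : W₀), (((r₀ σ w : W₀) : heckeTorsion J 𝔪) : J) =
      σ • ((w : heckeTorsion J 𝔪) : J) := fun σ w => rfl
  have hext : ∀ {u v : W₀}, (((u : heckeTorsion J 𝔪) : J) = ((v : heckeTorsion J 𝔪) : J)) →
      u = v := fun h => Subtype.ext (Subtype.ext h)
  refine exists_residualGaloisRep_of_module' hp φ hCheb r₀ ?_ ?_ ?_
  · -- finite level
    obtain ⟨L, hL, h⟩ := exists_finiteLevel_orbit x hstab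
    refine ⟨L, hL, fun σ hσ => ?_⟩
    have key : ∀ w ∈ W₀, r₁ σ w = w := by
      intro w hw
      induction hw using Submodule.span_induction with
      | mem w hw =>
        obtain ⟨τ, rfl⟩ := hw
        exact Subtype.ext (h σ hσ τ)
      | zero => simp
      | add u v _ _ hu hv => rw [map_add, hu, hv]
      | smul c u _ hu => rw [map_smul, hu]
    ext w
    exact congrArg Subtype.val (key w.1 w.2)
  · intro ℓ hℓ hℓNp A hA σ hσ
    ext w
    rw [hr₀]
    exact hunr ℓ hℓ hℓNp A hA σ hσ _ (hptors _)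
  · intro ℓ hℓ hℓNp A hA σ hσ
    refine ⟨a ⟨ℓ, hℓ⟩, Ideal.Quotient.mk 𝔪 (heckeGen ⟨ℓ, hℓ⟩), ha ⟨ℓ, hℓ⟩ hℓNp, ?_, ?_⟩
    · rw [hι]
      exact MvPolynomial.aeval_X b _
    · ext w
      have h1 := hfrob ℓ hℓ hℓNp A hA σ hσ _ (hptors (w : heckeTorsion J 𝔪))
      simp only [LinearMap.add_apply, LinearMap.sub_apply, Module.End.mul_apply,
        LinearMap.smul_apply, Module.End.one_apply, LinearMap.zero_apply, Submodule.coe_add,
        Submodule.coe_sub, Submodule.coe_smul, Submodule.coe_zero, hr₀,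
        Submodule.torsionBySet.mk_smul, Nat.cast_smul_eq_nsmul]
      exact h1

end Main

end Fermat.Agent.GAL
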