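import Mathlib

/-!
Descent toolkit, part (D4a): the valuation bound behind the finite-dimensionality of
Riemann-Roch type spaces.

`F / C(J)` finite, `v` a valuation of `F`, trivial on `C`, with `v J > 1` ("a pole of `J`").
If `z ≠ 0` is integral over `C[J]` and `z J⁻ᵐ` is integral over `C[J⁻¹]` then
`1 ≤ v z * v J ^ ((n - 1) m)`, `n = [F : C(J)]`.
-/

set_option autoImplicit false

namespace Fermat.Agent.GAL.Descent

open Polynomial IntermediateField

section Gauss

variable {R K L : Type*} [CommRing R] [Field K] [Field L] [Algebra K L]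

/-- the coefficients of the minimal polynomial of an integral element are integral -/
theorem isIntegralElem_coeff_minpoly (f : R →+* K) {z : L}
    (hz : ((algebraMap K L).comp f).IsIntegralElem z) (i : ℕ) :
    f.IsIntegralElem ((minpoly K z).coeff i) := by
  let _ : Algebra R K := f.toAlgebra
  obtain ⟨P, hP, hPz⟩ := hz
  have hd : minpoly K z ∣ P.map (algebraMap R K) := by
    apply minpoly.dvd
    rw [aeval_def, eval₂_map]
    exact hPz
  have hzK : IsIntegral K z := ⟨P.map f, hP.map f, by rw [eval₂_map]; exact hPz⟩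
  have h := integralClosure.mem_lifts_of_monic_of_dvd_map K hP (minpoly.monic hzK) hd
  rw [lifts_iff_coeff_lifts] at h
  obtain ⟨x, hx⟩ := h i
  rw [← hx]
  exact x.2

theorem minpoly_algebraMap_mul {z : L} {u : K} (hu : u ≠ 0) :
    minpoly K (algebraMap K L u * z) = scaleRoots (minpoly K z) u := by
  by_cases hz : IsIntegral K z
  · symm
    apply minpoly.unique
    · exact (monic_scaleRoots_iff u).2 (minpoly.monic hz)
    · exact scaleRoots_aeval_eq_zero (minpoly.aeval K z)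
    · intro q hq hq0
      have h1 : aeval z (scaleRoots q u⁻¹) = 0 := by
        have := scaleRoots_aeval_eq_zero (r := u⁻¹) hq0
        rwa [← mul_assoc, ← map_mul, inv_mul_cancel₀ hu, map_one, one_mul] at this
      calc degree (scaleRoots (minpoly K z) u) = degree (minpoly K z) := degree_scaleRoots _
        _ ≤ degree (scaleRoots q u⁻¹) := minpoly.min K z ((monic_scaleRoots_iff _).2 hq) h1
        _ = degree q := degree_scaleRoots _
  · have hz' : ¬ IsIntegral K (algebraMap K L u * z) := by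
      intro h
      apply hz
      have := (isIntegral_algebraMap (x := u⁻¹) (A := L)).mul h
      rwa [← mul_assoc, ← map_mul, inv_mul_cancel₀ hu, map_one, one_mul] at this
    rw [minpoly.eq_zero hz, minpoly.eq_zero hz', zero_scaleRoots]

end Gauss

section Val

variable {R L Γ₀ : Type*} [CommRing R] [Field L] [LinearOrderedCommGroupWithZero Γ₀]

theorem valuation_le_one_of_isIntegralElem (v : Valuation L Γ₀) (f : R →+* L)
    (hf : ∀ r, v (f r) ≤ 1) {x : L} (hx : f.IsIntegralElem x) : v x ≤ 1 := by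
  obtain ⟨p, hp, hp0⟩ := hx
  let φ : R →+* v.integer := f.codRestrict v.integer hf
  have h1 : IsIntegral v.integer x := by
    refine ⟨p.map φ, hp.map φ, ?_⟩
    rw [eval₂_map]
    exact hp0
  exact (Valuation.integer.integers v).mem_of_integral h1

theorem valuation_eval₂_le_one (v : Valuation L Γ₀) (f : R →+* L) (P : R[X])
    (hf : ∀ i, v (f (P.coeff i)) ≤ 1) {x : L} (hx : v x ≤ 1) : v (eval₂ f x P) ≤ 1 := by
  rw [eval₂_eq_sum_range]
  refine Valuation.map_sum_le _ fun i _ => ?_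
  rw [map_mul, map_pow]
  exact mul_le_one' (hf i) (pow_le_one' hx i)

end Val

section Main

variable {C F Γ₀ : Type*} [Field C] [Field F] [Algebra C F] [LinearOrderedCommGroupWithZero Γ₀]

theorem valuation_algebraMap_eq_one (v : Valuation F Γ₀) (hvC : ∀ c : C, v (algebraMap C F c) ≤ 1)
    {c : C} (hc : c ≠ 0) : v (algebraMap C F c) = 1 := by
  refine le_antisymm (hvC c) ?_
  have h1 := hvC c⁻¹
  rw [map_inv₀, map_inv₀] at h1
  have h0 : v (algebraMap C F c) ≠ 0 := by
    rw [Valuation.ne_zero_iff]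
    exact (_root_.map_ne_zero _).2 hc
  exact (inv_le_one₀ (zero_lt_iff.2 h0)).1 h1

/-- a nonzero polynomial in `J` has a pole where `J` has one -/
theorem valuation_aeval_eq (v : Valuation F Γ₀) (hvC : ∀ c : C, v (algebraMap C F c) ≤ 1)
    {J : F} (hJ : 1 < v J) {P : C[X]} (hP : P ≠ 0) : v (aeval J P) = v J ^ P.natDegree := by
  rw [aeval_eq_sum_range, Finset.sum_range_succ]
  have hlead : v (P.coeff P.natDegree • J ^ P.natDegree) = v J ^ P.natDegree := by
    rw [Algebra.smul_def, map_mul, map_pow,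
      valuation_algebraMap_eq_one v hvC
        (show P.coeff P.natDegree ≠ 0 from leadingCoeff_ne_zero.2 hP), one_mul]
  have hJ0 : v J ^ P.natDegree ≠ 0 := pow_ne_zero _ (ne_of_gt (lt_trans zero_lt_one hJ))
  have hlt : v (∑ i ∈ Finset.range P.natDegree, P.coeff i • J ^ i) < v J ^ P.natDegree := by
    refine Valuation.map_sum_lt _ hJ0 fun i hi => ?_
    rw [Algebra.smul_def, map_mul, map_pow]
    calc v (algebraMap C F (P.coeff i)) * v J ^ i ≤ 1 * v J ^ i :=
          mul_le_mul_left (hvC _) _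
      _ = v J ^ i := one_mul _
      _ < v J ^ P.natDegree := pow_lt_pow_right₀ hJ (Finset.mem_range.1 hi)
  rw [← hlead] at hlt
  rw [Valuation.map_add_eq_of_lt_right _ hlt, hlead]

theorem transcendental_of_valuation (v : Valuation F Γ₀)
    (hvC : ∀ c : C, v (algebraMap C F c) ≤ 1) {J : F} (hJ : 1 < v J) : Transcendental C J := by
  rw [transcendental_iff]
  intro P hP
  by_contra h0
  have := valuation_aeval_eq v hvC hJ h0
  rw [hP, map_zero] at this
  exact pow_ne_zero _ (ne_of_gt (lt_trans zero_lt_one hJ)) this.symm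

/-- `C[J]` is integrally closed in `C(J)` -/
theorem mem_range_aeval_of_isIntegralElem {J : F} (hJ : Transcendental C J) (x : C⟮J⟯)
    (hx : (aeval (AdjoinSimple.gen C J) : C[X] →ₐ[C] C⟮J⟯).toRingHom.IsIntegralElem x) :
    ∃ P : C[X], aeval (AdjoinSimple.gen C J) P = x := by
  obtain ⟨p, hp, hp0⟩ := hx
  let e := RatFunc.algEquivOfTranscendental J hJ
  have h1 : IsIntegral C[X] (e.symm x) := by
    refine ⟨p, hp, ?_⟩
    have h2 := congrArg e.symm hp0
    rw [map_zero] at h2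
    have h3 := hom_eval₂ p (aeval (AdjoinSimple.gen C J) : C[X] →ₐ[C] C⟮J⟯).toRingHom
      (e.symm : C⟮J⟯ →+* RatFunc C) x
    have h4 : ((e.symm : C⟮J⟯ →+* RatFunc C)).comp
        (aeval (AdjoinSimple.gen C J) : C[X] →ₐ[C] C⟮J⟯).toRingHom
        = algebraMap C[X] (RatFunc C) := by
      refine RingHom.ext fun g => ?_
      exact RatFunc.algEquivOfTranscendental_symm_aeval J hJ _
    rw [h4] at h3
    exact h3.symm.trans h2
  obtain ⟨P, hP⟩ := IsIntegrallyClosed.isIntegral_iff.1 h1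
  refine ⟨P, ?_⟩
  have := congrArg e hP
  rw [AlgEquiv.apply_symm_apply] at this
  rw [← this]
  exact (RatFunc.algEquivOfTranscendental_algebraMap J hJ P).symm

theorem RingHom.IsIntegralElem.map_comp' {R K L : Type*} [CommRing R] [CommRing K] [CommRing L]
    (f : R →+* K) (g : K →+* L) {x : K} (hx : f.IsIntegralElem x) :
    (g.comp f).IsIntegralElem (g x) := by
  obtain ⟨p, hp, hp0⟩ := hx
  refine ⟨p, hp, ?_⟩
  rw [← hom_eval₂, hp0, map_zero]

/-- **the valuation bound** -/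
theorem one_le_valuation_mul_pow (v : Valuation F Γ₀) (hvC : ∀ c : C, v (algebraMap C F c) ≤ 1)
    {J : F} (hJ : 1 < v J) [FiniteDimensional C⟮J⟯ F] (m : ℕ) {z : F} (hz0 : z ≠ 0)
    (h1 : (aeval J : C[X] →ₐ[C] F).toRingHom.IsIntegralElem z)
    (h2 : (aeval J⁻¹ : C[X] →ₐ[C] F).toRingHom.IsIntegralElem (J⁻¹ ^ m * z)) :
    1 ≤ v z * v J ^ ((Module.finrank C⟮J⟯ F - 1) * m) := by
  have hg : algebraMap C⟮J⟯ F (AdjoinSimple.gen C J) = J := AdjoinSimple.algebraMap_gen C J
  have hJt := transcendental_of_valuation v hvC hJ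
  have hJ0 : J ≠ 0 := by
    rintro rfl
    rw [map_zero] at hJ
    exact absurd hJ (not_lt.2 zero_le_one)
  have hg0 : AdjoinSimple.gen C J ≠ 0 := by
    intro h
    rw [h, map_zero] at hg
    exact hJ0 hg.symm
  have hzK : IsIntegral C⟮J⟯ z := IsIntegral.of_finite _ z
  have hd1 : 1 ≤ (minpoly C⟮J⟯ z).natDegree := minpoly.natDegree_pos hzK
  have hdn : (minpoly C⟮J⟯ z).natDegree ≤ Module.finrank C⟮J⟯ F := minpoly.natDegree_le z
  have hc0 : (minpoly C⟮J⟯ z).coeff 0 ≠ 0 := minpoly.coeff_zero_ne_zero hzK hz0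
  have hcomp1 : (algebraMap C⟮J⟯ F).comp
      (aeval (AdjoinSimple.gen C J) : C[X] →ₐ[C] C⟮J⟯).toRingHom
      = (aeval J : C[X] →ₐ[C] F).toRingHom := by
    refine RingHom.ext fun P => ?_
    show algebraMap C⟮J⟯ F (aeval (AdjoinSimple.gen C J) P) = aeval J P
    rw [← aeval_algebraMap_apply, hg]
  have hcomp2 : (algebraMap C⟮J⟯ F).comp
      (aeval (AdjoinSimple.gen C J)⁻¹ : C[X] →ₐ[C] C⟮J⟯).toRingHom
      = (aeval J⁻¹ : C[X] →ₐ[C] F).toRingHom := by
    refine RingHom.ext fun P => ?_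
    show algebraMap C⟮J⟯ F (aeval (AdjoinSimple.gen C J)⁻¹ P) = aeval J⁻¹ P
    rw [← aeval_algebraMap_apply, map_inv₀, hg]
  obtain ⟨P0, hP0⟩ := mem_range_aeval_of_isIntegralElem hJt ((minpoly C⟮J⟯ z).coeff 0)
    (isIntegralElem_coeff_minpoly _ (by rw [hcomp1]; exact h1) 0)
  have hP0ne : P0 ≠ 0 := by
    rintro rfl
    rw [map_zero] at hP0
    exact hc0 hP0.symm
  have hvc0 : 1 ≤ v (algebraMap C⟮J⟯ F ((minpoly C⟮J⟯ z).coeff 0)) := by
    rw [← hP0, ← aeval_algebraMap_apply, hg, valuation_aeval_eq v hvC hJ hP0ne]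
    exact one_le_pow₀ hJ.le
  have hu : (AdjoinSimple.gen C J)⁻¹ ^ m ≠ 0 := pow_ne_zero _ (inv_ne_zero hg0)
  have hz' : algebraMap C⟮J⟯ F ((AdjoinSimple.gen C J)⁻¹ ^ m) * z = J⁻¹ ^ m * z := by
    rw [map_pow, map_inv₀, hg]
  have hG'eq := minpoly_algebraMap_mul (L := F) (z := z) hu
  rw [hz'] at hG'eq
  have hfle : ∀ r, v ((aeval J⁻¹ : C[X] →ₐ[C] F).toRingHom r) ≤ 1 := by
    intro r
    show v (aeval J⁻¹ r) ≤ 1
    rw [aeval_def]
    exact valuation_eval₂_le_one v _ r (fun i => hvC _)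
      (by rw [map_inv₀]; exact inv_le_one_of_one_le₀ hJ.le)
  have hvz' : v (J⁻¹ ^ m * z) ≤ 1 := valuation_le_one_of_isIntegralElem v _ hfle h2
  have hcoef : ∀ i, v (algebraMap C⟮J⟯ F ((minpoly C⟮J⟯ (J⁻¹ ^ m * z)).coeff i)) ≤ 1 := by
    intro i
    have h3 := isIntegralElem_coeff_minpoly
      (aeval (AdjoinSimple.gen C J)⁻¹ : C[X] →ₐ[C] C⟮J⟯).toRingHom (z := J⁻¹ ^ m * z)
      (by rw [hcomp2]; exact h2) i
    have h4 := RingHom.IsIntegralElem.map_comp' _ (algebraMap C⟮J⟯ F) h3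
    rw [hcomp2] at h4
    exact valuation_le_one_of_isIntegralElem v _ hfle h4
  have hrel : aeval (J⁻¹ ^ m * z) (minpoly C⟮J⟯ (J⁻¹ ^ m * z)) = 0 := minpoly.aeval _ _
  rw [← divX_mul_X_add (minpoly C⟮J⟯ (J⁻¹ ^ m * z)), map_add, map_mul, aeval_X, aeval_C] at hrel
  have hle : v (algebraMap C⟮J⟯ F ((minpoly C⟮J⟯ (J⁻¹ ^ m * z)).coeff 0)) ≤ v (J⁻¹ ^ m * z) := by
    rw [eq_neg_of_add_eq_zero_right hrel, Valuation.map_neg, map_mul (v)]
    refine (mul_le_mul_left ?_ _).trans (one_mul _).le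
    rw [aeval_def]
    exact valuation_eval₂_le_one v _ _ (fun i => by rw [coeff_divX]; exact hcoef _) hvz'
  have hvu : v (algebraMap C⟮J⟯ F ((AdjoinSimple.gen C J)⁻¹ ^ m)) = (v J)⁻¹ ^ m := by
    rw [map_pow, map_inv₀, hg, map_pow, map_inv₀]
  have hvu' : v (J⁻¹ ^ m) = (v J)⁻¹ ^ m := by
    rw [map_pow, map_inv₀]
  rw [hG'eq, coeff_scaleRoots, Nat.sub_zero, map_mul, map_mul, map_mul (v), map_pow, map_pow,
    hvu, hvu'] at hle
  -- now a computation in the value group
  set a := v J with ha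
  set d := (minpoly C⟮J⟯ z).natDegree with hd
  have ha0 : a ≠ 0 := ne_of_gt (lt_trans zero_lt_one hJ)
  have hb : a⁻¹ ^ m * a ^ m = 1 := by
    rw [← mul_pow, inv_mul_cancel₀ ha0, one_pow]
  have h5 : (a⁻¹ ^ m) ^ d ≤ a⁻¹ ^ m * v z :=
    le_trans (by simpa using mul_le_mul_left hvc0 ((a⁻¹ ^ m) ^ d)) hle
  have h6 : (a⁻¹ ^ m) ^ d * (a ^ m) ^ d ≤ a⁻¹ ^ m * v z * (a ^ m) ^ d := mul_le_mul_left h5 _
  rw [← mul_pow, hb, one_pow] at h6
  obtain ⟨e, he⟩ : ∃ e, d = e + 1 := ⟨d - 1, by omega⟩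
  have h7 : a⁻¹ ^ m * v z * (a ^ m) ^ d = v z * a ^ (e * m) := by
    rw [he, pow_succ, mul_comm e m, pow_mul]
    calc a⁻¹ ^ m * v z * ((a ^ m) ^ e * a ^ m) = (a⁻¹ ^ m * a ^ m) * (v z * (a ^ m) ^ e) := by ac_rfl
      _ = _ := by rw [hb, one_mul]
  rw [h7] at h6
  refine h6.trans (mul_le_mul_right ?_ _)
  exact pow_le_pow_right₀ hJ.le (Nat.mul_le_mul_right _ (by omega))

end Main

section Conv

variable {C A : Type*} [Field C] [CommRing A] [Algebra C A]

/-- `C[X] → C[t]` -/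
noncomputable def toAdjoin (t : A) : C[X] →+* Algebra.adjoin C {t} :=
  ((aeval t : C[X] →ₐ[C] A).codRestrict (Algebra.adjoin C {t}) (fun P => by
    rw [Algebra.adjoin_singleton_eq_range_aeval]; exact ⟨P, rfl⟩)).toRingHom

theorem coe_toAdjoin (t : A) (P : C[X]) : ((toAdjoin t P : Algebra.adjoin C {t}) : A) = aeval t P :=
  rfl

theorem toAdjoin_surjective (t : A) : Function.Surjective (toAdjoin (C := C) t) := by
  rintro ⟨a, ha⟩
  have ha' := ha
  rw [Algebra.adjoin_singleton_eq_range_aeval] at ha'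
  obtain ⟨P, hP⟩ := ha'
  exact ⟨P, Subtype.ext hP⟩

theorem algebraMap_comp_toAdjoin (t : A) :
    (algebraMap (Algebra.adjoin C {t}) A).comp (toAdjoin t)
      = (aeval t : C[X] →ₐ[C] A).toRingHom := rfl

theorem isIntegralElem_aeval_iff (t z : A) :
    (aeval t : C[X] →ₐ[C] A).toRingHom.IsIntegralElem z ↔ IsIntegral (Algebra.adjoin C {t}) z := by
  constructor
  · rintro ⟨P, hP, hP0⟩
    refine ⟨P.map (toAdjoin t), hP.map _, ?_⟩
    rw [eval₂_map, algebraMap_comp_toAdjoin]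
    exact hP0
  · rintro ⟨P, hP, hP0⟩
    have hl : P ∈ lifts (toAdjoin (C := C) t) := by
      rw [lifts_iff_coeff_lifts]
      intro n
      exact toAdjoin_surjective t _
    obtain ⟨Q, hQ, -, hQm⟩ := lifts_and_natDegree_eq_and_monic hl hP
    refine ⟨Q, hQm, ?_⟩
    rw [← algebraMap_comp_toAdjoin, ← eval₂_map, hQ]
    exact hP0

open scoped IntermediateField.algebraAdjoinAdjoin in
/-- clearing denominators -/
theorem exists_aeval_mul_isIntegralElem {F : Type*} [Field F] [Algebra C F] (t x : F)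
    (hx : IsAlgebraic C⟮t⟯ x) :
    ∃ a : C[X], aeval t a ≠ 0 ∧
      (aeval t : C[X] →ₐ[C] F).toRingHom.IsIntegralElem (aeval t a * x) := by
  have h1 : IsAlgebraic (Algebra.adjoin C {t}) x :=
    (IsFractionRing.isAlgebraic_iff (Algebra.adjoin C {t}) C⟮t⟯ F).2 hx
  obtain ⟨a, ha, hint⟩ := h1.exists_integral_multiple
  obtain ⟨P, hP⟩ := toAdjoin_surjective t a
  refine ⟨P, ?_, ?_⟩
  · rw [← coe_toAdjoin, hP]
    exact fun h => ha (Subtype.ext h)
  · rw [isIntegralElem_aeval_iff, ← coe_toAdjoin, hP]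
    exact hint

theorem adjoin_simple_inv_eq {F : Type*} [Field F] [Algebra C F] (t : F) : C⟮t⁻¹⟯ = C⟮t⟯ := by
  apply le_antisymm
  · rw [adjoin_simple_le_iff]
    exact inv_mem (mem_adjoin_simple_self C t)
  · rw [adjoin_simple_le_iff]
    have := inv_mem (mem_adjoin_simple_self C t⁻¹)
    rwa [inv_inv] at this

theorem isIntegralElem_of_pow {R B : Type*} [CommRing R] [CommRing B] (f : R →+* B) {x : B} {n : ℕ}
    (hn : 0 < n) (hx : f.IsIntegralElem (x ^ n)) : f.IsIntegralElem x := by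
  let _ : Algebra R B := f.toAlgebra
  exact IsIntegral.of_pow (R := R) hn hx

theorem isIntegralElem_pow {R B : Type*} [CommRing R] [CommRing B] (f : R →+* B) {x : B} (n : ℕ)
    (hx : f.IsIntegralElem x) : f.IsIntegralElem (x ^ n) := by
  let _ : Algebra R B := f.toAlgebra
  exact IsIntegral.pow (R := R) hx n

/-- integrality descends along an injective map -/
theorem isIntegralElem_of_comp_injective {R K L : Type*} [CommRing R] [CommRing K] [CommRing L]
    (f : R →+* K) (g : K →+* L) (hg : Function.Injective g) {x : K}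
    (hx : (g.comp f).IsIntegralElem (g x)) : f.IsIntegralElem x := by
  obtain ⟨p, hp, hp0⟩ := hx
  refine ⟨p, hp, hg ?_⟩
  rw [hom_eval₂, hp0, map_zero]

end Conv

end Fermat.Agent.GAL.Descent
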