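import Mathlib
import Fermat.Prelude.Def_ModularCurve_LaurentCoeff

/-!
Descent toolkit, part (D2): the echelon lemma.  A finite dimensional nonzero space of vectors
which is stable under a family of ring endomorphisms of the coefficient field acting
coordinatewise contains a nonzero vector with all coordinates fixed.
-/

set_option autoImplicit false

namespace Fermat.Agent.GAL.Descent

open Module

variable {C : Type*} [Field C] {I : Type*}

/-- vectors of `V` whose support is contained in the support of `v` -/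
def suppSub (V : Submodule C (I → C)) (v : I → C) : Submodule C (I → C) where
  carrier := {u | u ∈ V ∧ ∀ i, v i = 0 → u i = 0}
  zero_mem' := ⟨V.zero_mem, fun _ _ => rfl⟩
  add_mem' := by
    rintro a b ⟨ha, ha'⟩ ⟨hb, hb'⟩
    exact ⟨V.add_mem ha hb, fun i hi => by simp [ha' i hi, hb' i hi]⟩
  smul_mem' := by
    rintro c a ⟨ha, ha'⟩
    exact ⟨V.smul_mem c ha, fun i hi => by simp [ha' i hi]⟩

theorem suppSub_le (V : Submodule C (I → C)) (v : I → C) : suppSub V v ≤ V := fun _ h => h.1

/-- **Echelon lemma** (function version). -/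
theorem exists_fixed_vector (V : Submodule C (I → C)) [FiniteDimensional C V] (hV : V ≠ ⊥)
    (S : Set (C →+* C)) (hstab : ∀ σ ∈ S, ∀ v ∈ V, (fun i => σ (v i)) ∈ V) :
    ∃ v ∈ V, v ≠ 0 ∧ ∀ σ ∈ S, ∀ i, σ (v i) = v i := by
  classical
  -- choose `v ≠ 0` in `V` with `finrank (suppSub V v)` minimal
  obtain ⟨v0, hv0V, hv0⟩ := (Submodule.ne_bot_iff V).mp hV
  let P : ℕ → Prop := fun n => ∃ v ∈ V, v ≠ 0 ∧ finrank C (suppSub V v) = n
  have hP : ∃ n, P n := ⟨_, v0, hv0V, hv0, rfl⟩
  obtain ⟨v, hvV, hv, hn⟩ := Nat.find_spec hP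
  have hmin : ∀ w ∈ V, w ≠ 0 → finrank C (suppSub V v) ≤ finrank C (suppSub V w) := by
    intro w hwV hw
    rw [hn]
    exact Nat.find_min' hP ⟨w, hwV, hw, rfl⟩
  obtain ⟨i0, hi0⟩ : ∃ i, v i ≠ 0 := by
    by_contra h
    push Not at h
    exact hv (funext h)
  -- normalise
  set u : I → C := (v i0)⁻¹ • v with hu
  have huV : u ∈ V := V.smul_mem _ hvV
  have hui0 : u i0 = 1 := by simp [hu, hi0]
  have hu0 : u ≠ 0 := fun h => by
    have := congrFun h i0
    rw [hui0] at this
    exact one_ne_zero this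
  have huz : ∀ i, u i = 0 ↔ v i = 0 := by
    intro i
    simp [hu, hi0]
  have hsame : suppSub V u = suppSub V v := by
    ext a
    constructor
    · rintro ⟨h1, h2⟩
      exact ⟨h1, fun i hi => h2 i ((huz i).mpr hi)⟩
    · rintro ⟨h1, h2⟩
      exact ⟨h1, fun i hi => h2 i ((huz i).mp hi)⟩
  refine ⟨u, huV, hu0, fun σ hσ => ?_⟩
  by_contra hcon
  push Not at hcon
  obtain ⟨i1, hi1⟩ := hcon
  set w : I → C := (fun i => σ (u i)) - u with hw
  have hwV : w ∈ V := V.sub_mem (hstab σ hσ u huV) huV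
  have hw0 : w ≠ 0 := fun h => by
    have := congrFun h i1
    simp only [hw, Pi.sub_apply, Pi.zero_apply] at this
    exact hi1 (sub_eq_zero.mp this)
  have hwi0 : w i0 = 0 := by simp [hw, hui0]
  have hwz : ∀ i, u i = 0 → w i = 0 := by
    intro i hi
    simp [hw, hi]
  have hle : suppSub V w ≤ suppSub V u := by
    rintro a ⟨h1, h2⟩
    exact ⟨h1, fun i hi => h2 i (hwz i hi)⟩
  have hlt : suppSub V w < suppSub V u := by
    refine lt_of_le_of_ne hle fun heq => ?_
    have hmem : u ∈ suppSub V w := by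
      rw [heq]
      exact ⟨huV, fun _ h => h⟩
    have := hmem.2 i0 hwi0
    rw [hui0] at this
    exact one_ne_zero this
  have : FiniteDimensional C (suppSub V u) :=
    Submodule.finiteDimensional_of_le (suppSub_le V u)
  have h1 := Submodule.finrank_lt_finrank_of_lt hlt
  have h2 := hmin w hwV hw0
  rw [hsame] at h1
  omega

open ModularCurve in
/-- **Echelon lemma** (Laurent series version). -/
theorem exists_fixed_series (V : Submodule C (LaurentSeries C)) [FiniteDimensional C V]
    (hV : V ≠ ⊥) (S : Set (C →+* C)) (hstab : ∀ σ ∈ S, ∀ v ∈ V, coeffMap σ v ∈ V) :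
    ∃ v ∈ V, v ≠ 0 ∧ ∀ σ ∈ S, coeffMap σ v = v := by
  classical
  let c : LaurentSeries C →ₗ[C] (ℤ → C) :=
    { toFun := fun x => x.coeff
      map_add' := fun x y => by ext; simp
      map_smul' := fun a x => by ext; simp }
  have hc : Function.Injective c := fun x y h => HahnSeries.ext h
  have hfd : FiniteDimensional C (V.map c) := inferInstance
  have hne : V.map c ≠ ⊥ := by
    intro h
    apply hV
    rw [Submodule.eq_bot_iff] at h ⊢
    intro x hx
    exact hc ((h _ ⟨x, hx, rfl⟩).trans (map_zero c).symm)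
  obtain ⟨v, hv, hv0, hfix⟩ := exists_fixed_vector (V.map c) hne S (by
    rintro σ hσ _ ⟨x, hx, rfl⟩
    refine ⟨coeffMap σ x, hstab σ hσ x hx, ?_⟩
    funext i
    exact coeffMap_coeff σ x i)
  obtain ⟨x, hx, rfl⟩ := hv
  refine ⟨x, hx, fun h => hv0 (by rw [h, map_zero]), fun σ hσ => ?_⟩
  apply HahnSeries.ext
  funext i
  rw [coeffMap_coeff]
  exact hfix σ hσ i

end Fermat.Agent.GAL.Descent
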