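import Mathlib

/-!
Descent toolkit, part (D1): an element of an algebraically closed field of characteristic zero
with a finite orbit under the field automorphisms is algebraic over `ℚ`.
-/

set_option autoImplicit false

namespace Fermat.Agent.GAL.Descent

open MvPolynomial

variable {K : Type*} [Field K] [CharZero K] [IsAlgClosed K]

/-- translation automorphism of a polynomial ring -/
noncomputable def shiftAlgEquiv {ι : Type*} (c : ι → ℚ) : MvPolynomial ι ℚ ≃ₐ[ℚ] MvPolynomial ι ℚ :=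
  AlgEquiv.ofAlgHom (aeval fun i => X i + C (c i)) (aeval fun i => X i - C (c i))
    (by ext i; simp) (by ext i; simp)

@[simp] theorem shiftAlgEquiv_X {ι : Type*} (c : ι → ℚ) (i : ι) :
    shiftAlgEquiv c (X i) = X i + C (c i) := by
  simp [shiftAlgEquiv]

/-- A transcendental element can be translated by a field automorphism. -/
theorem exists_algEquiv_add (x : K) (hx : Transcendental ℚ x) (r : ℚ) :
    ∃ σ : K ≃ₐ[ℚ] K, σ x = x + algebraMap ℚ K r := by
  classical
  have hind : AlgebraicIndepOn ℚ id ({x} : Set K) :=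
    (algebraicIndependent_singleton_iff (⟨x, rfl⟩ : ({x} : Set K))).2 hx
  obtain ⟨s, hxs, hs⟩ := exists_isTranscendenceBasis_superset hind
  have hxs' : x ∈ s := hxs rfl
  let v : s → K := Subtype.val
  have hi : AlgebraicIndependent ℚ v := by
    unfold IsTranscendenceBasis at hs
    exact hs.1
  let _ := IsAlgClosed.isAlgClosure_of_transcendence_basis v hs
  let c : s → ℚ := fun i => if (i : K) = x then r else 0
  let e : Algebra.adjoin ℚ (Set.range v) ≃+* Algebra.adjoin ℚ (Set.range v) :=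
    (hi.aevalEquiv.symm.trans ((shiftAlgEquiv c).trans hi.aevalEquiv)).toRingEquiv
  let σ : K ≃+* K := IsAlgClosure.equivOfEquiv K K e
  refine ⟨σ.toRatAlgEquiv, ?_⟩
  have hxA : x ∈ Algebra.adjoin ℚ (Set.range v) := Algebra.subset_adjoin ⟨⟨x, hxs'⟩, rfl⟩
  have h1 : hi.aevalEquiv (X ⟨x, hxs'⟩) = ⟨x, hxA⟩ := by
    apply Subtype.ext
    show algebraMap (Algebra.adjoin ℚ (Set.range v)) K (hi.aevalEquiv (X ⟨x, hxs'⟩)) = x
    rw [AlgebraicIndependent.algebraMap_aevalEquiv]
    simp [v]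
  have h2 : e ⟨x, hxA⟩ = ⟨x, hxA⟩ + algebraMap ℚ _ r := by
    show hi.aevalEquiv (shiftAlgEquiv c (hi.aevalEquiv.symm ⟨x, hxA⟩)) = _
    rw [← h1, AlgEquiv.symm_apply_apply, shiftAlgEquiv_X, map_add, h1]
    congr 1
    have : c ⟨x, hxs'⟩ = r := by simp [c]
    rw [this, ← MvPolynomial.algebraMap_eq, AlgEquiv.commutes]
  have h3 := IsAlgClosure.equivOfEquiv_algebraMap K K e ⟨x, hxA⟩
  rw [h2] at h3
  show σ x = _
  have h4 : algebraMap (Algebra.adjoin ℚ (Set.range v)) K ⟨x, hxA⟩ = x := rfl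
  rw [h4] at h3
  rw [h3, map_add, h4]
  congr 1

/-- **(D1)** finite orbit implies algebraic. -/
theorem isAlgebraic_of_finite_orbit (x : K)
    (h : (Set.range fun σ : K ≃ₐ[ℚ] K => σ x).Finite) : IsAlgebraic ℚ x := by
  by_contra hx
  have hx' : Transcendental ℚ x := hx
  choose σ hσ using fun n : ℕ => exists_algEquiv_add x hx' (n : ℚ)
  have hinj : Function.Injective fun n : ℕ => x + algebraMap ℚ K (n : ℚ) := by
    intro a b hab
    have := add_left_cancel hab
    have h2 := (algebraMap ℚ K).injective this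
    exact_mod_cast h2
  refine Set.infinite_of_injective_forall_mem hinj (fun n => ?_) h
  exact ⟨σ n, hσ n⟩

/-- fixed points of a finite index subgroup are algebraic -/
theorem isAlgebraic_of_fixed (H : Subgroup (K ≃ₐ[ℚ] K)) [H.FiniteIndex] (x : K)
    (hx : ∀ σ ∈ H, σ x = x) : IsAlgebraic ℚ x := by
  classical
  apply isAlgebraic_of_finite_orbit
  -- the orbit map factors through the finite quotient
  have hfin : Finite ((K ≃ₐ[ℚ] K) ⧸ H) := Subgroup.finite_quotient_of_finiteIndex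
  let f : (K ≃ₐ[ℚ] K) ⧸ H → K := fun q => (Quotient.out q : K ≃ₐ[ℚ] K) x
  refine (Set.finite_range f).subset ?_
  rintro _ ⟨σ, rfl⟩
  refine ⟨(σ : (K ≃ₐ[ℚ] K) ⧸ H), ?_⟩
  obtain ⟨h, hh⟩ := QuotientGroup.mk_out_eq_mul H σ
  show (Quotient.out (σ : (K ≃ₐ[ℚ] K) ⧸ H) : K ≃ₐ[ℚ] K) x = σ x
  rw [hh, AlgEquiv.mul_apply, hx _ h.2]

end Fermat.Agent.GAL.Descent
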