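import Mathlib
import Fermat.Prelude.Def_ModularCurve_LaurentCoeff
import Fermat.Agent.GAL.DescentBound

/-!
Descent toolkit, part (D4b): the finite dimensional space
`V_m = { z ∈ y F : z integral over C[J], z J⁻ᵐ integral over C[J⁻¹] } ⊆ C((q))`.
-/

set_option autoImplicit false

namespace Fermat.Agent.GAL.Descent

open Polynomial IntermediateField ModularCurve WithZero

variable {C : Type*} [Field C]

/-- integrality over `C[J]` -/
def IntAt (J z : LaurentSeries C) : Prop :=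
  (aeval J : C[X] →ₐ[C] LaurentSeries C).toRingHom.IsIntegralElem z

theorem IntAt.add {J z w : LaurentSeries C} (hz : IntAt J z) (hw : IntAt J w) : IntAt J (z + w) :=
  RingHom.IsIntegralElem.add _ hz hw

theorem IntAt.mul {J z w : LaurentSeries C} (hz : IntAt J z) (hw : IntAt J w) : IntAt J (z * w) :=
  RingHom.IsIntegralElem.mul _ hz hw

theorem IntAt.pow {J z : LaurentSeries C} (hz : IntAt J z) (n : ℕ) : IntAt J (z ^ n) :=
  isIntegralElem_pow _ n hz

theorem IntAt.of_pow {J z : LaurentSeries C} {n : ℕ} (hn : 0 < n) (hz : IntAt J (z ^ n)) :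
    IntAt J z :=
  isIntegralElem_of_pow _ hn hz

theorem intAt_aeval (J : LaurentSeries C) (P : C[X]) : IntAt J (aeval J P) :=
  RingHom.isIntegralElem_map _

theorem intAt_zero (J : LaurentSeries C) : IntAt J 0 := by
  simpa using intAt_aeval J 0

theorem intAt_algebraMap (J : LaurentSeries C) (c : C) :
    IntAt J (algebraMap C (LaurentSeries C) c) := by
  simpa using intAt_aeval J (Polynomial.C c)

theorem smul_eq_algebraMap_mul (c : C) (z : LaurentSeries C) :
    c • z = algebraMap C (LaurentSeries C) c * z := by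
  rw [algebraMap_laurentSeries_eq_single, HahnSeries.single_zero_mul_eq_smul]

/-- semilinear maps fixing `J` preserve integrality -/
theorem IntAt.coeffMap {J z : LaurentSeries C} (σ : C →+* C) (hJ : coeffMap σ J = J)
    (hz : IntAt J z) : IntAt J (coeffMap σ z) := by
  obtain ⟨P, hP, hP0⟩ := hz
  refine ⟨P.map (mapRingHom σ), hP.map _, ?_⟩
  have hcomp : (aeval J : C[X] →ₐ[C] LaurentSeries C).toRingHom.comp (mapRingHom σ)
      = (ModularCurve.coeffMap σ).comp (aeval J : C[X] →ₐ[C] LaurentSeries C).toRingHom := by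
    apply Polynomial.ringHom_ext
    · intro c
      show aeval J (Polynomial.map σ (Polynomial.C c)) = ModularCurve.coeffMap σ (aeval J (Polynomial.C c))
      rw [Polynomial.map_C, aeval_C, aeval_C, coeffMap_algebraMap]
    · show aeval J (Polynomial.map σ Polynomial.X) = ModularCurve.coeffMap σ (aeval J Polynomial.X)
      rw [Polynomial.map_X, aeval_X, hJ]
  rw [eval₂_map, hcomp, ← hom_eval₂, hP0, map_zero]

/-- the Riemann-Roch type space -/
def Vsp (F : IntermediateField C (LaurentSeries C)) (J y : LaurentSeries C) (m : ℕ) :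
    Submodule C (LaurentSeries C) where
  carrier := {z | (∃ g ∈ F, z = g * y) ∧ IntAt J z ∧ IntAt J⁻¹ (J⁻¹ ^ m * z)}
  add_mem' := by
    rintro a b ⟨⟨g, hg, rfl⟩, h1, h2⟩ ⟨⟨g', hg', rfl⟩, h1', h2'⟩
    refine ⟨⟨g + g', add_mem hg hg', by ring⟩, h1.add h1', ?_⟩
    rw [mul_add]
    exact h2.add h2'
  zero_mem' := ⟨⟨0, zero_mem _, by simp⟩, intAt_zero _, by simpa using intAt_zero _⟩
  smul_mem' := by
    rintro c a ⟨⟨g, hg, rfl⟩, h1, h2⟩
    rw [smul_eq_algebraMap_mul]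
    refine ⟨⟨algebraMap C _ c * g, mul_mem (F.algebraMap_mem c) hg, by ring⟩,
      (intAt_algebraMap _ c).mul h1, ?_⟩
    rw [mul_left_comm]
    exact (intAt_algebraMap _ c).mul h2

theorem mem_Vsp {F : IntermediateField C (LaurentSeries C)} {J y : LaurentSeries C} {m : ℕ}
    {z : LaurentSeries C} :
    z ∈ Vsp F J y m ↔ (∃ g ∈ F, z = g * y) ∧ IntAt J z ∧ IntAt J⁻¹ (J⁻¹ ^ m * z) := Iff.rfl

/-- stability under semilinear automorphisms -/
theorem coeffMap_mem_Vsp {F : IntermediateField C (LaurentSeries C)} {J y : LaurentSeries C}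
    {m : ℕ} (σ : C →+* C) (hJ : coeffMap σ J = J) (hF : ∀ g ∈ F, coeffMap σ g ∈ F)
    (hy : ∃ g ∈ F, coeffMap σ y = g * y) {z : LaurentSeries C} (hz : z ∈ Vsp F J y m) :
    coeffMap σ z ∈ Vsp F J y m := by
  obtain ⟨⟨g, hg, rfl⟩, h1, h2⟩ := hz
  obtain ⟨g', hg', hy'⟩ := hy
  have hJ' : coeffMap σ J⁻¹ = J⁻¹ := by rw [map_inv₀, hJ]
  refine ⟨⟨coeffMap σ g * g', mul_mem (hF g hg) hg', by rw [map_mul, hy']; ring⟩,
    h1.coeffMap σ hJ, ?_⟩
  have := h2.coeffMap σ hJ'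
  rwa [map_mul, map_pow, hJ'] at this

section FD

variable (F : IntermediateField C (LaurentSeries C)) {J y : LaurentSeries C}

theorem algebraMap_comp_aeval (t : F) :
    (algebraMap F (LaurentSeries C)).comp (aeval t : C[X] →ₐ[C] F).toRingHom
      = (aeval (t : LaurentSeries C) : C[X] →ₐ[C] LaurentSeries C).toRingHom := by
  refine RingHom.ext fun P => ?_
  exact (aeval_algebraMap_apply (LaurentSeries C) t P).symm

theorem coe_aeval (t : F) (P : C[X]) :
    ((aeval t P : F) : LaurentSeries C) = aeval (t : LaurentSeries C) P :=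
  (aeval_algebraMap_apply (LaurentSeries C) t P).symm

theorem intAt_iff_isIntegralElem (t x : F) :
    IntAt (t : LaurentSeries C) (x : LaurentSeries C) ↔
      (aeval t : C[X] →ₐ[C] F).toRingHom.IsIntegralElem x := by
  constructor
  · intro h
    apply isIntegralElem_of_comp_injective _ (algebraMap F (LaurentSeries C))
      (algebraMap F (LaurentSeries C)).injective
    rw [algebraMap_comp_aeval]
    exact h
  · intro h
    have := RingHom.IsIntegralElem.map_comp' _ (algebraMap F (LaurentSeries C)) h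
    rw [algebraMap_comp_aeval] at this
    exact this

theorem exists_ne_zero_mem_Vsp (hJF : J ∈ F) (hJ0 : J ≠ 0)
    [FiniteDimensional C⟮(⟨J, hJF⟩ : F)⟯ F] {p : ℕ} (hp : 0 < p) (hy0 : y ≠ 0)
    (hyp : y ^ p ∈ F) : ∃ m, ∃ z ∈ Vsp F J y m, z ≠ 0 := by
  have halg : ∀ x : F, IsAlgebraic C⟮(⟨J, hJF⟩ : F)⟯ x := fun x =>
    (IsIntegral.of_finite _ x).isAlgebraic
  have halg' : ∀ x : F, IsAlgebraic C⟮(⟨J, hJF⟩ : F)⁻¹⟯ x := by
    rw [adjoin_simple_inv_eq]
    exact halg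
  obtain ⟨q, rfl⟩ : ∃ q, p = q + 1 := ⟨p - 1, by omega⟩
  obtain ⟨a, ha0, ha⟩ := exists_aeval_mul_isIntegralElem (⟨J, hJF⟩ : F) ⟨y ^ (q + 1), hyp⟩ (halg _)
  rw [← intAt_iff_isIntegralElem] at ha
  have ha' : IntAt J (aeval J a * y ^ (q + 1)) := by
    have h := ha
    rw [MulMemClass.coe_mul, coe_aeval] at h
    exact h
  have ha0' : aeval J a ≠ 0 := by
    intro h
    apply ha0
    apply Subtype.ext
    rw [coe_aeval]
    exact h
  have haF : aeval J a ∈ F := by
    have := (aeval (⟨J, hJF⟩ : F) a).2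
    rwa [coe_aeval] at this
  have hz0 : IntAt J (aeval J a * y) := by
    apply IntAt.of_pow hp
    have : (aeval J a * y) ^ (q + 1) = aeval J a ^ q * (aeval J a * y ^ (q + 1)) := by ring
    rw [this]
    exact ((intAt_aeval J a).pow q).mul ha'
  have hz0F : (aeval J a * y) ^ (q + 1) ∈ F := by
    rw [mul_pow]
    exact mul_mem (pow_mem haF _) hyp
  obtain ⟨b, hb0, hb⟩ := exists_aeval_mul_isIntegralElem (⟨J, hJF⟩ : F)⁻¹
    ⟨(aeval J a * y) ^ (q + 1), hz0F⟩ (halg' _)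
  rw [← intAt_iff_isIntegralElem] at hb
  have hcoe : (((⟨J, hJF⟩ : F)⁻¹ : F) : LaurentSeries C) = J⁻¹ := rfl
  have hb' : IntAt J⁻¹ (aeval J⁻¹ b * (aeval J a * y) ^ (q + 1)) := by
    have h := hb
    rw [MulMemClass.coe_mul, coe_aeval, hcoe] at h
    exact h
  have hb0' : aeval J⁻¹ b ≠ 0 := by
    intro h
    apply hb0
    apply Subtype.ext
    rw [coe_aeval]
    exact h
  have hb'' : IntAt J⁻¹ (aeval J⁻¹ b * (aeval J a * y)) := by
    apply IntAt.of_pow hp
    have : (aeval J⁻¹ b * (aeval J a * y)) ^ (q + 1)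
        = aeval J⁻¹ b ^ q * (aeval J⁻¹ b * (aeval J a * y) ^ (q + 1)) := by ring
    rw [this]
    exact ((intAt_aeval J⁻¹ b).pow q).mul hb'
  have hrev : aeval J (reverse b) * J⁻¹ ^ b.natDegree = aeval J⁻¹ b := by
    let _ : Invertible J⁻¹ := invertibleOfNonzero (inv_ne_zero hJ0)
    have := eval₂_reverse_mul_pow (algebraMap C (LaurentSeries C)) J⁻¹ b
    rw [invOf_eq_inv, inv_inv] at this
    exact this
  have hrevF : aeval J (reverse b) ∈ F := by
    have := (aeval (⟨J, hJF⟩ : F) (reverse b)).2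
    rwa [coe_aeval] at this
  refine ⟨b.natDegree, aeval J (reverse b) * (aeval J a * y),
    ⟨⟨aeval J (reverse b) * aeval J a, mul_mem hrevF haF, by ring⟩,
      (intAt_aeval _ _).mul hz0, ?_⟩, ?_⟩
  · rw [← mul_assoc, mul_comm (J⁻¹ ^ b.natDegree), hrev]
    exact hb''
  · refine mul_ne_zero ?_ (mul_ne_zero ha0' hy0)
    intro h
    rw [h, zero_mul] at hrev
    exact hb0' hrev.symm

theorem valuation_algebraMap_le_one (c : C) :
    (Valued.v (algebraMap C (LaurentSeries C) c) : ℤᵐ⁰) ≤ 1 := by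
  have := (LaurentSeries.valuation_le_iff_coeff_lt_eq_zero C (D := 0)
    (f := algebraMap C (LaurentSeries C) c)).2 (by
      intro n hn
      rw [algebraMap_laurentSeries_eq_single, HahnSeries.coeff_single_of_ne hn.ne])
  simpa using this

theorem one_le_valuation_mul_pow' (hJF : J ∈ F) (hJ : 1 < (Valued.v J : ℤᵐ⁰))
    [FiniteDimensional C⟮(⟨J, hJF⟩ : F)⟯ F] (M : ℕ) {w : LaurentSeries C} (hwF : w ∈ F)
    (hw0 : w ≠ 0) (h1 : IntAt J w) (h2 : IntAt J⁻¹ (J⁻¹ ^ M * w)) :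
    1 ≤ (Valued.v w : ℤᵐ⁰) * Valued.v J ^ ((Module.finrank C⟮(⟨J, hJF⟩ : F)⟯ F - 1) * M) := by
  let vF : Valuation F ℤᵐ⁰ := (Valued.v : Valuation (LaurentSeries C) ℤᵐ⁰).comap
    (algebraMap F (LaurentSeries C))
  have hvF : ∀ x : F, vF x = Valued.v (x : LaurentSeries C) := fun x => rfl
  have hvC : ∀ c : C, vF (algebraMap C F c) ≤ 1 := by
    intro c
    rw [hvF]
    exact valuation_algebraMap_le_one c
  have hJ' : 1 < vF ⟨J, hJF⟩ := by
    rw [hvF]
    exact hJ
  have h1' : (aeval (⟨J, hJF⟩ : F) : C[X] →ₐ[C] F).toRingHom.IsIntegralElem ⟨w, hwF⟩ :=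
    (intAt_iff_isIntegralElem F ⟨J, hJF⟩ ⟨w, hwF⟩).1 h1
  have h2' : (aeval (⟨J, hJF⟩ : F)⁻¹ : C[X] →ₐ[C] F).toRingHom.IsIntegralElem
      ((⟨J, hJF⟩ : F)⁻¹ ^ M * ⟨w, hwF⟩) := by
    rw [← intAt_iff_isIntegralElem]
    have hc : (((⟨J, hJF⟩ : F)⁻¹ ^ M * ⟨w, hwF⟩ : F) : LaurentSeries C) = J⁻¹ ^ M * w := by
      rw [MulMemClass.coe_mul, SubmonoidClass.coe_pow]
      rfl
    rw [hc]
    exact h2
  have hw0' : (⟨w, hwF⟩ : F) ≠ 0 := fun h => hw0 (congrArg Subtype.val h)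
  have := one_le_valuation_mul_pow vF hvC hJ' M hw0' h1' h2'
  rw [hvF, hvF] at this
  exact this

theorem finiteDimensional_Vsp (hJF : J ∈ F) (hJ : 1 < (Valued.v J : ℤᵐ⁰))
    [FiniteDimensional C⟮(⟨J, hJF⟩ : F)⟯ F] {p : ℕ} (hp : 0 < p) (hyp : y ^ p ∈ F) (m : ℕ) :
    FiniteDimensional C (Vsp F J y m) := by
  classical
  have hJv0 : (Valued.v J : ℤᵐ⁰) ≠ 0 := ne_of_gt (lt_trans zero_lt_one hJ)
  obtain ⟨e, he⟩ : ∃ e : ℤ, (Valued.v J : ℤᵐ⁰) = exp e := ⟨log (Valued.v J), (exp_log hJv0).symm⟩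
  obtain ⟨N, hN⟩ : ∃ N : ℕ, N = (Module.finrank C⟮(⟨J, hJF⟩ : F)⟯ F - 1) * m := ⟨_, rfl⟩
  let c : Vsp F J y m →ₗ[C] (Finset.Icc (-((m : ℤ) * e)) ((N : ℤ) * e) → C) :=
    { toFun := fun z i => (z : LaurentSeries C).coeff i
      map_add' := fun z w => by ext i; simp
      map_smul' := fun r z => by ext i; simp }
  refine FiniteDimensional.of_injective c ?_
  rw [injective_iff_map_eq_zero]
  intro z hz
  by_contra hz0
  have hz0' : (z : LaurentSeries C) ≠ 0 := fun h => hz0 (Subtype.ext h)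
  obtain ⟨⟨g, hg, hzg⟩, h1, h2⟩ := z.2
  have hfle : ∀ r, (Valued.v ((aeval J⁻¹ : C[X] →ₐ[C] LaurentSeries C).toRingHom r) : ℤᵐ⁰) ≤ 1 := by
    intro r
    show Valued.v (aeval J⁻¹ r) ≤ 1
    rw [aeval_def]
    exact valuation_eval₂_le_one _ _ r (fun i => valuation_algebraMap_le_one _)
      (by rw [map_inv₀]; exact inv_le_one_of_one_le₀ hJ.le)
  have hv1 : (Valued.v (J⁻¹ ^ m * (z : LaurentSeries C)) : ℤᵐ⁰) ≤ 1 :=
    valuation_le_one_of_isIntegralElem _ _ hfle h2
  have hv2 : (Valued.v (z : LaurentSeries C) : ℤᵐ⁰) ≤ exp (-(-((m : ℤ) * e))) := by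
    rw [map_mul, map_pow, map_inv₀, he, ← exp_neg, ← exp_nsmul] at hv1
    have h3 := mul_le_mul_right hv1 (exp ((m : ℤ) * e))
    rw [← mul_assoc, ← exp_add, mul_one] at h3
    have h4 : (m : ℤ) * e + m • -e = 0 := by simp
    rw [h4, exp_zero, one_mul] at h3
    rwa [neg_neg]
  have hv3 : (Valued.v (z : LaurentSeries C) : ℤᵐ⁰) ≤ exp (-((N : ℤ) * e + 1)) := by
    rw [LaurentSeries.valuation_le_iff_coeff_lt_eq_zero]
    intro k hk
    by_cases hk' : k < -((m : ℤ) * e)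
    · exact (LaurentSeries.valuation_le_iff_coeff_lt_eq_zero C).1 hv2 k hk'
    · have := congrFun hz ⟨k, Finset.mem_Icc.2 ⟨not_lt.1 hk', by omega⟩⟩
      exact this
  have hzpF : (z : LaurentSeries C) ^ p ∈ F := by
    rw [hzg, mul_pow]
    exact mul_mem (pow_mem hg _) hyp
  have hbound := one_le_valuation_mul_pow' F hJF hJ (m * p) hzpF (pow_ne_zero p hz0') (h1.pow p)
    (by
      have := h2.pow p
      rwa [mul_pow, ← pow_mul] at this)
  rw [← mul_assoc, ← hN, map_pow, pow_mul, ← mul_pow] at hbound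
  have hlt : (Valued.v (z : LaurentSeries C) : ℤᵐ⁰) * Valued.v J ^ N < 1 := by
    calc (Valued.v (z : LaurentSeries C) : ℤᵐ⁰) * Valued.v J ^ N
        ≤ exp (-((N : ℤ) * e + 1)) * Valued.v J ^ N := mul_le_mul_left hv3 _
      _ = exp (-1) := by
          rw [he, ← exp_nsmul, ← exp_add]
          congr 1
          simp
      _ < 1 := by
          rw [← exp_zero, exp_lt_exp]
          norm_num
  exact absurd hbound (not_le.2 (pow_lt_one₀ zero_le hlt hp.ne'))

end FD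

end Fermat.Agent.GAL.Descent
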