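import Mathlib
import Fermat.Prelude.Def_ModularCurve_LaurentCoeff
import Fermat.Agent.GAL.DescentSpace
import Fermat.Agent.GAL.DescentEchelon
import Fermat.Agent.GAL.DescentOrbit
import Fermat.Agent.GAL.DescentBaseChange

/-!
Descent toolkit, part (D5): the descent theorem `C → k` (`k` = algebraic numbers in `C`)
for Kummer classes of the base change of a function field `F₀ ⊆ ℚ((q))`.
-/

set_option autoImplicit false

namespace Fermat.Agent.GAL.Descent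

open Polynomial IntermediateField ModularCurve WithZero

theorem isAlgebraic_of_fixed' {K : Type*} [Field K] [CharZero K] [IsAlgClosed K]
    [inst : Algebra ℚ K] (H : Subgroup (K ≃ₐ[ℚ] K)) [H.FiniteIndex] (x : K)
    (hx : ∀ σ ∈ H, σ x = x) : IsAlgebraic ℚ x := by
  obtain rfl : inst = DivisionRing.toRatAlgebra := Subsingleton.elim _ _
  exact isAlgebraic_of_fixed H x hx

/-- a series all of whose coefficients are in the range of `ι` comes from `k((q))` -/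
theorem exists_coeffMap_eq {k C : Type*} [Field k] [Field C] (ι : k →+* C) (z : LaurentSeries C)
    (hz : ∀ n, z.coeff n ∈ Set.range ι) : ∃ z₀ : LaurentSeries k, coeffMap ι z₀ = z := by
  choose c hc using hz
  refine ⟨⟨c, z.isPWO_support.mono ?_⟩, ?_⟩
  · intro n hn
    rw [Function.mem_support] at hn
    rw [HahnSeries.mem_support, ← hc]
    exact (map_ne_zero ι).2 hn
  · ext n
    rw [coeffMap_coeff]
    exact hc n

variable {C k : Type*} [Field C] [CharZero C] [IsAlgClosed C] [Algebra ℚ C] [Field k] [Algebra ℚ k]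

/-- **Descent theorem**, finite index form. -/
theorem exists_descent (ι : k →+* C) (hι : ∀ x : C, IsAlgebraic ℚ x → x ∈ Set.range ι)
    (F₀ : IntermediateField ℚ (LaurentSeries ℚ)) (J₀ : LaurentSeries ℚ) (hJ₀ : J₀ ∈ F₀)
    (hJv : 1 < (Valued.v (coeffEmb C J₀) : ℤᵐ⁰))
    [FiniteDimensional
      C⟮(⟨coeffEmb C J₀, coeffEmb_mem_laurentBaseChange C hJ₀⟩ : laurentBaseChange C F₀)⟯
      (laurentBaseChange C F₀)]
    {p : ℕ} (hp : 0 < p) (y : LaurentSeries C) (hy0 : y ≠ 0)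
    (hyp : y ^ p ∈ laurentBaseChange C F₀)
    (H : Subgroup (C ≃ₐ[ℚ] C)) [H.FiniteIndex]
    (hH : ∀ σ ∈ H, ∃ g ∈ laurentBaseChange C F₀, coeffMap (σ : C →+* C) y = g * y) :
    ∃ g ∈ laurentBaseChange C F₀, g ≠ 0 ∧ ∃ z : LaurentSeries k,
      coeffMap ι z = g * y ∧ z ^ p ∈ laurentBaseChange k F₀ := by
  have hJF := coeffEmb_mem_laurentBaseChange C hJ₀
  have hJ0 : coeffEmb C J₀ ≠ 0 := by
    intro h
    rw [h, map_zero] at hJv
    exact absurd hJv (not_lt.2 zero_le_one)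
  obtain ⟨m, z₁, hz₁, hz₁0⟩ := exists_ne_zero_mem_Vsp (laurentBaseChange C F₀) hJF hJ0 hp hy0 hyp
  have hfd := finiteDimensional_Vsp (laurentBaseChange C F₀) hJF hJv hp hyp m
  have hne : Vsp (laurentBaseChange C F₀) (coeffEmb C J₀) y m ≠ ⊥ := by
    intro h
    rw [h, Submodule.mem_bot] at hz₁
    exact hz₁0 hz₁
  obtain ⟨z, hzV, hz0, hzfix⟩ := exists_fixed_series _ hne
    {s : C →+* C | ∃ σ ∈ H, s = (σ : C →+* C)} (by
      rintro _ ⟨σ, hσ, rfl⟩ v hv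
      exact coeffMap_mem_Vsp (σ : C →+* C) (coeffMap_coeffEmb σ J₀)
        (fun g hg => coeffMap_mem_laurentBaseChange σ hg) (hH σ hσ) hv)
  obtain ⟨⟨g, hg, hzg⟩, -, -⟩ := hzV
  have hcoeff : ∀ n, z.coeff n ∈ Set.range ι := by
    intro n
    apply hι
    apply isAlgebraic_of_fixed' H
    intro σ hσ
    have := congrArg (fun w => HahnSeries.coeff w n) (hzfix (σ : C →+* C) ⟨σ, hσ, rfl⟩)
    exact this
  obtain ⟨z₀, hz₀⟩ := exists_coeffMap_eq ι z hcoeff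
  refine ⟨g, hg, ?_, z₀, hz₀.trans hzg, ?_⟩
  · rintro rfl
    rw [zero_mul] at hzg
    exact hz0 hzg
  · apply mem_laurentBaseChange_of_coeffMap_mem ι
    rw [map_pow, hz₀, hzg, mul_pow]
    exact mul_mem (pow_mem hg _) hyp

omit [CharZero C] [IsAlgClosed C] in
theorem coeffMap_mul_apply (σ τ : C ≃ₐ[ℚ] C) (x : LaurentSeries C) :
    coeffMap ((σ * τ : C ≃ₐ[ℚ] C) : C →+* C) x
      = coeffMap (σ : C →+* C) (coeffMap (τ : C →+* C) x) := by
  rw [coeffMap_coeffMap]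
  rfl

omit [CharZero C] [IsAlgClosed C] in
theorem coeffMap_inv_apply (σ : C ≃ₐ[ℚ] C) (x : LaurentSeries C) :
    coeffMap ((σ⁻¹ : C ≃ₐ[ℚ] C) : C →+* C) (coeffMap (σ : C →+* C) x) = x := by
  rw [← coeffMap_mul_apply, inv_mul_cancel]
  ext n
  rfl

/-- the stabiliser of the class of `f` modulo `p`-th powers of the function field -/
def stabClass (F₀ : IntermediateField ℚ (LaurentSeries ℚ)) (f : LaurentSeries C) (p : ℕ) :
    Subgroup (C ≃ₐ[ℚ] C) where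
  carrier := {σ | ∃ g ∈ laurentBaseChange C F₀, g ≠ 0 ∧ coeffMap (σ : C →+* C) f = f * g ^ p}
  one_mem' := ⟨1, one_mem _, one_ne_zero, by
    rw [one_pow, mul_one]
    ext n
    rfl⟩
  mul_mem' := by
    rintro σ τ ⟨g, hg, hg0, hσ⟩ ⟨g', hg', hg'0, hτ⟩
    refine ⟨g * coeffMap (σ : C →+* C) g', mul_mem hg (coeffMap_mem_laurentBaseChange σ hg'),
      mul_ne_zero hg0 ((_root_.map_ne_zero _).2 hg'0), ?_⟩
    rw [coeffMap_mul_apply, hτ, map_mul, map_pow, hσ]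
    ring
  inv_mem' := by
    rintro σ ⟨g, hg, hg0, hσ⟩
    refine ⟨(coeffMap ((σ⁻¹ : C ≃ₐ[ℚ] C) : C →+* C) g)⁻¹,
      inv_mem (coeffMap_mem_laurentBaseChange σ⁻¹ hg), inv_ne_zero ((_root_.map_ne_zero _).2 hg0), ?_⟩
    have h1 := congrArg (coeffMap ((σ⁻¹ : C ≃ₐ[ℚ] C) : C →+* C)) hσ
    rw [coeffMap_inv_apply, map_mul, map_pow] at h1
    have h2 : coeffMap ((σ⁻¹ : C ≃ₐ[ℚ] C) : C →+* C) g ≠ 0 := (_root_.map_ne_zero _).2 hg0
    rw [inv_pow, eq_mul_inv_iff_mul_eq₀ (pow_ne_zero _ h2)]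
    exact h1.symm

omit [CharZero C] [IsAlgClosed C] in
theorem finiteIndex_stabClass (F₀ : IntermediateField ℚ (LaurentSeries ℚ)) {f : LaurentSeries C}
    (hf0 : f ≠ 0) {p : ℕ} (hp : 0 < p) {X : Type*} [Finite X] (κ : LaurentSeries C → X)
    (hκ : ∀ σ τ : C ≃ₐ[ℚ] C, κ (coeffMap (σ : C →+* C) f) = κ (coeffMap (τ : C →+* C) f) →
      ∃ g ∈ laurentBaseChange C F₀, coeffMap (σ : C →+* C) f = coeffMap (τ : C →+* C) f * g ^ p) :
    (stabClass F₀ f p).FiniteIndex := by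
  have hfin : Finite ((C ≃ₐ[ℚ] C) ⧸ stabClass F₀ f p) := by
    refine Finite.of_injective
      (fun q => κ (coeffMap ((Quotient.out q : C ≃ₐ[ℚ] C) : C →+* C) f)) ?_
    intro q q' hqq
    obtain ⟨g, hg, hgq⟩ := hκ _ _ hqq.symm
    rw [← Quotient.out_eq' q, ← Quotient.out_eq' q']
    apply QuotientGroup.eq.2
    have hg0 : g ≠ 0 := by
      rintro rfl
      rw [zero_pow hp.ne', mul_zero] at hgq
      exact (_root_.map_ne_zero _).2 hf0 hgq
    refine ⟨coeffMap (((Quotient.out q)⁻¹ : C ≃ₐ[ℚ] C) : C →+* C) g,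
      coeffMap_mem_laurentBaseChange _ hg, (_root_.map_ne_zero _).2 hg0, ?_⟩
    rw [coeffMap_mul_apply, hgq, map_mul, map_pow, coeffMap_inv_apply]
  exact Subgroup.finiteIndex_of_finite_quotient

/-- **Descent theorem**, finite classes form. -/
theorem exists_descent_of_classes (ι : k →+* C) (hι : ∀ x : C, IsAlgebraic ℚ x → x ∈ Set.range ι)
    (F₀ : IntermediateField ℚ (LaurentSeries ℚ)) (J₀ : LaurentSeries ℚ) (hJ₀ : J₀ ∈ F₀)
    (hJv : 1 < (Valued.v (coeffEmb C J₀) : ℤᵐ⁰))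
    [FiniteDimensional
      C⟮(⟨coeffEmb C J₀, coeffEmb_mem_laurentBaseChange C hJ₀⟩ : laurentBaseChange C F₀)⟯
      (laurentBaseChange C F₀)]
    {p : ℕ} (hp : 0 < p) (y : LaurentSeries C) (hy0 : y ≠ 0)
    (hyp : y ^ p ∈ laurentBaseChange C F₀)
    {X : Type*} [Finite X] (κ : LaurentSeries C → X)
    (hκ : ∀ σ τ : C ≃ₐ[ℚ] C,
      κ (coeffMap (σ : C →+* C) (y ^ p)) = κ (coeffMap (τ : C →+* C) (y ^ p)) →
      ∃ g ∈ laurentBaseChange C F₀,
        coeffMap (σ : C →+* C) (y ^ p) = coeffMap (τ : C →+* C) (y ^ p) * g ^ p) :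
    ∃ g ∈ laurentBaseChange C F₀, g ≠ 0 ∧ ∃ z : LaurentSeries k,
      coeffMap ι z = g * y ∧ z ^ p ∈ laurentBaseChange k F₀ := by
  have := finiteIndex_stabClass F₀ (pow_ne_zero p hy0) hp κ hκ
  refine exists_descent ι hι F₀ J₀ hJ₀ hJv hp y hy0 hyp (stabClass F₀ (y ^ p) p) ?_
  rintro σ ⟨g, hg, hg0, hσ⟩
  have h1 : (coeffMap (σ : C →+* C) y / (g * y)) ^ p = 1 := by
    rw [div_pow, ← map_pow, hσ, mul_pow, mul_comm, div_self]
    exact mul_ne_zero (pow_ne_zero _ hg0) (pow_ne_zero _ hy0)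
  have hint : IsIntegral C (coeffMap (σ : C →+* C) y / (g * y)) := by
    refine ⟨Polynomial.X ^ p - 1, Polynomial.monic_X_pow_sub_C (1 : C) hp.ne', ?_⟩
    simp [h1]
  obtain ⟨c, hc⟩ := minpoly.mem_range_of_degree_eq_one C _
    (IsAlgClosed.degree_eq_one_of_irreducible C (minpoly.irreducible hint))
  refine ⟨algebraMap C _ c * g, mul_mem ((laurentBaseChange C F₀).algebraMap_mem c) hg, ?_⟩
  rw [hc, mul_assoc, div_mul_cancel₀]
  exact mul_ne_zero hg0 hy0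

end Fermat.Agent.GAL.Descent
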