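import Mathlib

/-!
# Eisenstein series with a (not necessarily congruence) character

For a subgroup `Γ ≤ SL(2,ℤ)` and a unitary character `χ : Γ →* ℂ` which is trivial on the
elements of `Γ` with bottom row `(0,1)`, we construct the weight `k` Eisenstein series
`eis χ k = ∑ χ(γ)⁻¹ (c z + d)^(-k)` (sum over the bottom rows `(c,d)` of the elements of `Γ`).
-/

set_option autoImplicit false

open UpperHalfPlane ModularForm EisensteinSeries Matrix Filter Topology Complex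
open scoped MatrixGroups Manifold

noncomputable section

namespace Fermat.Agent.GAL.EisChar

/-- Weighted Eisenstein sum. -/
def wsum (a : (Fin 2 → ℤ) → ℂ) (k : ℤ) (z : ℍ) : ℂ :=
  ∑' v : Fin 2 → ℤ, a v * eisSummand k v z

variable {a : (Fin 2 → ℤ) → ℂ} {k : ℤ}

lemma norm_term_le (ha : ∀ v, ‖a v‖ ≤ 1) (v : Fin 2 → ℤ) (z : ℍ) :
    ‖a v * eisSummand k v z‖ ≤ ‖eisSummand k v z‖ := by
  rw [norm_mul]
  exact mul_le_of_le_one_left (norm_nonneg _) (ha v)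

lemma summable_norm_term (ha : ∀ v, ‖a v‖ ≤ 1) (hk : 3 ≤ k) (z : ℍ) :
    Summable fun v => ‖a v * eisSummand k v z‖ :=
  (summable_norm_eisSummand hk z).of_nonneg_of_le (fun _ => norm_nonneg _)
    (fun v => norm_term_le ha v z)

lemma summable_term (ha : ∀ v, ‖a v‖ ≤ 1) (hk : 3 ≤ k) (z : ℍ) :
    Summable fun v => a v * eisSummand k v z :=
  (summable_norm_term ha hk z).of_norm

/-- The full lattice sum of norms. -/
def nsum (k : ℤ) (z : ℍ) : ℝ := ∑' v : Fin 2 → ℤ, ‖eisSummand k v z‖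

lemma norm_wsum_le (ha : ∀ v, ‖a v‖ ≤ 1) (hk : 3 ≤ k) (z : ℍ) :
    ‖wsum a k z‖ ≤ nsum k z := by
  refine (norm_tsum_le_tsum_norm (summable_norm_term ha hk z)).trans ?_
  exact (summable_norm_term ha hk z).tsum_le_tsum (fun v => norm_term_le ha v z)
    (summable_norm_eisSummand hk z)

/-- right multiplication by `A` as a permutation of `ℤ²`. -/
def vecEquiv (A : SL(2, ℤ)) : (Fin 2 → ℤ) ≃ (Fin 2 → ℤ) where
  toFun v := v ᵥ* A
  invFun v := v ᵥ* ↑(A⁻¹)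
  left_inv v := by
    show (v ᵥ* (A : Matrix (Fin 2) (Fin 2) ℤ)) ᵥ* ((A⁻¹ : SL(2, ℤ)) : Matrix (Fin 2) (Fin 2) ℤ) = v
    rw [vecMul_vecMul, ← Matrix.SpecialLinearGroup.coe_mul, mul_inv_cancel,
      Matrix.SpecialLinearGroup.coe_one, vecMul_one]
  right_inv v := by
    show (v ᵥ* ((A⁻¹ : SL(2, ℤ)) : Matrix (Fin 2) (Fin 2) ℤ)) ᵥ* (A : Matrix (Fin 2) (Fin 2) ℤ) = v
    rw [vecMul_vecMul, ← Matrix.SpecialLinearGroup.coe_mul, inv_mul_cancel,
      Matrix.SpecialLinearGroup.coe_one, vecMul_one]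

@[simp] lemma vecEquiv_apply (A : SL(2, ℤ)) (v : Fin 2 → ℤ) :
    vecEquiv A v = v ᵥ* A := rfl

@[simp] lemma vecEquiv_symm_apply (A : SL(2, ℤ)) (v : Fin 2 → ℤ) :
    (vecEquiv A).symm v = v ᵥ* ↑(A⁻¹) := rfl

lemma wsum_smul (a : (Fin 2 → ℤ) → ℂ) (k : ℤ) (A : SL(2, ℤ)) (z : ℍ) :
    wsum a k (A • z) = denom A z ^ k * wsum (fun v => a ((vecEquiv A).symm v)) k z := by
  unfold wsum
  simp_rw [eisSummand_SL2_apply]
  rw [← tsum_mul_left,
    ← (vecEquiv A).tsum_eq (fun v => denom A z ^ k * (a ((vecEquiv A).symm v) * eisSummand k v z))]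
  refine tsum_congr fun v => ?_
  rw [Equiv.symm_apply_apply, vecEquiv_apply]
  ring

lemma wsum_slash (a : (Fin 2 → ℤ) → ℂ) (k : ℤ) (A : SL(2, ℤ)) :
    wsum a k ∣[k] A = wsum (fun v => a ((vecEquiv A).symm v)) k := by
  ext z
  rw [SL_slash_apply, wsum_smul, _root_.zpow_neg, mul_comm, ← mul_assoc,
    inv_mul_cancel₀ (zpow_ne_zero _ (denom_ne_zero _ z)), one_mul]

lemma nsum_T_zpow_smul (k : ℤ) (n : ℤ) (z : ℍ) : nsum k (ModularGroup.T ^ n • z) = nsum k z := by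
  unfold nsum
  simp_rw [eisSummand_SL2_apply]
  rw [← (vecEquiv (ModularGroup.T ^ n)).tsum_eq (fun v => ‖eisSummand k v z‖)]
  refine tsum_congr fun v => ?_
  have : denom (ModularGroup.T ^ n : SL(2, ℤ)) z = 1 := by
    rw [ModularGroup.denom_apply, ModularGroup.coe_T_zpow]
    simp
  rw [this, _root_.one_zpow, one_mul, vecEquiv_apply]

lemma nsum_le_of_one_le_im (hk : 3 ≤ k) :
    ∃ C : ℝ, ∀ z : ℍ, 1 ≤ z.im → nsum k z ≤ C := by
  have hk' : (2 : ℝ) < k := by norm_cast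
  refine ⟨∑' (x : Fin 2 → ℤ), r ⟨⟨1, 1⟩, one_pos⟩ ^ (-k) * ‖x‖ ^ (-k), fun z hz => ?_⟩
  obtain ⟨n, hn⟩ := ModularGroup_T_zpow_mem_verticalStrip z (N := 1) one_pos
  rw [← nsum_T_zpow_smul k ((1 : ℕ) * n) z]
  unfold nsum
  apply (summable_norm_eisSummand hk _).tsum_le_tsum _
  · exact_mod_cast (summable_one_div_norm_rpow hk').mul_left <| r ⟨⟨1, 1⟩, one_pos⟩ ^ (-k)
  · intro x
    simp_rw [eisSummand, norm_zpow]
    exact_mod_cast
      summand_bound_of_mem_verticalStrip (lt_trans two_pos hk').le x one_pos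
      (verticalStrip_anti_right _ hz (by exact_mod_cast hn))

lemma isBoundedAtImInfty_wsum (ha : ∀ v, ‖a v‖ ≤ 1) (hk : 3 ≤ k) :
    IsBoundedAtImInfty (wsum a k) := by
  obtain ⟨C, hC⟩ := nsum_le_of_one_le_im hk
  rw [UpperHalfPlane.isBoundedAtImInfty_iff]
  exact ⟨C, 1, fun z hz => (norm_wsum_le ha hk z).trans (hC z hz)⟩

lemma wsum_tendstoLocallyUniformly (ha : ∀ v, ‖a v‖ ≤ 1) (hk : 3 ≤ k) :
    TendstoLocallyUniformly (fun (s : Finset (Fin 2 → ℤ)) ↦ (∑ x ∈ s, a x * eisSummand k x ·))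
      (wsum a k ·) Filter.atTop := by
  have hk' : (2 : ℝ) < k := by norm_cast
  have p_sum : Summable fun x : Fin 2 → ℤ ↦ ‖x‖ ^ (-k) :=
    mod_cast (summable_one_div_norm_rpow hk')
  simp only [tendstoLocallyUniformly_iff_forall_isCompact, wsum]
  intro K hK
  obtain ⟨A, B, hB, HABK⟩ := subset_verticalStrip_of_isCompact hK
  refine (tendstoUniformlyOn_tsum (hu := p_sum.mul_left <| r ⟨⟨A, B⟩, hB⟩ ^ (-k : ℝ))
    (fun p z hz ↦ ?_)).mono HABK
  refine (norm_term_le ha p z).trans ?_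
  simpa only [eisSummand, one_div, ← _root_.zpow_neg, norm_zpow, ← Real.rpow_intCast,
    Int.cast_neg] using summand_bound_of_mem_verticalStrip (by positivity) p hB hz

lemma wsum_tendstoLocallyUniformlyOn (ha : ∀ v, ‖a v‖ ≤ 1) (hk : 3 ≤ k) :
    TendstoLocallyUniformlyOn (fun (s : Finset (Fin 2 → ℤ)) ↦
      ↑ₕ(fun (z : ℍ) ↦ ∑ x ∈ s, a x * eisSummand k x z)) (↑ₕ(wsum a k))
          Filter.atTop {z : ℂ | 0 < z.im} := by
  rw [← upperHalfPlaneSet, ← range_coe, ← Set.image_univ]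
  apply TendstoLocallyUniformlyOn.comp (s := ⊤) _ _ _ (OpenPartialHomeomorph.continuousOn_symm _)
  · simp only [Set.top_eq_univ, tendstoLocallyUniformlyOn_univ]
    apply wsum_tendstoLocallyUniformly ha hk
  · simp only [IsOpenEmbedding.toOpenPartialHomeomorph_target, Set.top_eq_univ,
      Set.mapsTo_range_iff, Set.mem_univ, forall_const]

lemma term_extension_differentiableOn (a : (Fin 2 → ℤ) → ℂ) (k : ℤ) (v : Fin 2 → ℤ) :
    DifferentiableOn ℂ (↑ₕ(fun z : ℍ => a v * eisSummand k v z)) {z : ℂ | 0 < z.im} := by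
  apply DifferentiableOn.congr ((div_linear_zpow_differentiableOn k v).const_mul (a v))
  intro z hz
  lift z to ℍ using hz
  simp [eisSummand]

theorem mdiff_wsum (ha : ∀ v, ‖a v‖ ≤ 1) (hk : 3 ≤ k) : MDiff (wsum a k) := by
  rw [UpperHalfPlane.mdifferentiable_iff]
  refine (wsum_tendstoLocallyUniformlyOn ha hk).differentiableOn
    (Eventually.of_forall fun s ↦ ?_) isOpen_upperHalfPlaneSet
  have : (↑ₕ(fun (z : ℍ) ↦ ∑ x ∈ s, a x * eisSummand k x z))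
      = fun w => ∑ x ∈ s, (↑ₕ(fun z : ℍ => a x * eisSummand k x z)) w := by
    ext w
    simp
  rw [this]
  exact DifferentiableOn.fun_sum fun _ _ ↦ term_extension_differentiableOn _ _ _

lemma norm_eisSummand_le_of_ne_zero (k : ℤ) {v : Fin 2 → ℤ} (hv : v 0 ≠ 0) (z : ℍ) :
    ‖eisSummand k v z‖ ≤ (z.im)⁻¹ * ‖eisSummand (k - 1) v z‖ := by
  have him : z.im ≤ ‖((v 0 : ℤ) : ℂ) * (z : ℂ) + ((v 1 : ℤ) : ℂ)‖ := by
    have h1 : |(((v 0 : ℤ) : ℂ) * (z : ℂ) + ((v 1 : ℤ) : ℂ)).im| ≤ _ := Complex.abs_im_le_norm _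
    have h2 : (((v 0 : ℤ) : ℂ) * (z : ℂ) + ((v 1 : ℤ) : ℂ)).im = (v 0 : ℝ) * z.im := by
      simp
    rw [h2, abs_mul, abs_of_pos z.im_pos] at h1
    have h3 : (1 : ℝ) ≤ |(v 0 : ℝ)| := by
      exact_mod_cast Int.one_le_abs hv
    nlinarith [z.im_pos]
  have hpos : 0 < ‖((v 0 : ℤ) : ℂ) * (z : ℂ) + ((v 1 : ℤ) : ℂ)‖ := lt_of_lt_of_le z.im_pos him
  simp only [eisSummand, norm_zpow]
  have : -k = -1 + -(k - 1) := by ring
  rw [this, zpow_add₀ hpos.ne', _root_.zpow_neg_one]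
  exact mul_le_mul_of_nonneg_right (inv_anti₀ z.im_pos him) (zpow_nonneg hpos.le _)

lemma norm_wsum_le_div (ha : ∀ v, ‖a v‖ ≤ 1) (ha0 : ∀ v, v 0 = 0 → a v = 0) (hk : 4 ≤ k) :
    ∃ C : ℝ, ∀ z : ℍ, 1 ≤ z.im → ‖wsum a k z‖ ≤ (z.im)⁻¹ * C := by
  obtain ⟨C, hC⟩ := nsum_le_of_one_le_im (k := k - 1) (by omega)
  refine ⟨C, fun z hz => ?_⟩
  have hs1 := summable_norm_term ha (by omega : 3 ≤ k) z
  have hs2 := (summable_norm_eisSummand (k := k - 1) (by omega) z).mul_left (z.im)⁻¹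
  calc ‖wsum a k z‖ ≤ ∑' v, ‖a v * eisSummand k v z‖ := norm_tsum_le_tsum_norm hs1
    _ ≤ ∑' v, (z.im)⁻¹ * ‖eisSummand (k - 1) v z‖ := by
        refine hs1.tsum_le_tsum (fun v => ?_) hs2
        by_cases hv : v 0 = 0
        · rw [ha0 v hv, zero_mul, norm_zero]
          exact mul_nonneg (inv_nonneg.mpr z.im_pos.le) (norm_nonneg _)
        · exact (norm_term_le ha v z).trans (norm_eisSummand_le_of_ne_zero k hv z)
    _ = (z.im)⁻¹ * nsum (k - 1) z := by rw [tsum_mul_left]; rfl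
    _ ≤ (z.im)⁻¹ * C := mul_le_mul_of_nonneg_left (hC z hz) (inv_nonneg.mpr z.im_pos.le)

lemma tendsto_wsum_zero (ha : ∀ v, ‖a v‖ ≤ 1) (ha0 : ∀ v, v 0 = 0 → a v = 0) (hk : 4 ≤ k) :
    Tendsto (wsum a k) atImInfty (𝓝 0) := by
  obtain ⟨C, hC⟩ := norm_wsum_le_div ha ha0 hk
  have him : Tendsto (fun z : ℍ => z.im) atImInfty atTop := tendsto_comap
  have h1 : Tendsto (fun z : ℍ => (z.im)⁻¹ * C) atImInfty (𝓝 0) := by
    simpa using (tendsto_inv_atTop_zero.comp him).mul_const C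
  refine squeeze_zero_norm' ?_ h1
  filter_upwards [him.eventually_ge_atTop 1] with z hz using hC z hz

theorem tendsto_wsum (ha : ∀ v, ‖a v‖ ≤ 1) (hk : 4 ≤ k) (s : Finset (Fin 2 → ℤ))
    (hs : ∀ v ∈ s, v 0 = 0) (hs' : ∀ v ∉ s, v 0 = 0 → a v = 0) :
    Tendsto (wsum a k) atImInfty (𝓝 (∑ v ∈ s, a v * ((v 1 : ℤ) : ℂ) ^ (-k))) := by
  classical
  set b : (Fin 2 → ℤ) → ℂ := fun v => if v 0 = 0 then 0 else a v with hb
  have hb1 : ∀ v, ‖b v‖ ≤ 1 := fun v => by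
    simp only [hb]; split_ifs
    · simp
    · exact ha v
  have hb0 : ∀ v, v 0 = 0 → b v = 0 := fun v hv => by simp [hb, hv]
  have hdec : ∀ z, wsum a k z = (∑ v ∈ s, a v * ((v 1 : ℤ) : ℂ) ^ (-k)) + wsum b k z := by
    intro z
    have h1 : ∑' v, (a v - b v) * eisSummand k v z = ∑ v ∈ s, a v * ((v 1 : ℤ) : ℂ) ^ (-k) := by
      rw [tsum_eq_sum (s := s)]
      · refine Finset.sum_congr rfl fun v hv => ?_
        simp [hb, hs v hv, eisSummand]
      · intro v hv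
        by_cases h0 : v 0 = 0
        · simp [hb, h0, hs' v hv h0]
        · simp [hb, h0]
    have hsa := summable_term ha (by omega : 3 ≤ k) z
    have hsb := summable_term hb1 (by omega : 3 ≤ k) z
    rw [← h1]
    unfold wsum
    rw [← (hsa.sub hsb |>.congr (fun v => by ring)).tsum_add hsb]
    exact tsum_congr fun v => by ring
  have := (tendsto_wsum_zero hb1 hb0 hk).const_add (∑ v ∈ s, a v * ((v 1 : ℤ) : ℂ) ^ (-k))
  rw [add_zero] at this
  exact this.congr fun z => (hdec z).symm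

/-! ### The character coefficients -/

/-- bottom row of a matrix in `SL(2,ℤ)`. -/
def row (γ : SL(2, ℤ)) : Fin 2 → ℤ := fun j => γ 1 j

lemma row_mul (γ g : SL(2, ℤ)) : row (γ * g) = row γ ᵥ* g := by
  ext j
  simp [row, Matrix.SpecialLinearGroup.coe_mul, Matrix.mul_apply, Matrix.vecMul, dotProduct]

lemma row_one : row 1 = ![0, 1] := by
  ext j; fin_cases j <;> simp [row]

lemma row_neg_one : row (-1) = ![0, -1] := by
  ext j; fin_cases j <;> simp [row]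

variable {Γ : Subgroup SL(2, ℤ)} (χ : Γ →* ℂˣ)

open Classical in
/-- the coefficient `χ(γ)⁻¹` attached to the bottom row of `γ ∈ Γ` (zero for other vectors). -/
def coef (v : Fin 2 → ℤ) : ℂ :=
  if h : ∃ γ : Γ, row γ = v then (((χ h.choose)⁻¹ : ℂˣ) : ℂ) else 0

variable {χ}

lemma coef_row (hU : ∀ γ : Γ, row γ = ![0, 1] → χ γ = 1) (γ : Γ) :
    coef χ (row γ) = (((χ γ)⁻¹ : ℂˣ) : ℂ) := by
  have h : ∃ γ' : Γ, row γ' = row γ := ⟨γ, rfl⟩
  rw [coef, dif_pos h]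
  have h1 : row ((h.choose * γ⁻¹ : Γ) : SL(2, ℤ)) = ![0, 1] := by
    rw [Subgroup.coe_mul, row_mul, h.choose_spec, ← row_mul, Subgroup.coe_inv, mul_inv_cancel,
      row_one]
  have h2 := hU _ h1
  rw [map_mul, map_inv, mul_inv_eq_one] at h2
  rw [h2]

lemma coef_of_not (v : Fin 2 → ℤ) (h : ¬ ∃ γ : Γ, row γ = v) : coef χ v = 0 := by
  rw [coef, dif_neg h]

lemma coef_vecMul (hU : ∀ γ : Γ, row γ = ![0, 1] → χ γ = 1) (g : Γ) (v : Fin 2 → ℤ) :
    coef χ (v ᵥ* (g : SL(2, ℤ))) = coef χ v * (((χ g)⁻¹ : ℂˣ) : ℂ) := by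
  by_cases h : ∃ γ : Γ, row γ = v
  · obtain ⟨γ, rfl⟩ := h
    rw [← row_mul, ← Subgroup.coe_mul, coef_row hU, coef_row hU, map_mul, mul_inv, Units.val_mul]
  · rw [coef_of_not v h, zero_mul, coef_of_not]
    rintro ⟨γ, hγ⟩
    refine h ⟨γ * g⁻¹, ?_⟩
    rw [Subgroup.coe_mul, row_mul, hγ, Subgroup.coe_inv]
    exact (vecEquiv (g : SL(2, ℤ))).symm_apply_apply v

lemma norm_coef_le (hn : ∀ g, ‖(χ g : ℂ)‖ = 1) (v : Fin 2 → ℤ) : ‖coef χ v‖ ≤ 1 := by
  unfold coef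
  split_ifs with h
  · rw [Units.val_inv_eq_inv_val, norm_inv, hn, inv_one]
  · simp

variable (χ) in
/-- The Eisenstein series of weight `k` with character `χ`. -/
def eis (k : ℤ) : ℍ → ℂ := wsum (coef χ) k

theorem mdiff_eis (hn : ∀ g, ‖(χ g : ℂ)‖ = 1) (hk : 3 ≤ k) : MDiff (eis χ k) :=
  mdiff_wsum (norm_coef_le hn) hk

theorem eis_smul (hU : ∀ γ : Γ, row γ = ![0, 1] → χ γ = 1) (k : ℤ) (g : Γ) (z : ℍ) :
    eis χ k ((g : SL(2, ℤ)) • z) = (χ g : ℂ) * denom (g : SL(2, ℤ)) z ^ k * eis χ k z := by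
  unfold eis
  rw [wsum_smul]
  have : (fun v => coef χ ((vecEquiv (g : SL(2, ℤ))).symm v)) = fun v => coef χ v * (χ g : ℂ) := by
    ext v
    have := coef_vecMul hU g⁻¹ v
    rw [map_inv, inv_inv, Subgroup.coe_inv] at this
    rw [vecEquiv_symm_apply, this]
  rw [this]
  unfold wsum
  simp_rw [mul_right_comm _ (χ g : ℂ)]
  rw [tsum_mul_right]
  ring

theorem isBoundedAtImInfty_eis_slash (hn : ∀ g, ‖(χ g : ℂ)‖ = 1) (hk : 3 ≤ k) (s : SL(2, ℤ)) :
    IsBoundedAtImInfty (eis χ k ∣[k] s) := by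
  unfold eis
  rw [wsum_slash]
  exact isBoundedAtImInfty_wsum (fun v => norm_coef_le hn _) hk

theorem tendsto_eis (hn : ∀ g, ‖(χ g : ℂ)‖ = 1) (hU : ∀ γ : Γ, row γ = ![0, 1] → χ γ = 1)
    (hneg : ∃ h : (-1 : SL(2, ℤ)) ∈ Γ, χ ⟨-1, h⟩ = 1) (hk : 4 ≤ k) (hke : Even k) :
    Tendsto (eis χ k) atImInfty (𝓝 2) := by
  classical
  have h := tendsto_wsum (a := coef χ) (norm_coef_le hn) hk {![0, 1], ![0, -1]}
    (by
      intro v hv
      simp only [Finset.mem_insert, Finset.mem_singleton] at hv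
      rcases hv with rfl | rfl <;> simp)
    (by
      intro v hv hv0
      apply coef_of_not
      rintro ⟨γ, rfl⟩
      apply hv
      have hdet := Matrix.det_fin_two ((γ : SL(2, ℤ)) : Matrix (Fin 2) (Fin 2) ℤ)
      rw [(γ : SL(2, ℤ)).2] at hdet
      have h10 : ((γ : SL(2, ℤ)) : Matrix (Fin 2) (Fin 2) ℤ) 1 0 = 0 := hv0
      rw [h10, mul_zero, sub_zero] at hdet
      have h11 : ((γ : SL(2, ℤ)) : Matrix (Fin 2) (Fin 2) ℤ) 1 1 = 1 ∨
          ((γ : SL(2, ℤ)) : Matrix (Fin 2) (Fin 2) ℤ) 1 1 = -1 :=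
        Int.isUnit_iff.mp (IsUnit.of_mul_eq_one _ (by rw [mul_comm]; exact hdet.symm))
      simp only [Finset.mem_insert, Finset.mem_singleton]
      rcases h11 with h11 | h11
      · left; ext j; fin_cases j
        · exact h10
        · exact h11
      · right; ext j; fin_cases j
        · exact h10
        · exact h11)
  have hne : (![0, 1] : Fin 2 → ℤ) ≠ ![0, -1] := by
    intro h
    have := congrFun h 1
    simp at this
  rw [Finset.sum_pair hne] at h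
  obtain ⟨hm, hχ⟩ := hneg
  have c1 : coef χ ![0, 1] = 1 := by
    have := coef_row hU (1 : Γ)
    rw [Subgroup.coe_one, row_one, map_one] at this
    simpa using this
  have c2 : coef χ ![0, -1] = 1 := by
    have := coef_row hU (⟨-1, hm⟩ : Γ)
    rw [hχ] at this
    simpa [row_neg_one] using this
  rw [c1, c2] at h
  have e1 : (((![0, 1] : Fin 2 → ℤ) 1 : ℤ) : ℂ) ^ (-k) = 1 := by simp
  have e2 : (((![0, -1] : Fin 2 → ℤ) 1 : ℤ) : ℂ) ^ (-k) = 1 := by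
    simp [hke.neg_one_zpow]
  rw [e1, e2] at h
  norm_num at h
  exact h

theorem exists_eis_ne_zero (hn : ∀ g, ‖(χ g : ℂ)‖ = 1)
    (hU : ∀ γ : Γ, row γ = ![0, 1] → χ γ = 1)
    (hneg : ∃ h : (-1 : SL(2, ℤ)) ∈ Γ, χ ⟨-1, h⟩ = 1) (hk : 4 ≤ k) (hke : Even k) :
    ∃ z, eis χ k z ≠ 0 := by
  have h := tendsto_eis hn hU hneg hk hke
  have : ∀ᶠ z in atImInfty, eis χ k z ≠ 0 := h.eventually_ne (by norm_num)
  exact this.exists

/-- an element of `SL(2,ℤ)` with bottom row `(0,1)` is a power of `T`. -/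
lemma eq_T_zpow_of_row {γ : SL(2, ℤ)} (h : row γ = ![0, 1]) : γ = ModularGroup.T ^ (γ 0 1) := by
  have h10 : γ 1 0 = 0 := congrFun h 0
  have h11 : γ 1 1 = 1 := congrFun h 1
  have hdet := Matrix.det_fin_two (γ : Matrix (Fin 2) (Fin 2) ℤ)
  rw [γ.2, h10, h11, mul_zero, sub_zero, mul_one] at hdet
  ext i j
  rw [ModularGroup.coe_T_zpow]
  fin_cases i <;> fin_cases j
  · exact hdet.symm
  · rfl
  · exact h10
  · exact h11

lemma hU_of_T (hT : ∃ h : ModularGroup.T ∈ Γ, χ ⟨ModularGroup.T, h⟩ = 1) :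
    ∀ γ : Γ, row γ = ![0, 1] → χ γ = 1 := by
  obtain ⟨hm, hχ⟩ := hT
  intro γ hγ
  have : γ = (⟨ModularGroup.T, hm⟩ : Γ) ^ ((γ : SL(2, ℤ)) 0 1) := by
    apply Subtype.ext
    rw [Subgroup.coe_zpow]
    exact eq_T_zpow_of_row hγ
  rw [this, map_zpow, hχ, _root_.one_zpow]

lemma norm_eq_one_of_pow {m : ℕ} (hm : m ≠ 0) (h : ∀ g, χ g ^ m = 1) (g : Γ) :
    ‖(χ g : ℂ)‖ = 1 := by
  apply norm_eq_one_of_pow_eq_one (n := m) _ hm
  have := congrArg (fun u : ℂˣ => (u : ℂ)) (h g)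
  simpa using this

lemma pow_slash (f : ℍ → ℂ) (k : ℤ) (m : ℕ) (s : SL(2, ℤ)) :
    (f ^ m) ∣[k * m] s = (f ∣[k] s) ^ m := by
  ext z
  simp only [SL_slash_apply, Pi.pow_apply, mul_pow]
  rw [← zpow_natCast (denom _ _ ^ (-k)) m, ← _root_.zpow_mul, neg_mul]

lemma isBoundedAtImInfty_pow {f : ℍ → ℂ} (hf : IsBoundedAtImInfty f) (m : ℕ) :
    IsBoundedAtImInfty (f ^ m) := by
  induction m with
  | zero =>
    simp only [pow_zero]
    exact Filter.const_boundedAtFilter _ (1 : ℂ)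
  | succ n ih =>
    rw [pow_succ]
    exact ih.mul hf

lemma eis_slash (hU : ∀ γ : Γ, row γ = ![0, 1] → χ γ = 1) (k : ℤ) (g : Γ) :
    eis χ k ∣[k] (g : SL(2, ℤ)) = (χ g : ℂ) • eis χ k := by
  ext z
  rw [SL_slash_apply, eis_smul hU, Pi.smul_apply, smul_eq_mul, _root_.zpow_neg, mul_right_comm,
    mul_assoc (χ g : ℂ), mul_inv_cancel₀ (zpow_ne_zero _ (denom_ne_zero _ z)), mul_one]

/-- The `m`-th power of the Eisenstein series with a character of order dividing `m` is a genuine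
modular form on `Γ₀(N)`. -/
theorem exists_modularForm_eis_pow {N : ℕ} [NeZero N] (χ : CongruenceSubgroup.Gamma0 N →* ℂˣ)
    {m : ℕ} (hm : m ≠ 0) (hχ : ∀ g, χ g ^ m = 1)
    (hT : ∃ h : ModularGroup.T ∈ CongruenceSubgroup.Gamma0 N, χ ⟨ModularGroup.T, h⟩ = 1)
    (hk : 3 ≤ k) :
    ∃ F : ModularForm (CongruenceSubgroup.Gamma0 N) (k * m), ⇑F = eis χ k ^ m := by
  have hn := norm_eq_one_of_pow hm hχ
  have hU := hU_of_T hT
  refine ⟨{ toFun := eis χ k ^ m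
            slash_action_eq' := ?_
            holo' := (mdiff_eis hn hk).pow m
            bdd_at_cusps' := ?_ }, rfl⟩
  · rintro _ ⟨γ, hγ, rfl⟩
    have h1 : (eis χ k ^ m) ∣[k * m] γ = eis χ k ^ m := by
      rw [pow_slash, eis_slash hU k ⟨γ, hγ⟩, smul_pow]
      have := congrArg (fun u : ℂˣ => (u : ℂ)) (hχ ⟨γ, hγ⟩)
      simp only [Units.val_pow_eq_pow_val, Units.val_one] at this
      rw [this, one_smul]
    exact h1
  · intro c hc
    rw [Subgroup.IsArithmetic.isCusp_iff_isCusp_SL2Z] at hc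
    rw [OnePoint.isBoundedAt_iff_forall_SL2Z hc]
    intro γ _
    rw [pow_slash]
    exact isBoundedAtImInfty_pow (isBoundedAtImInfty_eis_slash hn hk γ) m

end Fermat.Agent.GAL.EisChar
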