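import Fermat.Agent.S24.FF.Principal
import Fermat.Prelude.Def_AlgebraicCurve_Correspondence

/-!
# Finite extensions of function fields of curves (char. 0, algebraically closed constants)

For `K` algebraically closed of characteristic `0`, `F ⊆ F'` a finite extension of `K`-fields and
`y : F` a finite parameter (`Fermat.Agent.S24.IsFiniteParam K y`), we prove

* `pushforwardNormFormula` : `AlgebraicCurve.Divisor.PushforwardNormFormula K F F'`
* `sumRamificationInertia` : `AlgebraicCurve.SumRamificationInertia K F F'`
* `fundamentalIdentity`    : `AlgebraicCurve.FundamentalIdentity K F F'`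
* the `…Along` versions for a `K`-algebra homomorphism `φ : F →ₐ[K] F'`.
-/

set_option autoImplicit false
set_option linter.style.haveILetI false
set_option linter.unusedSectionVars false

open AlgebraicCurve IsDedekindDomain IntermediateField

namespace Fermat.Agent.GAL.FFExt

open Fermat.Agent.S24

section Abstract

variable {K F F' A B : Type*} [Field K] [Field F] [Field F']
  [Algebra K F] [Algebra K F'] [Algebra F F']
  [CommRing A] [IsDedekindDomain A] [Algebra A F] [IsFractionRing A F] [Algebra K A]
  [IsScalarTower K A F]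
  [CommRing B] [IsDedekindDomain B] [Algebra B F'] [IsFractionRing B F'] [Algebra K B]
  [IsScalarTower K B F']
  [Algebra A B] [Algebra A F'] [IsScalarTower A B F'] [IsScalarTower A F F'] [Module.Finite A B]
  [IsScalarTower K A B] [Module.IsTorsionFree A B]

theorem inertiaDeg_eq_one [IsAlgClosed K] [Algebra.FiniteType K B]
    (p : Ideal A) [p.IsMaximal] (P : HeightOneSpectrum B) [P.asIdeal.LiesOver p] :
    P.asIdeal.inertiaDeg A = 1 := by
  haveI : P.asIdeal.IsMaximal := P.isMaximal
  rw [Ideal.inertiaDeg_eq_of_isMaximal p P.asIdeal]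
  letI : Field (A ⧸ p) := Ideal.Quotient.field _
  rw [finrank_eq_one_iff_of_nonzero' (1 : B ⧸ P.asIdeal) one_ne_zero]
  intro x
  obtain ⟨c, rfl⟩ := surjective_algebraMap_quotient (K := K) P x
  refine ⟨algebraMap K _ c, ?_⟩
  rw [Algebra.smul_def, mul_one]
  have e1 : algebraMap K (A ⧸ p) c = Ideal.Quotient.mk _ (algebraMap K A c) := rfl
  have e2 : algebraMap K (B ⧸ P.asIdeal) c = Ideal.Quotient.mk _ (algebraMap K B c) := rfl
  rw [e1, e2, Ideal.Quotient.algebraMap_mk_of_liesOver, ← IsScalarTower.algebraMap_apply]

/-- the relative norm of a nonzero prime is the prime below. -/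
theorem relNorm_eq_under [IsAlgClosed K] [CharZero K] [Algebra.FiniteType K B]
    (P : HeightOneSpectrum B) :
    Ideal.relNorm A P.asIdeal = P.asIdeal.under A := by
  haveI : P.asIdeal.IsMaximal := P.isMaximal
  haveI : (P.asIdeal.under A).IsMaximal := Ideal.IsMaximal.under A P.asIdeal
  haveI : CharZero A := charZero_of_injective_algebraMap (algebraMap K A).injective
  haveI : CharZero (FractionRing A) :=
    charZero_of_injective_algebraMap (IsFractionRing.injective A (FractionRing A))
  rw [Ideal.relNorm_eq_pow_of_isMaximal P.asIdeal (P.asIdeal.under A),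
    inertiaDeg_eq_one (K := K) (P.asIdeal.under A) P, pow_one]

theorem count_relNorm [IsAlgClosed K] [CharZero K] [Algebra.FiniteType K B]
    (p : HeightOneSpectrum A) (I : Ideal B) (hI : I ≠ ⊥)
    (S : Finset (HeightOneSpectrum B)) (hS : ∀ P, P ∈ S ↔ P.asIdeal.under A = p.asIdeal) :
    Multiset.count p.asIdeal (UniqueFactorizationMonoid.normalizedFactors (Ideal.relNorm A I)) =
      ∑ P ∈ S, Multiset.count P.asIdeal (UniqueFactorizationMonoid.normalizedFactors I) := by
  classical
  induction I using UniqueFactorizationMonoid.induction_on_prime with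
  | h₁ => exact absurd rfl hI
  | h₂ x hx => 
    have : x = ⊤ := by simpa using hx
    subst this
    rw [Ideal.relNorm_top, ← Ideal.one_eq_top, ← Ideal.one_eq_top,
      UniqueFactorizationMonoid.normalizedFactors_one, UniqueFactorizationMonoid.normalizedFactors_one]
    simp only [Multiset.count_zero, Finset.sum_const_zero]
  | h₃ a q ha hq ih => 
    have ha' : a ≠ ⊥ := ha
    have hq0 : q ≠ ⊥ := hq.ne_zero
    have hqp : q.IsPrime := Ideal.isPrime_of_prime hq
    let Q : HeightOneSpectrum B := ⟨q, hqp, hq0⟩
    have hN : Ideal.relNorm A q = q.under A := relNorm_eq_under (K := K) Q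
    have hu0 : q.under A ≠ ⊥ := by
      rw [← hN]
      exact fun h => hq0 (Ideal.relNorm_eq_bot_iff.1 h)
    have hup : Prime (q.under A) := Ideal.prime_of_isPrime hu0 inferInstance
    rw [map_mul, UniqueFactorizationMonoid.normalizedFactors_mul
      (fun h => hq0 (Ideal.relNorm_eq_bot_iff.1 h)) (fun h => ha' (Ideal.relNorm_eq_bot_iff.1 h)),
      Multiset.count_add, ih ha', hN, UniqueFactorizationMonoid.normalizedFactors_irreducible hup.irreducible]
    simp_rw [UniqueFactorizationMonoid.normalizedFactors_mul hq0 ha', Multiset.count_add]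
    rw [Finset.sum_add_distrib]
    congr 1
    simp_rw [UniqueFactorizationMonoid.normalizedFactors_irreducible hq.irreducible, normalize_eq,
      Multiset.count_singleton]
    by_cases h : q.under A = p.asIdeal
    · rw [if_pos h.symm]
      rw [Finset.sum_eq_single_of_mem Q ((hS Q).2 h)]
      · simp [Q]
      · intro P _ hP
        rw [if_neg]
        intro h'
        exact hP (HeightOneSpectrum.ext h')
    · rw [if_neg (fun h' => h h'.symm)]
      symm
      apply Finset.sum_eq_zero
      intro P hP
      rw [if_neg]
      intro h'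
      apply h
      rw [← h']
      exact (hS P).1 hP

theorem ord_norm_algebraMap [IsAlgClosed K] [CharZero K] [Algebra.FiniteType K B]
    [FiniteDimensional F F']
    (p : HeightOneSpectrum A) (S : Finset (HeightOneSpectrum B))
    (hS : ∀ P, P ∈ S ↔ P.asIdeal.under A = p.asIdeal) {b : B} (hb : b ≠ 0) :
    (Place.ofHeightOneSpectrum (K := K) p).ord (Algebra.norm F (algebraMap B F' b)) =
      ∑ P ∈ S, (Place.ofHeightOneSpectrum (K := K) P).ord (algebraMap B F' b) := by
  haveI : IsIntegralClosure B A F' := IsIntegralClosure.of_isIntegrallyClosed B A F'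
  rw [← Algebra.algebraMap_intNorm (A := A) (K := F) (L := F') (B := B)]
  have hn : Algebra.intNorm A B b ≠ 0 := by
    rwa [Ne, Algebra.intNorm_eq_zero]
  rw [ord_ofHeightOneSpectrum_algebraMap p hn, ← Ideal.relNorm_singleton,
    count_relNorm (K := K) p _ (by simpa using hb) S hS]
  push_cast
  refine Finset.sum_congr rfl fun P _ => ?_
  rw [ord_ofHeightOneSpectrum_algebraMap P hb]

theorem ord_norm [IsAlgClosed K] [CharZero K] [Algebra.FiniteType K B]
    [FiniteDimensional F F']
    (p : HeightOneSpectrum A) (S : Finset (HeightOneSpectrum B))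
    (hS : ∀ P, P ∈ S ↔ P.asIdeal.under A = p.asIdeal) {f : F'} (hf : f ≠ 0) :
    (Place.ofHeightOneSpectrum (K := K) p).ord (Algebra.norm F f) =
      ∑ P ∈ S, (Place.ofHeightOneSpectrum (K := K) P).ord f := by
  obtain ⟨a, s, hs, rfl⟩ := IsFractionRing.div_surjective (A := B) f
  have hs0 : s ≠ 0 := nonZeroDivisors.ne_zero hs
  have ha0 : a ≠ 0 := by
    rintro rfl
    simp at hf
  have hsF : algebraMap B F' s ≠ 0 := algebraMap_ne_zero' hs0
  have haF : algebraMap B F' a ≠ 0 := algebraMap_ne_zero' ha0
  rw [div_eq_mul_inv, map_mul, Algebra.norm_inv, Place.ord_mul _ (Algebra.norm_ne_zero_iff.mpr haF)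
    (inv_ne_zero (Algebra.norm_ne_zero_iff.mpr hsF)), Place.ord_inv,
    ord_norm_algebraMap p S hS ha0, ord_norm_algebraMap p S hS hs0, ← sub_eq_add_neg,
    ← Finset.sum_sub_distrib]
  refine Finset.sum_congr rfl fun P _ => ?_
  rw [Place.ord_mul _ haF (inv_ne_zero hsF), Place.ord_inv, sub_eq_add_neg]

variable [IsScalarTower K F F']

theorem restrict_ofHeightOneSpectrum [Algebra.IsIntegral F F'] (P : HeightOneSpectrum B) (p : HeightOneSpectrum A)
    (h : P.asIdeal.under A = p.asIdeal) :
    (Place.ofHeightOneSpectrum (K := K) (F := F') P).restrict F =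
      Place.ofHeightOneSpectrum p := by
  set w := Place.ofHeightOneSpectrum (K := K) (F := F') P with hw
  have hA : ∀ r : A, algebraMap A F r ∈ (w.restrict F).toValuationSubring := by
    intro r
    rw [Place.mem_restrict_iff, ← IsScalarTower.algebraMap_apply A F F',
      IsScalarTower.algebraMap_apply A B F']
    exact algebraMap_mem_ofHeightOneSpectrum P _
  obtain ⟨p', hp'⟩ := exists_eq_ofHeightOneSpectrum (w.restrict F) hA
  rw [hp']
  congr 1
  apply HeightOneSpectrum.ext
  rw [← h]
  ext a
  rcases eq_or_ne a 0 with rfl | ha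
  · simp
  have hinj : Function.Injective (algebraMap A B) :=
    algebraMap_injective_of_field_isFractionRing A B F F'
  have hb : algebraMap A B a ≠ 0 := fun h0 => ha (hinj (by rw [h0, map_zero]))
  rw [← pos_ord_iff_mem (K := K) (F := F) p' ha, ← hp', Ideal.mem_comap,
    ← pos_ord_iff_mem (K := K) (F := F') P hb, ← IsScalarTower.algebraMap_apply A B F',
    IsScalarTower.algebraMap_apply A F F', w.ord_restrict]
  have he : 0 < Place.ramificationIndex (F := F) w := w.ramificationIndex_pos
  constructor
  · intro h1
    positivity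
  · intro h1
    by_contra h2
    push Not at h2
    have : (Place.ramificationIndex (F := F) w : ℤ) * (w.restrict F).ord (algebraMap A F a) ≤ 0 :=
      mul_nonpos_of_nonneg_of_nonpos (by positivity) h2
    omega

theorem exists_ofHeightOneSpectrum_of_restrict [Algebra.IsIntegral F F'] (w : Place K F') (p : HeightOneSpectrum A)
    (h : w.restrict F = Place.ofHeightOneSpectrum p) :
    ∃ P : HeightOneSpectrum B, P.asIdeal.under A = p.asIdeal ∧
      w = Place.ofHeightOneSpectrum P := by
  have hA : ∀ r : A, algebraMap A F' r ∈ w.toValuationSubring := by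
    intro r
    rw [IsScalarTower.algebraMap_apply A F F', ← Place.mem_restrict_iff, h]
    exact algebraMap_mem_ofHeightOneSpectrum p _
  have hB : ∀ r : B, algebraMap B F' r ∈ w.toValuationSubring := by
    intro b
    have hb : IsIntegral A b := Algebra.IsIntegral.isIntegral b
    obtain ⟨q, hq, hq0⟩ := hb
    let φ : A →+* w.toValuationSubring :=
      (algebraMap A F').codRestrict w.toValuationSubring.toSubring hA
    have h1 : IsIntegral w.toValuationSubring (algebraMap B F' b) := by
      refine ⟨q.map φ, hq.map φ, ?_⟩
      rw [Polynomial.eval₂_map]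
      have : (algebraMap w.toValuationSubring F').comp φ = (algebraMap B F').comp (algebraMap A B) := by
        ext a
        exact IsScalarTower.algebraMap_apply A B F' a
      rw [this, ← Polynomial.hom_eval₂, hq0, map_zero]
    obtain ⟨x, hx⟩ := IsIntegrallyClosed.isIntegral_iff.1 h1
    rw [← hx]
    exact x.2
  obtain ⟨P, hP⟩ := exists_eq_ofHeightOneSpectrum w hB
  refine ⟨P, ?_, hP⟩
  have hu0 : P.asIdeal.under A ≠ ⊥ := by
    haveI : Algebra.IsIntegral A B := inferInstance
    have hinj : Function.Injective (algebraMap A B) :=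
      algebraMap_injective_of_field_isFractionRing A B F F'
    haveI : FaithfulSMul A B := (faithfulSMul_iff_algebraMap_injective A B).mpr hinj
    intro h0
    exact P.ne_bot (Ideal.eq_bot_of_comap_eq_bot h0)
  let p' : HeightOneSpectrum A := ⟨P.asIdeal.under A, inferInstance, hu0⟩
  have h2 := restrict_ofHeightOneSpectrum (K := K) (F := F) (F' := F') P p' rfl
  rw [← hP, h] at h2
  have := ofHeightOneSpectrum_injective h2
  rw [this]

theorem ord_norm_eq_sum_fiber [IsAlgClosed K] [CharZero K] [Algebra.FiniteType K B]
    [FiniteDimensional F F'] [HasPrincipalDivisors K F']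
    (p : HeightOneSpectrum A) {f : F'} (hf : f ≠ 0) :
    (Place.ofHeightOneSpectrum (K := K) p).ord (Algebra.norm F f) =
      ∑ w ∈ (Place.ofHeightOneSpectrum (K := K) (F := F) p).fiber F', w.ord f := by
  classical
  set v := Place.ofHeightOneSpectrum (K := K) (F := F) p with hv
  let S : Finset (HeightOneSpectrum B) :=
    (v.fiber F').preimage (Place.ofHeightOneSpectrum (K := K) (F := F'))
      (ofHeightOneSpectrum_injective.injOn)
  have hS : ∀ P, P ∈ S ↔ P.asIdeal.under A = p.asIdeal := by
    intro P
    rw [Finset.mem_preimage, Place.mem_fiber]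
    constructor
    · intro h
      obtain ⟨P', hP', h'⟩ := exists_ofHeightOneSpectrum_of_restrict (B := B) _ p h
      rw [ofHeightOneSpectrum_injective h']
      exact hP'
    · intro h
      exact restrict_ofHeightOneSpectrum P p h
  rw [ord_norm p S hS hf]
  have himg : v.fiber F' = S.image (Place.ofHeightOneSpectrum (K := K) (F := F')) := by
    ext w
    rw [Finset.mem_image, Place.mem_fiber]
    constructor
    · intro h
      obtain ⟨P', hP', h'⟩ := exists_ofHeightOneSpectrum_of_restrict (B := B) _ p h
      exact ⟨P', (hS P').2 hP', h'.symm⟩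
    · rintro ⟨P, hP, rfl⟩
      exact restrict_ofHeightOneSpectrum P p ((hS P).1 hP)
  rw [himg, Finset.sum_image (fun _ _ _ _ h => ofHeightOneSpectrum_injective h)]

end Abstract

section Concrete

variable {K F F' : Type*} [Field K] [Field F] [Field F']
  [Algebra K F] [Algebra K F'] [Algebra F F'] [IsScalarTower K F F']

/-- a finite parameter stays a finite parameter in a finite extension. -/
theorem isFiniteParam_algebraMap [FiniteDimensional F F'] {y : F} (hy : IsFiniteParam K y) :
    IsFiniteParam K (algebraMap F F' y) := by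
  refine ⟨?_, ?_⟩
  · exact (transcendental_algebraMap_iff (algebraMap F F').injective).2 hy.transcendental
  · haveI := hy.finite
    have hmem : ∀ x : K⟮y⟯, algebraMap F F' (x : F) ∈ K⟮algebraMap F F' y⟯ := by
      intro x
      have h1 : (K⟮y⟯).map (IsScalarTower.toAlgHom K F F') = K⟮algebraMap F F' y⟯ := by
        rw [IntermediateField.adjoin_map]
        simp
      rw [← h1]
      exact ⟨x, x.2, rfl⟩
    haveI : FiniteDimensional K⟮y⟯ F' := Module.Finite.trans F F'
    letI : Algebra K⟮y⟯ K⟮algebraMap F F' y⟯ :=
      (((algebraMap F F').comp (algebraMap K⟮y⟯ F)).codRestrict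
        K⟮algebraMap F F' y⟯.toSubfield.toSubring hmem).toAlgebra
    haveI : IsScalarTower K⟮y⟯ K⟮algebraMap F F' y⟯ F' := IsScalarTower.of_algebraMap_eq fun _ => rfl
    exact Module.Finite.of_restrictScalars_finite K⟮y⟯ K⟮algebraMap F F' y⟯ F'

variable [IsAlgClosed K] [CharZero K]

theorem inertiaDeg_eq_one' [FiniteDimensional F F'] {y : F} (hy : IsFiniteParam K y)
    (w : Place K F') : w.inertiaDeg F = 1 := by
  have h := w.deg_restrict_mul_inertiaDeg (F := F)
  rw [hy.deg_eq_one, (isFiniteParam_algebraMap (F' := F') hy).deg_eq_one, one_mul] at h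
  exact h

theorem ord_norm_eq_sum_fiber_of_mem [FiniteDimensional F F'] [HasPrincipalDivisors K F']
    {z : F} (hz : IsFiniteParam K z) (v : Place K F) (hzv : z ∈ v.toValuationSubring)
    {f : F'} (hf : f ≠ 0) :
    v.ord (Algebra.norm F f) = ∑ w ∈ v.fiber F', w.ord f := by
  haveI := hz.isDedekindDomain
  haveI := hz.isFractionRing
  haveI := IsFiniteParam.isScalarTower_intRing (K := K) (y := z)
  haveI := hz.finiteType_intRing
  obtain ⟨p, rfl⟩ := hz.exists_eq_place v hzv
  haveI : CharZero F := charZero_of_injective_algebraMap (algebraMap K F).injective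
  haveI : IsScalarTower (intRing K z) F F' := inferInstance
  haveI : IsScalarTower K (intRing K z) F' := IsScalarTower.of_algebraMap_eq fun a => by
    rw [IsScalarTower.algebraMap_apply K F F']
    rfl
  let B := integralClosure (intRing K z) F'
  haveI : IsDedekindDomain B := integralClosure.isDedekindDomain (intRing K z) F F'
  haveI : IsFractionRing B F' := integralClosure.isFractionRing_of_finite_extension F F'
  haveI : Module.Finite (intRing K z) B := IsIntegralClosure.finite (intRing K z) F F' B
  haveI : IsScalarTower K B F' := IsScalarTower.of_algebraMap_eq fun _ => rfl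
  haveI : IsScalarTower K (intRing K z) B := IsScalarTower.of_algebraMap_eq fun a => by
    apply Subtype.ext
    exact IsScalarTower.algebraMap_apply K (intRing K z) F' a
  haveI : IsScalarTower (intRing K z) B F' := IsScalarTower.of_algebraMap_eq fun _ => rfl
  have hinj : Function.Injective (algebraMap (intRing K z) B) :=
    algebraMap_injective_of_field_isFractionRing (intRing K z) B F F'
  haveI : FaithfulSMul (intRing K z) B := (faithfulSMul_iff_algebraMap_injective _ B).mpr hinj
  haveI : Module.IsTorsionFree (intRing K z) B := inferInstance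
  haveI : Algebra.FiniteType K B :=
    Algebra.FiniteType.trans (S := intRing K z) inferInstance inferInstance
  exact ord_norm_eq_sum_fiber (A := intRing K z) (B := B) p hf

/-- **Norm formula**, pointwise form. -/
theorem ord_norm_eq_sum_fiber' [FiniteDimensional F F'] [HasPrincipalDivisors K F']
    {y : F} (hy : IsFiniteParam K y) (v : Place K F) {f : F'} (hf : f ≠ 0) :
    v.ord (Algebra.norm F f) = ∑ w ∈ v.fiber F', w.ord f := by
  rcases v.toValuationSubring.mem_or_inv_mem y with h | h
  · exact ord_norm_eq_sum_fiber_of_mem hy v h hf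
  · exact ord_norm_eq_sum_fiber_of_mem hy.inv v h hf

/-- **Norm formula** `α_*(div f) = div (N f)`. -/
theorem pushforwardNormFormula [FiniteDimensional F F'] {y : F} (hy : IsFiniteParam K y) :
    Divisor.PushforwardNormFormula K F F' := by
  classical
  haveI : HasPrincipalDivisors K F' := (isFiniteParam_algebraMap (F' := F') hy).hasPrincipalDivisors
  intro f hf D hD v
  rw [Divisor.pushforward_apply, ord_norm_eq_sum_fiber' hy v hf, ← Finset.sum_filter]
  have h1 : ∀ w ∈ D.support.filter (fun w => w.restrict F = v),
      D w * (w.inertiaDeg F : ℤ) = w.ord f := by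
    intro w _
    rw [inertiaDeg_eq_one' hy w, hD w]
    simp
  rw [Finset.sum_congr rfl h1]
  refine Finset.sum_subset ?_ ?_
  · intro w hw
    rw [Finset.mem_filter] at hw
    exact Place.mem_fiber.2 hw.2
  · intro w hw hw'
    rw [Finset.mem_filter, not_and'] at hw'
    have := hw' (Place.mem_fiber.1 hw)
    rw [Finsupp.mem_support_iff, not_not, hD w] at this
    exact this

/-- `∑ e_w f_w = [F' : F]`. -/
theorem sumRamificationInertia [FiniteDimensional F F'] [HasPrincipalDivisors K F']
    {y : F} (hy : IsFiniteParam K y) :
    SumRamificationInertia K F F' where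
  sum_ramificationIndex_mul_inertiaDeg v := by
    obtain ⟨t, ht0, -, ht⟩ := Place.exists_uniformizer v
    have h := ord_norm_eq_sum_fiber' (F' := F') hy v (f := algebraMap F F' t) (by simpa using ht0)
    rw [Algebra.norm_algebraMap, Place.ord_pow, ht, mul_one] at h
    rw [h]
    refine Finset.sum_congr rfl fun w hw => ?_
    rw [inertiaDeg_eq_one' hy w, w.ord_restrict, Place.mem_fiber.1 hw, ht]
    simp

theorem fundamentalIdentity [FiniteDimensional F F'] [HasPrincipalDivisors K F']
    {y : F} (hy : IsFiniteParam K y) : FundamentalIdentity K F F' :=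
  haveI := sumRamificationInertia (F' := F') hy
  inferInstance

/-- every place of `F` has a place of `F'` above it. -/
theorem fiber_nonempty [FiniteDimensional F F'] [HasPrincipalDivisors K F']
    {y : F} (hy : IsFiniteParam K y) (v : Place K F) : (v.fiber F').Nonempty := by
  by_contra h
  rw [Finset.not_nonempty_iff_eq_empty] at h
  have h1 := (sumRamificationInertia (F' := F') hy).sum_ramificationIndex_mul_inertiaDeg v
  rw [h, Finset.sum_empty] at h1
  have : 0 < Module.finrank F F' := Module.finrank_pos
  omega

theorem restrict_surjective [FiniteDimensional F F'] {y : F} (hy : IsFiniteParam K y) :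
    Function.Surjective (fun w : Place K F' => w.restrict F) := by
  haveI : HasPrincipalDivisors K F' := (isFiniteParam_algebraMap (F' := F') hy).hasPrincipalDivisors
  intro v
  obtain ⟨w, hw⟩ := fiber_nonempty (F' := F') hy v
  exact ⟨w, Place.mem_fiber.1 hw⟩

/-- `∑_{w ∣ v} e_w = [F' : F]`. -/
theorem sum_ramificationIndex [FiniteDimensional F F'] [HasPrincipalDivisors K F']
    {y : F} (hy : IsFiniteParam K y) (v : Place K F) :
    ∑ w ∈ v.fiber F', (w.ramificationIndex F : ℤ) = (Module.finrank F F' : ℤ) := by
  rw [← (sumRamificationInertia (F' := F') hy).sum_ramificationIndex_mul_inertiaDeg v]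
  refine Finset.sum_congr rfl fun w _ => ?_
  rw [inertiaDeg_eq_one' hy w]
  simp

/-- pushforward of divisors is `mapRestrict` (all inertia degrees are `1`). -/
theorem pushforward_eq_mapRestrict [FiniteDimensional F F'] {y : F} (hy : IsFiniteParam K y)
    (D : Divisor K F') : Divisor.pushforward F D = Divisor.mapRestrict F D := by
  induction D using Finsupp.induction with
  | zero => simp
  | single_add w n D _ _ ih =>
    rw [map_add, map_add, ih, Divisor.pushforward_single, Divisor.mapRestrict_single,
      inertiaDeg_eq_one' hy w]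
    simp

end Concrete

section Along

variable {K F F' : Type*} [Field K] [Field F] [Field F'] [Algebra K F] [Algebra K F']

/-- any `K`-embedding of function fields of curves is finite. -/
theorem finiteAlong (φ : F →ₐ[K] F') {y : F} (hy : IsFiniteParam K y) {y' : F'}
    (hy' : IsFiniteParam K y') : FiniteAlong K φ := by
  letI := algebraAlong φ
  haveI := isScalarTower_along φ
  have h1 : Transcendental K (φ y) :=
    (transcendental_algebraMap_iff (algebraMap F F').injective).2 hy.transcendental
  have h2 := hy'.of_transcendental h1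
  haveI := h2.finite
  show Module.Finite F F'
  have hle : ∀ x : K⟮φ y⟯, (x : F') ∈ φ.range := by
    have : K⟮φ y⟯ ≤ φ.fieldRange := by
      rw [adjoin_simple_le_iff]
      exact ⟨y, rfl⟩
    intro x
    exact this x.2
  let e := AlgEquiv.ofInjectiveField φ
  let ι : K⟮φ y⟯ →+* φ.range := (algebraMap K⟮φ y⟯ F').codRestrict φ.range.toSubring hle
  letI : Algebra K⟮φ y⟯ F := ((e.symm : φ.range →+* F).comp ι).toAlgebra
  haveI : IsScalarTower K⟮φ y⟯ F F' := IsScalarTower.of_algebraMap_eq fun x => by
    show (x : F') = φ (e.symm (ι x))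
    have : φ (e.symm (ι x)) = ((e (e.symm (ι x)) : φ.range) : F') := rfl
    rw [this, e.apply_symm_apply]
    rfl
  exact Module.Finite.of_restrictScalars_finite K⟮φ y⟯ F F'

theorem isIntegralAlong (φ : F →ₐ[K] F') (h : FiniteAlong K φ) : φ.toRingHom.IsIntegral := by
  letI := algebraAlong φ
  haveI : Module.Finite F F' := h
  exact Algebra.IsIntegral.isIntegral (R := F) (A := F')

variable [IsAlgClosed K] [CharZero K]

theorem normFormulaAlong (φ : F →ₐ[K] F') (hfin : FiniteAlong K φ) {y : F}
    (hy : IsFiniteParam K y) : NormFormulaAlong K φ hfin := by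
  letI := algebraAlong φ
  haveI := isScalarTower_along φ
  haveI : Module.Finite F F' := hfin
  exact pushforwardNormFormula hy

theorem fundamentalIdentityAlong (φ : F →ₐ[K] F') (hφ : φ.toRingHom.IsIntegral)
    (hfin : FiniteAlong K φ) [HasPrincipalDivisors K F'] {y : F}
    (hy : IsFiniteParam K y) : FundamentalIdentityAlong K φ hφ := by
  letI := algebraAlong φ
  haveI := isScalarTower_along φ
  haveI : Module.Finite F F' := hfin
  exact fundamentalIdentity hy

end Along

end Fermat.Agent.GAL.FFExt
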