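import Fermat.Agent.GAL.FFExt

/-!
# Semilinear automorphisms commute with push / pull / correspondences
-/

set_option autoImplicit false
set_option linter.style.haveILetI false
set_option linter.unusedSectionVars false

open AlgebraicCurve IsDedekindDomain IntermediateField
open scoped Pointwise

namespace Fermat.Agent.GAL.FFSemi

open Fermat.Agent.S24 Fermat.Agent.GAL.FFExt

variable {K F F' : Type*} [Field K] [Field F] [Field F'] [Algebra K F] [Algebra K F']

/-- compatibility of semilinear automorphisms along `φ`. -/
def Compat (φ : F →ₐ[K] F') (g : SemilinearAut K F) (g' : SemilinearAut K F') : Prop :=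
  ∀ x : F, φ (g • x) = g' • φ x

theorem Compat.inv {φ : F →ₐ[K] F'} {g : SemilinearAut K F} {g' : SemilinearAut K F'}
    (h : Compat φ g g') : Compat φ g⁻¹ g'⁻¹ := by
  intro x
  have h1 := h (g⁻¹ • x)
  rw [smul_inv_smul] at h1
  rw [h1, inv_smul_smul]

variable (φ : F →ₐ[K] F') (hφ : φ.toRingHom.IsIntegral)
  {g : SemilinearAut K F} {g' : SemilinearAut K F'}

theorem mem_restrictAlong_iff (w : Place K F') (f : F) :
    f ∈ (w.restrictAlong φ hφ).toValuationSubring ↔ φ f ∈ w.toValuationSubring := Iff.rfl

theorem restrictAlong_smul (h : Compat φ g g') (w : Place K F') :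
    (g' • w).restrictAlong φ hφ = g • w.restrictAlong φ hφ := by
  apply Place.ext
  ext f
  rw [mem_restrictAlong_iff, SemilinearAut.smul_toValuationSubring,
    SemilinearAut.smul_toValuationSubring,
    ValuationSubring.mem_pointwise_smul_iff_inv_smul_mem,
    ValuationSubring.mem_pointwise_smul_iff_inv_smul_mem, mem_restrictAlong_iff, h.inv f]

include hφ in
theorem ramificationIndexAlong_smul (h : Compat φ g g') (w : Place K F') :
    Place.ramificationIndexAlong φ (g' • w) = Place.ramificationIndexAlong φ w := by
  obtain ⟨t, ht0, -, ht⟩ := Place.exists_uniformizer (w.restrictAlong φ hφ)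
  have h1 := Place.ord_restrictAlong φ hφ (g' • w) (g • t)
  rw [h t, SemilinearAut.ord_smul, restrictAlong_smul φ hφ h, SemilinearAut.ord_smul,
    Place.ord_restrictAlong φ hφ, ht, mul_one, mul_one] at h1
  exact_mod_cast h1.symm

theorem pullbackAlong_smul [HasPrincipalDivisors K F'] (h : Compat φ g g') (D : Divisor K F) :
    Divisor.pullbackAlong φ hφ (g • D) = g' • Divisor.pullbackAlong φ hφ D := by
  ext w
  rw [Divisor.pullbackAlong_apply, SemilinearAut.divisor_smul_apply,
    SemilinearAut.divisor_smul_apply, Divisor.pullbackAlong_apply,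
    restrictAlong_smul φ hφ h.inv, ramificationIndexAlong_smul φ hφ h.inv]

theorem pushforwardAlong_smul [IsAlgClosed K] [CharZero K] (hfin : FiniteAlong K φ) {y : F}
    (hy : IsFiniteParam K y) (h : Compat φ g g') (D : Divisor K F') :
    Divisor.pushforwardAlong φ hφ (g' • D) = g • Divisor.pushforwardAlong φ hφ D := by
  have hf : ∀ w : Place K F', w.inertiaDegAlong φ hφ = 1 := by
    intro w
    letI := algebraAlong φ
    haveI := isScalarTower_along φ
    haveI : Module.Finite F F' := hfin
    exact inertiaDeg_eq_one' hy w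
  induction D using Finsupp.induction with
  | zero => simp
  | single_add w n D _ _ ih =>
    rw [smul_add, map_add, map_add, smul_add, ih, SemilinearAut.smul_single,
      Divisor.pushforwardAlong_single, Divisor.pushforwardAlong_single,
      SemilinearAut.smul_single, restrictAlong_smul φ hφ h, hf, hf]

theorem correspondence_smul [IsAlgClosed K] [CharZero K] [HasPrincipalDivisors K F']
    (ψ : F →ₐ[K] F') (hψ : ψ.toRingHom.IsIntegral) (hfin : FiniteAlong K ψ) {y : F}
    (hy : IsFiniteParam K y) (h : Compat φ g g') (h' : Compat ψ g g') (D : Divisor K F) :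
    Divisor.correspondence φ ψ hφ hψ (g • D) = g • Divisor.correspondence φ ψ hφ hψ D := by
  rw [Divisor.correspondence_apply, Divisor.correspondence_apply, pullbackAlong_smul φ hφ h,
    pushforwardAlong_smul ψ hψ hfin hy h']

theorem pic0_correspondence_smul [IsAlgClosed K] [CharZero K] [HasPrincipalDivisors K F']
    (ψ : F →ₐ[K] F') (hψ : ψ.toRingHom.IsIntegral)
    (hFI : FundamentalIdentityAlong K φ hφ)
    (hfin : FiniteAlong K ψ) (hN : NormFormulaAlong K ψ hfin) {y : F}
    (hy : IsFiniteParam K y) (h : Compat φ g g') (h' : Compat ψ g g') (x : Pic0 K F) :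
    Pic0.correspondence φ ψ hφ hψ hFI hfin hN (g • x) =
      g • Pic0.correspondence φ ψ hφ hψ hFI hfin hN x := by
  obtain ⟨D, rfl⟩ := Pic0.mk_surjective x
  rw [SemilinearAut.pic0_smul_mk, Pic0.correspondence_mk, Pic0.correspondence_mk,
    SemilinearAut.pic0_smul_mk]
  congr 1
  apply Subtype.ext
  rw [Pic0.coe_degZeroCorrespondence, SemilinearAut.coe_degZeroSMulHom,
    SemilinearAut.coe_degZeroSMulHom, Pic0.coe_degZeroCorrespondence]
  exact correspondence_smul φ hφ ψ hψ hfin hy h h' D

end Fermat.Agent.GAL.FFSemi
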