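import Fermat.Agent.GAL.Assemble2

/-!
# Abstract assembly of S29 from good primes only (project GAL)

No Hecke-module structure, no commutativity of Hecke operators, no tensor products.

`Big p k J := (k →+ ZMod p) →+ J` is a `k`-vector space (`k` acts on the source), on which the
additive endomorphisms of `J` act `k`-linearly (on the target).  A `k`-valued eigen-character `c`
and the support map `κ` give `X λ := κ (λ ∘ c)`, an eigenvector of all good Hecke operators in
`Big p k J`.
-/

set_option autoImplicit false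

namespace Fermat.Agent.GAL.Glue

local notation "Qbar" => AlgebraicClosure ℚ
local notation "GQ" => (AlgebraicClosure ℚ ≃ₐ[ℚ] AlgebraicClosure ℚ)

section Big

variable (p : ℕ) (k : Type*) [CommRing k] (J : Type*) [AddCommGroup J]

/-- multiplication by `a` on additive functionals -/
def mulF (a : k) : (k →+ ZMod p) →+ (k →+ ZMod p) where
  toFun lam := lam.comp (AddMonoidHom.mulLeft a)
  map_zero' := rfl
  map_add' _ _ := rfl

/-- the big module -/
def Big : Type _ := (k →+ ZMod p) →+ J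

instance : AddCommGroup (Big p k J) := inferInstanceAs (AddCommGroup ((k →+ ZMod p) →+ J))

variable {p k J}

theorem mulF_apply (a : k) (lam : k →+ ZMod p) (x : k) : mulF p k a lam x = lam (a * x) := rfl

namespace Big

/-- the underlying additive map -/
def hom (Y : Big p k J) : (k →+ ZMod p) →+ J := Y

theorem ext {Y Y' : Big p k J} (h : ∀ lam, hom Y lam = hom Y' lam) : Y = Y' :=
  AddMonoidHom.ext h

theorem add_apply (Y Y' : Big p k J) (lam : k →+ ZMod p) :
    hom (Y + Y') lam = hom Y lam + hom Y' lam := rfl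

theorem sub_apply (Y Y' : Big p k J) (lam : k →+ ZMod p) :
    hom (Y - Y') lam = hom Y lam - hom Y' lam := rfl

theorem zero_apply (lam : k →+ ZMod p) : hom (0 : Big p k J) lam = 0 := rfl

theorem nsmul_apply (n : ℕ) (Y : Big p k J) (lam : k →+ ZMod p) :
    hom (n • Y) lam = n • hom Y lam := rfl

instance : SMul k (Big p k J) := ⟨fun a Y => (hom Y).comp (mulF p k a)⟩

theorem smul_apply (a : k) (Y : Big p k J) (lam : k →+ ZMod p) :
    hom (a • Y) lam = hom Y (mulF p k a lam) := rfl

instance : Module k (Big p k J) where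
  one_smul Y := by
    apply ext; intro lam
    rw [smul_apply]; congr 1
    ext x; rw [mulF_apply, one_mul]
  mul_smul a b Y := by
    apply ext; intro lam
    rw [smul_apply, smul_apply, smul_apply]; congr 1
    ext x; rw [mulF_apply, mulF_apply, mulF_apply, mul_assoc]
  smul_zero _ := rfl
  smul_add _ _ _ := rfl
  add_smul a b Y := by
    apply ext; intro lam
    rw [smul_apply, add_apply, smul_apply, smul_apply, ← map_add]; congr 1
    ext x
    rw [AddMonoidHom.add_apply, mulF_apply, mulF_apply, mulF_apply, add_mul, map_add]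
  zero_smul Y := by
    apply ext; intro lam
    have h : mulF p k 0 lam = 0 := by
      ext x; rw [mulF_apply, zero_mul, map_zero]; rfl
    rw [smul_apply, h, map_zero]; rfl

/-- post-composition with an additive endomorphism of `J` -/
def post (f : J →+ J) : Big p k J →ₗ[k] Big p k J where
  toFun Y := f.comp (hom Y)
  map_add' Y Y' := by
    apply ext; intro lam
    exact map_add f _ _
  map_smul' _ _ := rfl

theorem post_apply (f : J →+ J) (Y : Big p k J) (lam : k →+ ZMod p) :
    hom (post f Y) lam = f (hom Y lam) := rfl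

/-- every value of an element of the big module is killed by `p` -/
theorem nsmul_hom_eq_zero (Y : Big p k J) (lam : k →+ ZMod p) : p • hom Y lam = 0 := by
  rw [← map_nsmul]
  have h : p • lam = 0 := by
    ext x
    rw [AddMonoidHom.nsmul_apply, AddMonoidHom.zero_apply, nsmul_eq_mul, ZMod.natCast_self,
      zero_mul]
  rw [h, map_zero]

variable {G : Type*} [Group G] [DistribMulAction G J]

/-- the representation of `G` on the big module -/
def rep : G →* Module.End k (Big p k J) where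
  toFun σ := post (DistribMulAction.toAddMonoidHom J σ)
  map_one' := by
    apply LinearMap.ext; intro Y
    apply ext; intro lam
    rw [post_apply]
    exact one_smul G _
  map_mul' σ τ := by
    apply LinearMap.ext; intro Y
    apply ext; intro lam
    rw [post_apply]
    exact mul_smul σ τ _

theorem rep_apply (σ : G) (Y : Big p k J) (lam : k →+ ZMod p) :
    hom (rep (k := k) (p := p) σ Y) lam = σ • hom Y lam := rfl

instance : MulAction G (Big p k J) where
  smul σ Y := rep σ Y
  one_smul Y := by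
    change rep (1 : G) Y = Y
    rw [map_one]; rfl
  mul_smul σ τ Y := by
    change rep (σ * τ) Y = rep σ (rep τ Y)
    rw [map_mul]; rfl

theorem smul_def (σ : G) (Y : Big p k J) : σ • Y = rep σ Y := rfl

end Big

end Big

/-- finitely many elements with open stabilisers have a common open stabiliser -/
theorem exists_common_level {J : Type*} [AddCommGroup J] [DistribMulAction GQ J] (S : Set J)
    (hS : S.Finite)
    (h : ∀ x ∈ S, ∃ L : IntermediateField ℚ Qbar, FiniteDimensional ℚ L ∧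
      ∀ σ : GQ, (∀ y ∈ L, σ y = y) → σ • x = x) :
    ∃ L : IntermediateField ℚ Qbar, FiniteDimensional ℚ L ∧
      ∀ σ : GQ, (∀ y ∈ L, σ y = y) → ∀ x ∈ S, σ • x = x := by
  induction S, hS using Set.Finite.induction_on with
  | empty => exact ⟨⊥, inferInstance, fun _ _ x hx => absurd hx (Set.notMem_empty x)⟩
  | @insert a S _ _ ih =>
    obtain ⟨L₁, hL₁, h₁⟩ := ih fun x hx => h x (Set.mem_insert_of_mem a hx)
    obtain ⟨L₂, hL₂, h₂⟩ := h a (Set.mem_insert a S)
    refine ⟨L₁ ⊔ L₂, IntermediateField.finiteDimensional_sup L₁ L₂, fun σ hσ x hx => ?_⟩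
    rcases Set.mem_insert_iff.mp hx with rfl | hx
    · exact h₂ σ fun y hy => hσ y ((le_sup_right : L₂ ≤ L₁ ⊔ L₂) hy)
    · exact h₁ σ (fun y hy => hσ y ((le_sup_left : L₁ ≤ L₁ ⊔ L₂) hy)) x hx

section Main

open Big QuadRep

variable {N : ℕ} [NeZero N] {g : CuspForm (CongruenceSubgroup.Gamma0 N) 2}
  {p : ℕ} {k : Type} [Field k] [CharP k p]

/-- **Abstract S29 from good primes only.** -/
theorem exists_residualGaloisRep_of_family (hp : p.Prime)
    (φ : integralClosure ℤ ℂ →+* k) (hCheb : GenCheb)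
    {J : Type*} [AddCommGroup J] [DistribMulAction GQ J]
    (T : Nat.Primes → (J →+ J))
    (hGH : ∀ ℓ : Nat.Primes, ¬ (ℓ : ℕ) ∣ N * p → ∀ (σ : GQ) (x : J), σ • T ℓ x = T ℓ (σ • x))
    (hOS : ∀ x : J, p • x = 0 → ∃ L : IntermediateField ℚ Qbar, FiniteDimensional ℚ L ∧
      ∀ σ : GQ, (∀ y ∈ L, σ y = y) → σ • x = x)
    (hunr : ∀ ℓ : ℕ, ℓ.Prime → ¬ ℓ ∣ N * p → ∀ A : ValuationSubring Qbar, A.LiesOverPrime ℓ →
      ∀ σ ∈ A.inertiaSubgroupIn ℚ, ∀ x : J, p • x = 0 → σ • x = x)
    (hquad : ∀ ℓ : ℕ, (hℓ : ℓ.Prime) → ¬ ℓ ∣ N * p → ∀ A : ValuationSubring Qbar,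
      A.LiesOverPrime ℓ → ∀ σ : GQ, A.IsFrobeniusAt σ ℓ → ∀ x : J, p • x = 0 →
        σ • σ • x - T ⟨ℓ, hℓ⟩ (σ • x) + ℓ • x = 0)
    (a : Nat.Primes → integralClosure ℤ ℂ)
    (ha : ∀ ℓ : Nat.Primes, ¬ (ℓ : ℕ) ∣ N * p → (a ℓ : ℂ) = ModularFormClass.qCoeff g ℓ)
    (X : (k →+ ZMod p) →+ J) (hX0 : X ≠ 0) (hXfin : (Set.range X).Finite)
    (hXT : ∀ ℓ : Nat.Primes, ¬ (ℓ : ℕ) ∣ N * p → ∀ lam : k →+ ZMod p,
      T ℓ (X lam) = X (lam.comp (AddMonoidHom.mulLeft (φ (a ℓ))))) :
    ∃ ρ : ResidualGaloisRep k, ρ.IsAttachedTo g φ ∧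
      ∀ ℓ : ℕ, ℓ.Prime → ¬ ℓ ∣ N * p → ρ.IsUnramifiedAt ℓ := by
  let X' : Big p k J := X
  let r₁ : GQ →* Module.End k (Big p k J) := rep
  let W : Submodule k (Big p k J) := Submodule.span k (Set.range fun σ : GQ => r₁ σ X')
  -- open stabiliser of `X'`
  have hstab : ∃ L : IntermediateField ℚ Qbar, FiniteDimensional ℚ L ∧
      ∀ σ : GQ, (∀ y ∈ L, σ y = y) → σ • X' = X' := by
    obtain ⟨L, hL, h⟩ := exists_common_level (Set.range X) hXfin (by
      rintro _ ⟨lam, rfl⟩
      exact hOS _ (nsmul_hom_eq_zero X' lam))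
    exact ⟨L, hL, fun σ hσ => Big.ext fun lam => h σ hσ _ ⟨lam, rfl⟩⟩
  have hfd : FiniteDimensional k W :=
    FiniteDimensional.span_of_finite _ (finite_orbit_of_finiteLevel X' hstab)
  have hXmem : X' ∈ W := Submodule.subset_span ⟨1, by simp⟩
  have hnt : Nontrivial W := ⟨⟨⟨X', hXmem⟩, 0, fun h => hX0 (congrArg Subtype.val h)⟩⟩
  have hinv : ∀ σ, ∀ w ∈ W, r₁ σ w ∈ W := by
    intro σ w hw
    induction hw using Submodule.span_induction with
    | mem w hw =>
      obtain ⟨τ, rfl⟩ := hw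
      refine Submodule.subset_span ⟨σ * τ, ?_⟩
      simp [map_mul]
    | zero => simp
    | add u v _ _ hu hv => rw [map_add]; exact add_mem hu hv
    | smul c u _ hu => rw [map_smul]; exact Submodule.smul_mem _ _ hu
  -- the good Hecke operators act on `W` by scalars
  have hTW : ∀ ℓ : Nat.Primes, ¬ (ℓ : ℕ) ∣ N * p → ∀ w ∈ W, post (T ℓ) w = φ (a ℓ) • w := by
    intro ℓ hℓ w hw
    induction hw using Submodule.span_induction with
    | mem w hw =>
      obtain ⟨τ, rfl⟩ := hw
      apply Big.ext; intro lam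
      rw [post_apply, Big.smul_apply]
      change T ℓ (τ • X lam) = τ • X (mulF p k (φ (a ℓ)) lam)
      rw [← hGH ℓ hℓ, hXT ℓ hℓ]
      rfl
    | zero => simp
    | add u v _ _ hu hv => rw [map_add, hu, hv, smul_add]
    | smul c u _ hu => rw [map_smul, hu, smul_comm]
  let r₀ : GQ →* Module.End k W := restrictRep r₁ W hinv
  have hr₀ : ∀ (σ : GQ) (w : W) (lam : k →+ ZMod p),
      hom ((r₀ σ w : W) : Big p k J) lam = σ • hom (w : Big p k J) lam := fun σ w lam => rfl
  refine exists_residualGaloisRep_of_module hp φ hCheb r₀ ?_ ?_ ?_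
  · obtain ⟨L, hL, h⟩ := exists_finiteLevel_orbit X' hstab
    refine ⟨L, hL, fun σ hσ => ?_⟩
    have key : ∀ w ∈ W, r₁ σ w = w := by
      intro w hw
      induction hw using Submodule.span_induction with
      | mem w hw =>
        obtain ⟨τ, rfl⟩ := hw
        exact h σ hσ τ
      | zero => simp
      | add u v _ _ hu hv => rw [map_add, hu, hv]
      | smul c u _ hu => rw [map_smul, hu]
    ext w
    exact key w.1 w.2
  · intro ℓ hℓ hℓNp A hA σ hσ
    ext w
    apply Big.ext; intro lam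
    rw [hr₀]
    exact hunr ℓ hℓ hℓNp A hA σ hσ _ (nsmul_hom_eq_zero _ lam)
  · intro ℓ hℓ hℓNp A hA σ hσ
    refine ⟨a ⟨ℓ, hℓ⟩, ha ⟨ℓ, hℓ⟩ hℓNp, ?_⟩
    ext w
    apply Big.ext; intro lam
    have h1 := hquad ℓ hℓ hℓNp A hA σ hσ _ (nsmul_hom_eq_zero (w : Big p k J) lam)
    have h2 := hTW ⟨ℓ, hℓ⟩ hℓNp _ (r₀ σ w).2
    have h3 : hom (φ (a ⟨ℓ, hℓ⟩) • ((r₀ σ w : W) : Big p k J)) lam =
        T ⟨ℓ, hℓ⟩ (σ • hom (w : Big p k J) lam) := by
      rw [← h2, post_apply, hr₀]
    simp only [LinearMap.add_apply, LinearMap.sub_apply, Module.End.mul_apply,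
      LinearMap.smul_apply, Module.End.one_apply, LinearMap.zero_apply, Submodule.coe_add,
      Submodule.coe_sub, Submodule.coe_smul, Submodule.coe_zero, Nat.cast_smul_eq_nsmul]
    rw [Big.add_apply, Big.sub_apply, h3, hr₀, hr₀, Submodule.coe_smul_of_tower, Big.nsmul_apply]
    exact h1

end Main

end Fermat.Agent.GAL.Glue
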