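import Fermat.Agent.GAL.FFSemilinear
import Fermat.Agent.GAL.HeckeComm

/-!
# Galois and Hecke commute on `J₀(N)(ℚ̄)`

`smulCommClass_heckeModuleBar N` is the second hypothesis of the frozen statement S37
(the first one is `HeckeComm.heckeOperatorsCommuteBar N`).
-/

set_option autoImplicit false
set_option linter.style.haveILetI false
set_option linter.unusedSectionVars false

open AlgebraicCurve ModularCurve IntermediateField

namespace Fermat.Agent.GAL.HeckeGalois

open Fermat.Agent.S24 Fermat.Agent.GAL.FFExt Fermat.Agent.GAL.FFSemi Fermat.Agent.GAL.HeckeInputs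
  Fermat.Agent.GAL.HeckeComm

section
theorem coeffMap_qExpand {R S : Type*} [CommRing R] [CommRing S] (f : R →+* S) (n : ℕ)
    [NeZero n] (x : LaurentSeries R) : coeffMap f (qExpand R n x) = qExpand S n (coeffMap f x) := by
  ext k
  by_cases hk : (n : ℤ) ∣ k
  · obtain ⟨m, rfl⟩ := hk
    rw [coeffMap_coeff, qExpand_coeff_mul, qExpand_coeff_mul, coeffMap_coeff]
  · rw [coeffMap_coeff, qExpand_coeff_of_not_dvd n _ hk, qExpand_coeff_of_not_dvd n _ hk,
      map_zero]

variable (N l : ℕ) [NeZero N] [NeZero l] (σ : Kb ≃ₐ[ℚ] Kb)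

theorem compat_alpha :
    Compat (heckeAlphaBar Kb N l) (arithmeticGalois (modularFunctionFieldFull N) σ)
      (arithmeticGalois (modularFunctionFieldFull (N * l)) σ) := by
  intro x
  apply Subtype.ext
  rw [coe_heckeAlphaBar, coe_arithmeticGalois_smul, coe_arithmeticGalois_smul, coe_heckeAlphaBar]

theorem compat_beta :
    Compat (heckeBetaBar Kb N l) (arithmeticGalois (modularFunctionFieldFull N) σ)
      (arithmeticGalois (modularFunctionFieldFull (N * l)) σ) := by
  intro x
  apply Subtype.ext
  rw [coe_heckeBetaBar, coe_arithmeticGalois_smul, coe_arithmeticGalois_smul, coe_heckeBetaBar,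
    coeffMap_qExpand]

/-- Galois commutes with the Hecke correspondence. -/
theorem heckeOperatorAlong_smul (x : JZero N) :
    heckeOperatorAlong Kb N l (σ • x) = σ • heckeOperatorAlong Kb N l x := by
  rw [heckeOperatorAlong_eq' N l, heckePic0Bar, galois_smul_pic0_def, galois_smul_pic0_def]
  exact pic0_correspondence_smul _ _ _ _ _ _ _ (isFiniteParam_jF N) (compat_beta N l σ)
    (compat_alpha N l σ) x

end

variable (N : ℕ) [NeZero N] (σ : Kb ≃ₐ[ℚ] Kb)

theorem heckeOperatorBar_smul (l : Nat.Primes) (x : JZero N) :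
    heckeOperatorBar N l (σ • x) = σ • heckeOperatorBar N l x := by
  haveI : NeZero (l : ℕ) := ⟨l.2.ne_zero⟩
  rw [heckeOperatorBar_apply, heckeOperatorBar_apply]
  exact heckeOperatorAlong_smul N l σ x

theorem heckeEvalBar_smul (t : HeckeAlg) (x : JZero N) :
    heckeEvalBar (heckeOperatorsCommuteBar N) t (σ • x) =
      σ • heckeEvalBar (heckeOperatorsCommuteBar N) t x := by
  induction t using MvPolynomial.induction_on generalizing x with
  | C a =>
    rw [heckeEvalBar_C, Module.End.intCast_apply, Module.End.intCast_apply]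
    exact (map_zsmul (DistribSMul.toAddMonoidHom (JZero N) σ) a x).symm
  | add p q hp hq =>
    rw [map_add, LinearMap.add_apply, LinearMap.add_apply, hp, hq, smul_add]
  | mul_X p l hp =>
    rw [map_mul, Module.End.mul_apply, Module.End.mul_apply]
    have : heckeEvalBar (heckeOperatorsCommuteBar N) (MvPolynomial.X l) = heckeOperatorBar N l :=
      heckeEvalBar_heckeGen _ l
    rw [this, heckeOperatorBar_smul, hp]

/-- **Galois and Hecke commute on `J₀(N)(ℚ̄)`** (second hypothesis of the frozen statement S37). -/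
theorem smulCommClass_heckeModuleBar :
    letI := heckeModuleBar N
    SMulCommClass (AlgebraicClosure ℚ ≃ₐ[ℚ] AlgebraicClosure ℚ) HeckeAlg (JZero N) := by
  letI := heckeModuleBar N
  refine ⟨fun σ t x => ?_⟩
  rw [heckeModuleBar_smul_def (heckeOperatorsCommuteBar N),
    heckeModuleBar_smul_def (heckeOperatorsCommuteBar N), heckeEvalBar_smul]

end Fermat.Agent.GAL.HeckeGalois
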