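import Fermat.Agent.GAL.Glue
import Fermat.Agent.GAL.Sup.Defs
import Fermat.Agent.GAL.ChebWire

/-!
# S29 from the five interfaces of project GAL

* `GalHecke N`      : Galois commutes with the Hecke operators on `J₀(N)`      (helper96, H4)
* `OpenStab N`      : torsion points of `J₀(N)` have open stabilisers          (helper74)
* `ESUnram N p`, `ESQuad N p` : Eichler-Shimura, module-free form              (project RED)
* `SUP N m`         : the Kummer homomorphism                                  (helper88, `Sup/Main`)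
* `EigenChar g φ`   : a `k`-valued eigen-character of `Γ₀(N)`                   (helper56)
-/

set_option autoImplicit false

namespace Fermat.Agent.GAL

open CongruenceSubgroup ModularCurve
open scoped MatrixGroups
open Matrix.SpecialLinearGroup (mapGL)
open P2MW.S_ModularForm_heckeT_slash_eq_self_of_mem_Gamma0.ModularForm.HeckeSlashInvariance

local notation "Qbar" => AlgebraicClosure ℚ
local notation "GQ" => (AlgebraicClosure ℚ ≃ₐ[ℚ] AlgebraicClosure ℚ)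

/-- Galois commutes with Hecke on `J₀(N)`. -/
def GalHecke (N : ℕ) [NeZero N] : Prop :=
  ∀ (ℓ : Nat.Primes) (σ : GQ) (x : JZero N),
    σ • heckeOperatorBar N ℓ x = heckeOperatorBar N ℓ (σ • x)

/-- Torsion points of `J₀(N)` have open stabilisers. -/
def OpenStab (N : ℕ) : Prop :=
  ∀ m : ℕ, m ≠ 0 → ∀ x : JZero N, m • x = 0 →
    ∃ L : IntermediateField ℚ Qbar, FiniteDimensional ℚ L ∧
      ∀ σ : GQ, (∀ y ∈ L, σ y = y) → σ • x = x

/-- The `p`-power torsion of `J₀(N)` is unramified outside `N p` (module-free form). -/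
def ESUnram (N p : ℕ) : Prop :=
  ∀ ℓ : ℕ, ℓ.Prime → ¬ ℓ ∣ N * p → ∀ A : ValuationSubring Qbar, A.LiesOverPrime ℓ →
    ∀ σ ∈ A.inertiaSubgroupIn ℚ, ∀ x : JZero N, (∃ n : ℕ, p ^ n • x = 0) → σ • x = x

/-- The Eichler-Shimura relation on the `p`-power torsion of `J₀(N)` (module-free form). -/
def ESQuad (N p : ℕ) [NeZero N] : Prop :=
  ∀ ℓ : ℕ, (hℓ : ℓ.Prime) → ¬ ℓ ∣ N * p → ∀ A : ValuationSubring Qbar, A.LiesOverPrime ℓ →
    ∀ σ : GQ, A.IsFrobeniusAt σ ℓ → ∀ x : JZero N, (∃ n : ℕ, p ^ n • x = 0) →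
      σ • σ • x - heckeOperatorBar N ⟨ℓ, hℓ⟩ (σ • x) + ℓ • x = 0

/-- **(SUP_m)**: the Kummer homomorphism. -/
def SUP (N m : ℕ) [NeZero N] : Prop :=
  ∃ κ : GoodHom N m →+ JZero N, Function.Injective κ ∧
    ∀ (ℓ : Nat.Primes), ¬ (ℓ : ℕ) ∣ N → ∀ c c' : GoodHom N m,
      (haveI : NeZero (ℓ : ℕ) := ⟨ℓ.2.ne_zero⟩
       IsTransfer (ℓ : ℕ) (c : Additive (Gamma0 N) →+ ZMod m) c') →
        heckeOperatorBar N ℓ (κ c) = κ c'

/-- A `k`-valued eigen-character of `Γ₀(N)` with the eigenvalues of `g` reduced along `φ`. -/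
def EigenChar {N : ℕ} (g : CuspForm (Gamma0 N) 2) {k : Type} [Field k]
    (φ : integralClosure ℤ ℂ →+* k) : Prop :=
  ∃ (a : Nat.Primes → integralClosure ℤ ℂ) (c : Additive (Gamma0 N) →+ k),
    (∀ ℓ : Nat.Primes, ¬ (ℓ : ℕ) ∣ N → (a ℓ : ℂ) = ModularFormClass.qCoeff g ℓ) ∧ c ≠ 0 ∧
    (∀ γ : Gamma0 N, IsSmall γ → c (Additive.ofMul γ) = 0) ∧
    ∀ ℓ : Nat.Primes, ¬ (ℓ : ℕ) ∣ N →
      haveI : NeZero (ℓ : ℕ) := ⟨ℓ.2.ne_zero⟩
      ∀ (γ : Gamma0 N) (σ : Equiv.Perm (OnePoint (ZMod (ℓ : ℕ))))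
        (d : OnePoint (ZMod (ℓ : ℕ)) → Gamma0 N),
        (∀ x, heckeRep ℓ x * mapGL ℝ (γ : SL(2, ℤ)) =
          mapGL ℝ (d x : SL(2, ℤ)) * heckeRep ℓ (σ x)) →
        ∑ x, c (Additive.ofMul (d x)) = φ (a ℓ) * c (Additive.ofMul γ)

/-- `Hom(Γ₀(N), ℤ/m)` is finite. -/
theorem finite_addHom_Gamma0 (N m : ℕ) [NeZero N] [NeZero m] :
    Finite (Additive (Gamma0 N) →+ ZMod m) := by
  have h0 : Group.FG SL(2, ℤ) :=
    Group.fg_iff.mpr ⟨{ModularGroup.S, ModularGroup.T}, SpecialLinearGroup.SL2Z_generators,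
      by simp⟩
  have hfg : Group.FG (Gamma0 N) := Subgroup.fg_of_index_ne_zero _
  obtain ⟨S, hS, hSfin⟩ := Group.fg_iff.mp hfg
  have : Finite S := hSfin
  let f : (Additive (Gamma0 N) →+ ZMod m) → (S → ZMod m) :=
    fun c s => c (Additive.ofMul (s : Gamma0 N))
  refine Finite.of_injective f fun c c' h => ?_
  have h1 : (AddMonoidHom.toMultiplicativeRight c) = (AddMonoidHom.toMultiplicativeRight c') := by
    refine MonoidHom.eq_of_eqOn_dense hS fun s hs => ?_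
    exact congrArg Multiplicative.ofAdd (congrFun h ⟨s, hs⟩)
  exact AddMonoidHom.toMultiplicativeRight.injective h1

section Main

variable {N : ℕ} [NeZero N] {g : CuspForm (Gamma0 N) 2} {p : ℕ} {k : Type} [Field k] [CharP k p]

/-- **S29 for `N ≠ 0` from the interfaces.** -/
theorem exists_residualGaloisRep_of_interfaces (hp : p.Prime) (φ : integralClosure ℤ ℂ →+* k)
    (hGH : GalHecke N) (hOS : OpenStab N) (hU : ESUnram N p) (hQ : ESQuad N p) (hS : SUP N p)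
    (hE : EigenChar g φ) :
    ∃ ρ : ResidualGaloisRep k, ρ.IsAttachedTo g φ ∧
      ∀ ℓ : ℕ, ℓ.Prime → ¬ ℓ ∣ N * p → ρ.IsUnramifiedAt ℓ := by
  have : NeZero p := ⟨hp.ne_zero⟩
  have : Fact p.Prime := ⟨hp⟩
  obtain ⟨κ, hκinj, hκT⟩ := hS
  obtain ⟨a, c, ha, hc0, hcs, hcT⟩ := hE
  have hN : ∀ {ℓ : ℕ}, ¬ ℓ ∣ N * p → ¬ ℓ ∣ N := fun h h' => h (h'.mul_right p)
  -- the family
  let Y : (k →+ ZMod p) →+ GoodHom N p :=
    { toFun := fun lam => ⟨lam.comp c, fun γ hγ => by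
        rw [AddMonoidHom.comp_apply, hcs γ hγ, map_zero]⟩
      map_zero' := rfl
      map_add' := fun _ _ => rfl }
  have hY : ∀ (lam : k →+ ZMod p) (γ : Gamma0 N),
      (Y lam : Additive (Gamma0 N) →+ ZMod p) (Additive.ofMul γ) = lam (c (Additive.ofMul γ)) :=
    fun _ _ => rfl
  refine Glue.exists_residualGaloisRep_of_family hp φ genCheb
    (fun ℓ => (heckeOperatorBar N ℓ).toAddMonoidHom) (fun ℓ _ σ x => hGH ℓ σ x)
    (fun x hx => hOS p hp.ne_zero x hx)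
    (fun ℓ hℓ hℓNp A hA σ hσ x hx => hU ℓ hℓ hℓNp A hA σ hσ x ⟨1, by rwa [pow_one]⟩)
    (fun ℓ hℓ hℓNp A hA σ hσ x hx => hQ ℓ hℓ hℓNp A hA σ hσ x ⟨1, by rwa [pow_one]⟩)
    a (fun ℓ hℓ => ha ℓ (hN hℓ)) (κ.comp Y) ?_ ?_ ?_
  · -- nonzero
    intro h0
    apply hc0
    refine AddMonoidHom.ext fun γ => ?_
    let _ : Algebra (ZMod p) k := ZMod.algebra k p
    rw [AddMonoidHom.zero_apply, ← Module.forall_dual_apply_eq_zero_iff (ZMod p)]
    intro f
    have h1 : κ (Y f.toAddMonoidHom) = 0 := DFunLike.congr_fun h0 f.toAddMonoidHom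
    have h2 : Y f.toAddMonoidHom = 0 := hκinj (by rw [h1, map_zero])
    have h3 := hY f.toAddMonoidHom (Additive.toMul γ)
    rw [h2] at h3
    exact h3.symm
  · -- finite range
    have := finite_addHom_Gamma0 N p
    have : Finite (GoodHom N p) := Finite.of_injective _ Subtype.val_injective
    refine (Set.finite_range κ).subset ?_
    rintro _ ⟨lam, rfl⟩
    exact ⟨Y lam, rfl⟩
  · -- eigenvector
    intro ℓ hℓ lam
    have : NeZero (ℓ : ℕ) := ⟨ℓ.2.ne_zero⟩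
    refine hκT ℓ (hN hℓ) _ _ ?_
    intro γ σ d hd
    rw [hY]
    simp only [hY]
    rw [AddMonoidHom.comp_apply, AddMonoidHom.coe_mulLeft, ← hcT ℓ (hN hℓ) γ σ d hd, map_sum]

end Main

end Fermat.Agent.GAL
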